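/-
GATE-Z (S15) / (MOD), bridge (I4) (helper24): `padicValRat` versus the valuation of a valuation
subring `A` of a field of characteristic zero lying over the prime `ℓ`
(`A.LiesOverPrime ℓ`, i.e. `(ℓ : L) ∈ A.nonunits`).

* `valuation_ratCast`     : `|a|_A = |ℓ|_A ^ padicValRat ℓ a` for `a : ℚ`, `a ≠ 0`;
* `ratCast_not_mem_iff`   : `(a : L) ∉ A ↔ padicValRat ℓ a < 0`;
* `valuation_eq_pow_iff`  : `|a'|_A = |a|_A ^ p ↔ padicValRat ℓ a' = p * padicValRat ℓ a`.

Mathlib + one prelude definition only.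
-/
import Mathlib
import Fermat.Prelude.Def_FLTPrelim_Ramification

set_option autoImplicit false
set_option linter.unusedSectionVars false

namespace Fermat.Agent.GZ.Mod.ValBridge

variable {L : Type*} [Field L] [CharZero L] {A : ValuationSubring L} {ℓ : ℕ}

theorem valuation_prime_lt_one (hA : A.LiesOverPrime ℓ) : A.valuation (ℓ : L) < 1 :=
  A.mem_nonunits_iff.mp hA

theorem valuation_prime_ne_zero (hℓ : ℓ.Prime) : A.valuation (ℓ : L) ≠ 0 :=
  (Valuation.ne_zero_iff _).mpr (Nat.cast_ne_zero.mpr hℓ.ne_zero)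

theorem valuation_prime_pos (hℓ : ℓ.Prime) : 0 < A.valuation (ℓ : L) :=
  zero_lt_iff.mpr (valuation_prime_ne_zero hℓ)

theorem valuation_natCast_le_one (n : ℕ) : A.valuation (n : L) ≤ 1 :=
  (A.valuation_le_one_iff _).mpr (natCast_mem A n)

/-- a natural number prime to `ℓ` is a unit of `A` -/
theorem valuation_natCast_of_not_dvd (hℓ : ℓ.Prime) (hA : A.LiesOverPrime ℓ) {n : ℕ}
    (hn : ¬ ℓ ∣ n) : A.valuation (n : L) = 1 := by
  refine le_antisymm (valuation_natCast_le_one n) ?_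
  by_contra hlt
  rw [not_le] at hlt
  have hcop : IsCoprime (ℓ : ℤ) (n : ℤ) :=
    Nat.isCoprime_iff_coprime.mpr ((Nat.Prime.coprime_iff_not_dvd hℓ).mpr hn)
  obtain ⟨s, t, hst⟩ := hcop
  have h1 : (s : L) * (ℓ : L) + (t : L) * (n : L) = 1 := by
    have := congrArg (fun z : ℤ => (z : L)) hst
    push_cast at this
    exact this
  have hs : A.valuation (s : L) ≤ 1 := (A.valuation_le_one_iff _).mpr (intCast_mem A s)
  have ht : A.valuation (t : L) ≤ 1 := (A.valuation_le_one_iff _).mpr (intCast_mem A t)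
  have h2 : A.valuation ((s : L) * (ℓ : L)) < 1 := by
    rw [map_mul]
    exact mul_lt_one_of_nonneg_of_lt_one_right hs zero_le (valuation_prime_lt_one hA)
  have h3 : A.valuation ((t : L) * (n : L)) < 1 := by
    rw [map_mul]
    exact mul_lt_one_of_nonneg_of_lt_one_right ht zero_le hlt
  have h4 : A.valuation ((s : L) * (ℓ : L) + (t : L) * (n : L)) < 1 :=
    lt_of_le_of_lt (Valuation.map_add _ _ _) (max_lt h2 h3)
  rw [h1, map_one] at h4
  exact lt_irrefl _ h4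

/-- `|n|_A = |ℓ|_A ^ v_ℓ(n)` -/
theorem valuation_natCast (hℓ : ℓ.Prime) (hA : A.LiesOverPrime ℓ) {n : ℕ} (hn : n ≠ 0) :
    A.valuation (n : L) = A.valuation (ℓ : L) ^ padicValNat ℓ n := by
  have : Fact ℓ.Prime := ⟨hℓ⟩
  obtain ⟨e, n', hn', rfl⟩ := Nat.exists_eq_pow_mul_and_not_dvd hn ℓ hℓ.ne_one
  have hn'0 : n' ≠ 0 := by
    rintro rfl
    exact hn' (dvd_zero _)
  rw [padicValNat.mul (pow_ne_zero _ hℓ.ne_zero) hn'0, padicValNat.prime_pow,
    padicValNat.eq_zero_of_not_dvd hn', add_zero]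
  push_cast
  rw [map_mul, map_pow, valuation_natCast_of_not_dvd hℓ hA hn', mul_one]

/-- `|m|_A = |ℓ|_A ^ v_ℓ(m)` -/
theorem valuation_intCast (hℓ : ℓ.Prime) (hA : A.LiesOverPrime ℓ) {m : ℤ} (hm : m ≠ 0) :
    A.valuation (m : L) = A.valuation (ℓ : L) ^ padicValInt ℓ m := by
  have habs : m.natAbs ≠ 0 := Int.natAbs_ne_zero.mpr hm
  have h1 : A.valuation (m : L) = A.valuation ((m.natAbs : ℕ) : L) := by
    rcases Int.natAbs_eq m with h | h
    · have : (m : L) = ((m.natAbs : ℕ) : L) := by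
        conv_lhs => rw [h]
        exact Int.cast_natCast _
      rw [this]
    · have : (m : L) = -((m.natAbs : ℕ) : L) := by
        conv_lhs => rw [h]
        rw [Int.cast_neg, Int.cast_natCast]
      rw [this, Valuation.map_neg]
  rw [h1, valuation_natCast hℓ hA habs]
  rfl

/-- **`|a|_A = |ℓ|_A ^ padicValRat ℓ a`** -/
theorem valuation_ratCast (hℓ : ℓ.Prime) (hA : A.LiesOverPrime ℓ) {a : ℚ} (ha : a ≠ 0) :
    A.valuation ((a : ℚ) : L) = A.valuation (ℓ : L) ^ padicValRat ℓ a := by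
  have hnum : a.num ≠ 0 := Rat.num_ne_zero.mpr ha
  rw [Rat.cast_def, map_div₀, valuation_intCast hℓ hA hnum, valuation_natCast hℓ hA a.den_nz,
    padicValRat_def, zpow_sub₀ (valuation_prime_ne_zero hℓ), zpow_natCast, zpow_natCast]

/-- **`(a : L) ∉ A ↔ padicValRat ℓ a < 0`** -/
theorem ratCast_not_mem_iff (hℓ : ℓ.Prime) (hA : A.LiesOverPrime ℓ) {a : ℚ} (ha : a ≠ 0) :
    ((a : ℚ) : L) ∉ A ↔ padicValRat ℓ a < 0 := by
  rw [← A.valuation_le_one_iff, not_le, valuation_ratCast hℓ hA ha]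
  exact one_lt_zpow_iff_right_of_lt_one₀ (valuation_prime_pos hℓ) (valuation_prime_lt_one hA)

/-- `padicValRat ℓ a < 0` forces `a ≠ 0` -/
theorem ne_zero_of_padicValRat_neg {a : ℚ} (h : padicValRat ℓ a < 0) : a ≠ 0 := by
  rintro rfl
  simp at h

/-- **`|a'|_A = |a|_A ^ p ↔ padicValRat ℓ a' = p * padicValRat ℓ a`** -/
theorem valuation_eq_pow_iff (hℓ : ℓ.Prime) (hA : A.LiesOverPrime ℓ) {a a' : ℚ} (ha : a ≠ 0)
    (ha' : a' ≠ 0) (p : ℕ) :
    A.valuation ((a' : ℚ) : L) = A.valuation ((a : ℚ) : L) ^ p ↔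
      padicValRat ℓ a' = (p : ℤ) * padicValRat ℓ a := by
  rw [valuation_ratCast hℓ hA ha, valuation_ratCast hℓ hA ha', ← zpow_natCast, ← zpow_mul,
    mul_comm]
  exact (zpow_right_injective₀ (valuation_prime_pos hℓ) (valuation_prime_lt_one hA).ne).eq_iff

end Fermat.Agent.GZ.Mod.ValBridge
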