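/-
GATE-Z (S15) / [MOD-alpha], ABSTRACT half (helper48; claims row GZ-MOD-ALPHA-DISC).

On a good reduction frame `R : RedData K F k Ft`, `H : LSpaceHyp R g c` (vocabulary of
`GH/Vocab.lean`, value calculus of `GH/Disc/Values.lean`), with two "cusps" `Q∞ Q0 : Place k Ft` of
the special fibre and two functions `J Jp : F` (in the gate: `j` and `j_p` on `X₀(p)`, reduction at
`ℓ' ≠ p`) such that

* `J⁻¹` is a parameter at `Q∞` and `J ^ p * Jp⁻¹` is a unit there,
* `Jp⁻¹` is a parameter at `Q0` and `Jp ^ p * J⁻¹` is a unit there,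
* `J` is regular on the disc of every other point,

we prove, for a place `x` of the generic fibre with `J(x) = a`, `Jp(x) = a'`, `|a| > 1`:

* `mem_disc_cusp`          : `x` reduces to `Q∞` or to `Q0`;
* `valuation_eq_of_mem_inf` : `x ↦ Q∞ ⟹ |a'| = |a|^p`;  `valuation_eq_of_mem_zero` : `x ↦ Q0 ⟹ |a| = |a'|^p`;
* `rOf_eq_inf_iff`, `rOf_eq_zero_iff` : the two cases are exclusive, so they are equivalences;
* `unique_of_pair`         : a place is determined by the pair `(a, a')`;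
* `exists_mem_disc_inf`, `exists_mem_disc_zero` : the analytic half of existence.
-/
import Mathlib
import Fermat.Agent.GH.Disc.Values

set_option autoImplicit false
set_option linter.unusedSectionVars false

noncomputable section

open AlgebraicCurve

namespace Fermat.Agent.GZ.Mod.AlphaDisc

open Fermat.Agent.RRh45 Fermat.Agent.GJ.S37MinDiv Fermat.Agent.GJ.J1 Fermat.Agent.GJ.S37LSpace
  Fermat.Agent.GJ.S37ROfSurj Fermat.Agent.S24 Fermat.Agent.GH Fermat.Agent.GH.Disc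

/-! ### two more rules of the value calculus -/

section Value

variable {K F : Type*} [Field K] [Field F] [Algebra K F]

theorem valuation_algebraMap_eq_one (P : Place K F) {a : K} (ha : a ≠ 0) :
    P.toValuationSubring.valuation (algebraMap K F a) = 1 := by
  have h1 : P.toValuationSubring.valuation (algebraMap K F a) ≤ 1 :=
    (P.toValuationSubring.valuation_le_one_iff _).mpr (P.algebraMap_mem' a)
  have h2 : P.toValuationSubring.valuation (algebraMap K F a⁻¹) ≤ 1 :=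
    (P.toValuationSubring.valuation_le_one_iff _).mpr (P.algebraMap_mem' a⁻¹)
  have hne : P.toValuationSubring.valuation (algebraMap K F a) ≠ 0 := by
    rw [Valuation.ne_zero_iff]
    simpa using ha
  rw [map_inv₀, map_inv₀, inv_le_one₀ (zero_lt_iff.mpr hne)] at h2
  exact le_antisymm h1 h2

/-- a function with a nonzero value at `P` is a unit at `P`. -/
theorem valuation_eq_one_of_valueAt {P : Place K F} {e : F} {a : K} (he : ValueAt P e a)
    (ha : a ≠ 0) : P.toValuationSubring.valuation e = 1 := by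
  have h1 : P.toValuationSubring.valuation (e - algebraMap K F a) < 1 := he
  have h2 := valuation_algebraMap_eq_one P ha
  have h3 : P.toValuationSubring.valuation (e - algebraMap K F a) <
      P.toValuationSubring.valuation (algebraMap K F a) := by rw [h2]; exact h1
  have h4 := Valuation.map_add_eq_of_lt_left P.toValuationSubring.valuation h3
  rw [add_sub_cancel] at h4
  rw [h4, h2]

/-- **inverse rule**: `e(P) = a ≠ 0 ⟹ e⁻¹(P) = a⁻¹`. -/
theorem valueAt_inv {P : Place K F} {e : F} {a : K} (he : ValueAt P e a) (ha : a ≠ 0) :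
    ValueAt P e⁻¹ a⁻¹ := by
  have hve := valuation_eq_one_of_valueAt he ha
  have hva := valuation_algebraMap_eq_one P ha
  have he0 : e ≠ 0 := by
    rintro rfl
    rw [map_zero] at hve
    exact zero_ne_one hve
  have hx0 : algebraMap K F a ≠ 0 := by simpa using ha
  have hkey : e⁻¹ - algebraMap K F a⁻¹ = -((e - algebraMap K F a) * (e⁻¹ * (algebraMap K F a)⁻¹)) := by
    rw [map_inv₀]
    field_simp
    ring
  show P.toValuationSubring.valuation (e⁻¹ - algebraMap K F a⁻¹) < 1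
  rw [hkey, Valuation.map_neg, map_mul, map_mul, map_inv₀, map_inv₀, hve, hva, inv_one, mul_one,
    mul_one]
  exact he

/-- a function with value `0` at `P` whose inverse is regular at `P` does not exist. -/
theorem not_mem_of_valueAt_zero {P : Place K F} {e : F} (he : ValueAt P e 0) (he0 : e ≠ 0) :
    e⁻¹ ∉ P.toValuationSubring := by
  intro hmem
  have h1 : P.toValuationSubring.valuation e < 1 := by
    have h := he
    unfold ValueAt at h
    rwa [map_zero, sub_zero] at h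
  have h2 : P.toValuationSubring.valuation e⁻¹ ≤ 1 :=
    (P.toValuationSubring.valuation_le_one_iff _).mpr hmem
  have hne : P.toValuationSubring.valuation e ≠ 0 := (Valuation.ne_zero_iff _).mpr he0
  rw [map_inv₀, inv_le_one₀ (zero_lt_iff.mpr hne)] at h2
  exact absurd h1 (not_lt.mpr h2)

end Value

/-! ### the cusp dichotomy -/

section Frame

variable {K F k Ft : Type*} [Field K] [Field F] [Algebra K F] [Field k] [Field Ft] [Algebra k Ft]
variable {R : RedData K F k Ft} {g c : ℤ}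

theorem not_mem_A_iff {a : K} : a ∉ R.A ↔ 1 < R.A.valuation a := by
  rw [← not_le, not_iff_not]
  exact (R.A.valuation_le_one_iff a).symm

variable [FiniteResidues K F] [HasPrincipalDivisors K F] [Nonempty (Place K F)]
variable [FiniteResidues k Ft] [HasPrincipalDivisors k Ft] [Nonempty (Place k Ft)]
variable [Infinite k]
variable {H : LSpaceHyp R g c}

theorem mem_disc_rOf (H : LSpaceHyp R g c) (x : Place K F) : x ∈ disc H (rOf H x) := rfl

/-- **a pole of the value forces a pole of the reduction**: if `J(x) = a` with `|a| > 1` then `J`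
is not regular on the disc of the reduction of `x`. -/
theorem not_mem_Odisc_of_valueAt {J : F} {x : Place K F} {a : K} (hx : ValueAt x J a)
    (ha : a ∉ R.A) : J ∉ Odisc H (rOf H x) :=
  fun hJ => ha (valueAt_mem_A hJ (mem_disc_rOf H x) hx)

/-- **`x` reduces to one of the two cusps.** -/
theorem mem_disc_cusp {Qi Qz : Place k Ft} {J : F}
    (hreg : ∀ Q : Place k Ft, Q ≠ Qi → Q ≠ Qz → J ∈ Odisc H Q)
    {x : Place K F} {a : K} (hx : ValueAt x J a) (ha : a ∉ R.A) :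
    rOf H x = Qi ∨ rOf H x = Qz := by
  by_contra hne
  rw [not_or] at hne
  exact not_mem_Odisc_of_valueAt hx ha (hreg _ hne.1 hne.2)

/-- **the unit test**: if `E₂ ^ p * E₁⁻¹` is a unit on the disc of `Q` (regular, reduction a unit
at `Q`), `x` lies in that disc, `E₁(x) = a₁`, `E₂(x) = a₂` and one of the two values is nonzero,
then both are nonzero and `|a₁| = |a₂| ^ p`. -/
theorem valuation_eq_pow_of_unit {Q : Place k Ft} {E₁ E₂ : F} {p : ℕ} (hp : p ≠ 0)
    (hU : E₂ ^ p * E₁⁻¹ ∈ Odisc H Q) (hUred : R.red ⟨E₂ ^ p * E₁⁻¹, hU.1⟩ ≠ 0)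
    (hUord : Q.ord (R.red ⟨E₂ ^ p * E₁⁻¹, hU.1⟩) = 0)
    {x : Place K F} (hx : x ∈ disc H Q) {a₁ a₂ : K} (h₁ : ValueAt x E₁ a₁) (h₂ : ValueAt x E₂ a₂)
    (hne : a₁ ≠ 0 ∨ a₂ ≠ 0) :
    a₁ ≠ 0 ∧ a₂ ≠ 0 ∧ R.A.valuation a₁ = R.A.valuation a₂ ^ p := by
  have hU0 : E₂ ^ p * E₁⁻¹ ≠ 0 := coe_ne_zero_of_red_ne_zero (y := ⟨_, hU.1⟩) hUred
  have hE₂0 : E₂ ≠ 0 := by
    rintro rfl
    rw [zero_pow hp, zero_mul] at hU0
    exact hU0 rfl
  have hE₁0 : E₁ ≠ 0 := by
    rintro rfl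
    rw [inv_zero, mul_zero] at hU0
    exact hU0 rfl
  have hUinv : (E₂ ^ p * E₁⁻¹)⁻¹ ∈ Odisc H Q := inv_mem_Odisc hU hUred hUord
  have hinveq : (E₂ ^ p * E₁⁻¹)⁻¹ = E₁ * (E₂⁻¹) ^ p := by
    rw [mul_inv, inv_inv, inv_pow, mul_comm]
  -- both values are nonzero
  have hboth : a₁ ≠ 0 ∧ a₂ ≠ 0 := by
    rcases hne with h | h
    · refine ⟨h, ?_⟩
      rintro rfl
      -- `U` has value `0` at `x`, so `U⁻¹` is not regular at `x`
      have hv : ValueAt x (E₂ ^ p * E₁⁻¹) 0 := by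
        have := valueAt_mul (valueAt_pow h₂ p) (valueAt_inv h₁ h)
        rwa [zero_pow hp, zero_mul] at this
      exact not_mem_of_valueAt_zero hv hU0 (hUinv.2 x hx)
    · refine ⟨?_, h⟩
      rintro rfl
      have hv : ValueAt x ((E₂ ^ p * E₁⁻¹)⁻¹) 0 := by
        have := valueAt_mul h₁ (valueAt_pow (valueAt_inv h₂ h) p)
        rwa [zero_mul, ← hinveq] at this
      have hmem := hU.2 x hx
      rw [← inv_inv (E₂ ^ p * E₁⁻¹)] at hmem
      exact not_mem_of_valueAt_zero hv (inv_ne_zero hU0) hmem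
  obtain ⟨ha₁, ha₂⟩ := hboth
  refine ⟨ha₁, ha₂, ?_⟩
  -- the values of `U` and `U⁻¹` lie in `A`
  have hv : ValueAt x (E₂ ^ p * E₁⁻¹) (a₂ ^ p * a₁⁻¹) :=
    valueAt_mul (valueAt_pow h₂ p) (valueAt_inv h₁ ha₁)
  have hv' : ValueAt x ((E₂ ^ p * E₁⁻¹)⁻¹) (a₁ * (a₂⁻¹) ^ p) := by
    rw [hinveq]
    exact valueAt_mul h₁ (valueAt_pow (valueAt_inv h₂ ha₂) p)
  have hA := valueAt_mem_A hU hx hv
  have hA' := valueAt_mem_A hUinv hx hv'
  have hle : R.A.valuation (a₂ ^ p * a₁⁻¹) ≤ 1 := (R.A.valuation_le_one_iff _).mpr hA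
  have hle' : R.A.valuation (a₁ * (a₂⁻¹) ^ p) ≤ 1 := (R.A.valuation_le_one_iff _).mpr hA'
  have hv₁ : R.A.valuation a₁ ≠ 0 := (Valuation.ne_zero_iff _).mpr ha₁
  have hv₂ : R.A.valuation a₂ ≠ 0 := (Valuation.ne_zero_iff _).mpr ha₂
  have hv₂p : R.A.valuation a₂ ^ p ≠ 0 := pow_ne_zero _ hv₂
  rw [map_mul, map_pow, map_inv₀] at hle hle'
  -- `|a₂|^p ≤ |a₁|` and `|a₁| ≤ |a₂|^p`
  have h1 : R.A.valuation a₂ ^ p ≤ R.A.valuation a₁ := by
    have := mul_le_mul_left hle (R.A.valuation a₁)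
    rwa [mul_assoc, inv_mul_cancel₀ hv₁, mul_one, one_mul] at this
  have h2 : R.A.valuation a₁ ≤ R.A.valuation a₂ ^ p := by
    rw [inv_pow] at hle'
    have := mul_le_mul_left hle' (R.A.valuation a₂ ^ p)
    rwa [mul_assoc, inv_mul_cancel₀ hv₂p, mul_one, one_mul] at this
  exact le_antisymm h2 h1

/-! ### the packaged cusp hypotheses and the main statements -/

/-- **The cusp facts of the reduced fibre** (instance side of [MOD-alpha]): `J⁻¹` is a parameter at
`Qi` and `J ^ p * Jp⁻¹` a unit there; `Jp⁻¹` is a parameter at `Qz` and `Jp ^ p * J⁻¹` a unit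
there; `J` is regular on the disc of every other point. -/
structure CuspHyp (H : LSpaceHyp R g c) (Qi Qz : Place k Ft) (J Jp : F) (p : ℕ) : Prop where
  two_le : 2 ≤ p
  inf_param : J⁻¹ ∈ Odisc H Qi
  inf_param_ord : Qi.ord (R.red ⟨J⁻¹, inf_param.1⟩) = 1
  inf_unit : J ^ p * Jp⁻¹ ∈ Odisc H Qi
  inf_unit_ne : R.red ⟨J ^ p * Jp⁻¹, inf_unit.1⟩ ≠ 0
  inf_unit_ord : Qi.ord (R.red ⟨J ^ p * Jp⁻¹, inf_unit.1⟩) = 0
  zero_param : Jp⁻¹ ∈ Odisc H Qz
  zero_param_ord : Qz.ord (R.red ⟨Jp⁻¹, zero_param.1⟩) = 1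
  zero_unit : Jp ^ p * J⁻¹ ∈ Odisc H Qz
  zero_unit_ne : R.red ⟨Jp ^ p * J⁻¹, zero_unit.1⟩ ≠ 0
  zero_unit_ord : Qz.ord (R.red ⟨Jp ^ p * J⁻¹, zero_unit.1⟩) = 0
  reg : ∀ Q : Place k Ft, Q ≠ Qi → Q ≠ Qz → J ∈ Odisc H Q

namespace CuspHyp

variable {Qi Qz : Place k Ft} {J Jp : F} {p : ℕ} (C : CuspHyp H Qi Qz J Jp p)
variable {x : Place K F} {a a' : K}

include C

theorem p_ne_zero : p ≠ 0 := by have := C.two_le; omega

/-- `x` reduces to one of the two cusps. -/
theorem rOf_mem (hx : ValueAt x J a) (ha : a ∉ R.A) : rOf H x = Qi ∨ rOf H x = Qz :=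
  mem_disc_cusp C.reg hx ha

/-- `x ↦ Qi ⟹ a' ≠ 0 ∧ |a'| = |a| ^ p`. -/
theorem valuation_eq_of_mem_inf (hx : ValueAt x J a) (hx' : ValueAt x Jp a') (ha : a ∉ R.A)
    (hr : rOf H x = Qi) : a' ≠ 0 ∧ R.A.valuation a' = R.A.valuation a ^ p := by
  have ha0 : a ≠ 0 := fun h => ha (h ▸ R.A.zero_mem)
  obtain ⟨h1, -, h3⟩ := valuation_eq_pow_of_unit C.p_ne_zero C.inf_unit C.inf_unit_ne
    C.inf_unit_ord (x := x) hr hx' hx (Or.inr ha0)
  exact ⟨h1, h3⟩

/-- `x ↦ Qz ⟹ a' ≠ 0 ∧ |a| = |a'| ^ p`. -/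
theorem valuation_eq_of_mem_zero (hx : ValueAt x J a) (hx' : ValueAt x Jp a') (ha : a ∉ R.A)
    (hr : rOf H x = Qz) : a' ≠ 0 ∧ R.A.valuation a = R.A.valuation a' ^ p := by
  have ha0 : a ≠ 0 := fun h => ha (h ▸ R.A.zero_mem)
  obtain ⟨-, h2, h3⟩ := valuation_eq_pow_of_unit C.p_ne_zero C.zero_unit C.zero_unit_ne
    C.zero_unit_ord (x := x) hr hx hx' (Or.inl ha0)
  exact ⟨h2, h3⟩

omit C in
/-- the two valuation patterns are exclusive when `|a| > 1`, `p ≥ 2`. -/
theorem not_both (hp : 2 ≤ p) (ha : a ∉ R.A) :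
    ¬ (R.A.valuation a' = R.A.valuation a ^ p ∧ R.A.valuation a = R.A.valuation a' ^ p) := by
  rintro ⟨h1, h2⟩
  have hv : 1 < R.A.valuation a := not_mem_A_iff.mp ha
  rw [h1, ← pow_mul] at h2
  have hlt : R.A.valuation a ^ 1 < R.A.valuation a ^ (p * p) :=
    pow_lt_pow_right₀ hv (by nlinarith)
  rw [pow_one, ← h2] at hlt
  exact lt_irrefl _ hlt

/-- in both cases the second coordinate has a pole as well: `|a'| > 1`. -/
theorem not_mem_A_snd (hx : ValueAt x J a) (hx' : ValueAt x Jp a') (ha : a ∉ R.A) : a' ∉ R.A := by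
  have hv : 1 < R.A.valuation a := not_mem_A_iff.mp ha
  rw [not_mem_A_iff]
  rcases C.rOf_mem hx ha with hr | hr
  · rw [(C.valuation_eq_of_mem_inf hx hx' ha hr).2]
    exact one_lt_pow₀ hv C.p_ne_zero
  · have h := (C.valuation_eq_of_mem_zero hx hx' ha hr).2
    by_contra hle
    rw [not_lt] at hle
    have : R.A.valuation a' ^ p ≤ 1 := pow_le_one₀ zero_le hle
    rw [← h] at this
    exact absurd hv (not_lt.mpr this)

/-- **`x ↦ Qi ⟺ |a'| = |a| ^ p`.** -/
theorem rOf_eq_inf_iff (hx : ValueAt x J a) (hx' : ValueAt x Jp a') (ha : a ∉ R.A) :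
    rOf H x = Qi ↔ R.A.valuation a' = R.A.valuation a ^ p := by
  refine ⟨fun hr => (C.valuation_eq_of_mem_inf hx hx' ha hr).2, fun hv => ?_⟩
  rcases C.rOf_mem hx ha with hr | hr
  · exact hr
  · exact absurd ⟨hv, (C.valuation_eq_of_mem_zero hx hx' ha hr).2⟩ (not_both C.two_le ha)

/-- **`x ↦ Qz ⟺ |a| = |a'| ^ p`.** -/
theorem rOf_eq_zero_iff (hx : ValueAt x J a) (hx' : ValueAt x Jp a') (ha : a ∉ R.A) :
    rOf H x = Qz ↔ R.A.valuation a = R.A.valuation a' ^ p := by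
  refine ⟨fun hr => (C.valuation_eq_of_mem_zero hx hx' ha hr).2, fun hv => ?_⟩
  rcases C.rOf_mem hx ha with hr | hr
  · exact absurd ⟨(C.valuation_eq_of_mem_inf hx hx' ha hr).2, hv⟩ (not_both C.two_le ha)
  · exact hr

/-- exactly one of the two valuation patterns holds. -/
theorem valuation_dichotomy (hx : ValueAt x J a) (hx' : ValueAt x Jp a') (ha : a ∉ R.A) :
    R.A.valuation a' = R.A.valuation a ^ p ∨ R.A.valuation a = R.A.valuation a' ^ p := by
  rcases C.rOf_mem hx ha with hr | hr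
  · exact Or.inl (C.valuation_eq_of_mem_inf hx hx' ha hr).2
  · exact Or.inr (C.valuation_eq_of_mem_zero hx hx' ha hr).2

/-- **uniqueness**: a place is determined by its pair of values `(a, a')`, `|a| > 1`. -/
theorem unique_of_pair {x' : Place K F} (hx : ValueAt x J a) (hxp : ValueAt x Jp a')
    (hx' : ValueAt x' J a) (hxp' : ValueAt x' Jp a') (ha : a ∉ R.A) : x = x' := by
  have ha0 : a ≠ 0 := fun h => ha (h ▸ R.A.zero_mem)
  have ha' : a' ∉ R.A := C.not_mem_A_snd hx hxp ha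
  have ha'0 : a' ≠ 0 := fun h => ha' (h ▸ R.A.zero_mem)
  have hva : R.A.valuation a⁻¹ < 1 := by
    rw [map_inv₀]
    exact inv_lt_one_of_one_lt₀ (not_mem_A_iff.mp ha)
  have hva' : R.A.valuation a'⁻¹ < 1 := by
    rw [map_inv₀]
    exact inv_lt_one_of_one_lt₀ (not_mem_A_iff.mp ha')
  rcases C.rOf_mem hx ha with hr | hr
  · -- both reduce to `Qi`; `J⁻¹` is a parameter there
    have hr' : rOf H x' = Qi :=
      (C.rOf_eq_inf_iff hx' hxp' ha).mpr ((C.rOf_eq_inf_iff hx hxp ha).mp hr)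
    obtain ⟨P, -, hP⟩ := param_existsUnique C.inf_param C.inf_param_ord hva
    rw [hP x ⟨hr, valueAt_inv hx ha0⟩, hP x' ⟨hr', valueAt_inv hx' ha0⟩]
  · have hr' : rOf H x' = Qz :=
      (C.rOf_eq_zero_iff hx' hxp' ha).mpr ((C.rOf_eq_zero_iff hx hxp ha).mp hr)
    obtain ⟨P, -, hP⟩ := param_existsUnique C.zero_param C.zero_param_ord hva'
    rw [hP x ⟨hr, valueAt_inv hxp ha'0⟩, hP x' ⟨hr', valueAt_inv hxp' ha'0⟩]

/-- **analytic existence at `Qi`**: every `a` with `|a| > 1` is the `J`-value of a (unique) place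
of the disc of `Qi`. -/
theorem exists_mem_disc_inf (ha : a ∉ R.A) : ∃ x : Place K F, rOf H x = Qi ∧ ValueAt x J a := by
  have ha0 : a ≠ 0 := fun h => ha (h ▸ R.A.zero_mem)
  have hva : R.A.valuation a⁻¹ < 1 := by
    rw [map_inv₀]
    exact inv_lt_one_of_one_lt₀ (not_mem_A_iff.mp ha)
  obtain ⟨P, ⟨hP, hv⟩, -⟩ := param_existsUnique C.inf_param C.inf_param_ord hva
  refine ⟨P, hP, ?_⟩
  have := valueAt_inv hv (inv_ne_zero ha0)
  rwa [inv_inv, inv_inv] at this

/-- **analytic existence at `Qz`**: every `a'` with `|a'| > 1` is the `Jp`-value of a (unique)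
place of the disc of `Qz`. -/
theorem exists_mem_disc_zero (ha' : a' ∉ R.A) :
    ∃ x : Place K F, rOf H x = Qz ∧ ValueAt x Jp a' := by
  have ha0 : a' ≠ 0 := fun h => ha' (h ▸ R.A.zero_mem)
  have hva : R.A.valuation a'⁻¹ < 1 := by
    rw [map_inv₀]
    exact inv_lt_one_of_one_lt₀ (not_mem_A_iff.mp ha')
  obtain ⟨P, ⟨hP, hv⟩, -⟩ := param_existsUnique C.zero_param C.zero_param_ord hva
  refine ⟨P, hP, ?_⟩
  have := valueAt_inv hv (inv_ne_zero ha0)
  rwa [inv_inv, inv_inv] at this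

end CuspHyp

end Frame

end Fermat.Agent.GZ.Mod.AlphaDisc
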