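/-
GATE-Z (S15) / [MOD-alpha], SPEC-ONLY form (helper48; claims row GZ-MOD-ALPHA-DISC).

The cusp dichotomy of `GZ/Mod/AlphaDisc.lean` for ANY place map `r` satisfying the fibre formula of
the prelude specification (`GJ/S37/UniqFrac.spec_frac` gives it for every `r'` with
`IsPlaceReductionModL A N r'` over `redDataFull N A hle`), with NO `LSpaceHyp`: so it applies at the
residue characteristics `2, 3` as well, and to whatever map `placeReductionModL h` is.

* `SpecMap R`          : `degF`, a place map `r`, and the fibre formula on `R.Rw`;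
* `SpecMap.toFibreHyp` : the local frame `GS/Frame/Local.FibreHyp R` (`B = Rw`, every point good);
* `SpecMap.exists_pole_of_value_not_mem` : `|J(x)| > 1` forces a pole of `J` in the disc of `x`;
* `SpecMap.r_eq_of_dominant`  : a pole of `J` that dominates all the others reduces to the point
  where `red J` has the matching pole;
* `PoleAt S c Q J n` : `c` is the only pole of `J` on the disc of `Q`, of order `n`, and `red J` has a
  pole of order `n` at `Q`; `PoleAt.ord_eq_zero`, `PoleAt.value_not_mem`,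
  `PoleAt.valuation_pow_eq` (`|J₁(x)| ^ n₂ = |J₂(x)| ^ n₁` on the disc), `PoleAt.existsUnique`;
* `PoleData S cI cZ Qi Qz J Jp p` : the PRIMITIVE facts at LEVEL `p` (pole orders of `J`, `Jp` at the
  two cusps of the generic fibre and of their reductions at the two cusps of the special fibre) and
  `PoleData.r_cI : S.r cI = Qi`, `PoleData.r_cZ : S.r cZ = Qz`, `r_mem`, `r_eq_inf_iff`,
  `r_eq_zero_iff`, `unique_of_pair`, `exists_inf`, `exists_zero` — as `CuspHyp` in `AlphaDisc`.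
The version for a finite family of cusps and functions (levels `2p`, `3p`) is
`GZ/Mod/AlphaFamily.lean`.
-/
import Mathlib
import Fermat.Agent.GS.Frame.Loc.Values
import Fermat.Agent.GZ.Mod.AlphaDisc

set_option autoImplicit false
set_option linter.unusedSectionVars false

noncomputable section

open AlgebraicCurve

namespace Fermat.Agent.GZ.Mod.AlphaSpec

open Fermat.Agent.RRh45 Fermat.Agent.GJ.J1 Fermat.Agent.S24 Fermat.Agent.GH
  Fermat.Agent.GZ.Mod.AlphaDisc
open Fermat.Agent.GS.Frame.Local (FibreHyp IsU)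
open Fermat.Agent.GH.Disc (valueAt_iff_ord valueAt_mem valueAt_const valueAt_add
  valueAt_neg valueAt_sub valueAt_mul valueAt_pow valueAt_unique valueAt_zero_iff exists_valueAt
  coe_ne_zero_of_red_ne_zero)

open scoped Classical

variable {K F k Ft : Type*} [Field K] [Field F] [Algebra K F] [Field k] [Field Ft] [Algebra k Ft]

/-! ### `mapDomain` as a sum over a fibre -/

theorem mapDomain_apply_eq_sum {α β : Type*} (f : α → β) (D : α →₀ ℤ) (b : β) :
    Finsupp.mapDomain f D b = ∑ a ∈ D.support.filter (fun a => f a = b), D a := by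
  rw [Finsupp.mapDomain, Finsupp.sum_apply, Finsupp.sum, Finset.sum_filter]
  refine Finset.sum_congr rfl fun a _ => ?_
  rw [Finsupp.single_apply]

/-! ### the valuation ring of the reduction datum -/

section Rw

variable (R : RedData K F k Ft)

/-- an element of `Rw` with nonzero reduction is a unit of `Rw`. -/
theorem inv_mem_Rw_of_red_ne_zero {y : F} (hy : y ∈ R.Rw) (hred : R.red ⟨y, hy⟩ ≠ 0) :
    y⁻¹ ∈ R.Rw := by
  have hnm : (⟨y, hy⟩ : R.Rw) ∉ IsLocalRing.maximalIdeal R.Rw := fun h =>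
    hred ((R.red_eq_zero_iff _).mpr h)
  rw [IsLocalRing.mem_maximalIdeal, mem_nonunits_iff, not_not] at hnm
  obtain ⟨v, hv⟩ := hnm.exists_right_inv
  have h2 : y * (v : F) = 1 := congrArg Subtype.val hv
  rw [← eq_inv_of_mul_eq_one_right h2]
  exact v.2

theorem red_inv {y : F} (hy : y ∈ R.Rw) (hred : R.red ⟨y, hy⟩ ≠ 0) :
    R.red ⟨y⁻¹, inv_mem_Rw_of_red_ne_zero R hy hred⟩ = (R.red ⟨y, hy⟩)⁻¹ := by
  have hy0 : y ≠ 0 := by
    rintro rfl
    exact hred (by rw [show (⟨0, hy⟩ : R.Rw) = 0 from rfl, map_zero])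
  have hmul : (⟨y, hy⟩ : R.Rw) * ⟨y⁻¹, inv_mem_Rw_of_red_ne_zero R hy hred⟩ = 1 :=
    Subtype.ext (mul_inv_cancel₀ hy0)
  have := congrArg R.red hmul
  rw [map_mul, map_one] at this
  exact eq_inv_of_mul_eq_one_right this

end Rw

/-! ### place maps satisfying the fibre formula -/

/-- A place map satisfying the fibre formula of the prelude specification on the whole valuation
ring `R.Rw`. -/
structure SpecMap (R : RedData K F k Ft) where
  degF : ∀ P : Place K F, P.deg = 1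
  r : Place K F → Place k Ft
  fibre : ∀ (y : R.Rw), R.red y ≠ 0 → ∀ D : Divisor K F, (∀ P, D P = P.ord (y : F)) →
    ∀ Q : Place k Ft, Finsupp.mapDomain r D Q = Q.ord (R.red y)

variable {R : RedData K F k Ft}

namespace SpecMap

variable (S : SpecMap R)

/-- the fibre formula as a sum over the places reducing to `Q`. -/
theorem ord_red_eq_sum {y : F} (hy : y ∈ R.Rw) (hred : R.red ⟨y, hy⟩ ≠ 0) {D : Divisor K F}
    (hD : ∀ P, D P = P.ord y) (Q : Place k Ft) :
    Q.ord (R.red ⟨y, hy⟩) = ∑ P ∈ D.support.filter (fun P => S.r P = Q), P.ord y := by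
  rw [← S.fibre ⟨y, hy⟩ hred D hD Q, mapDomain_apply_eq_sum]
  exact Finset.sum_congr rfl fun P _ => hD P

/-- the local frame attached to `S`: `B = Rw`, radical = kernel of the reduction, every special
place good, `rOf = some ∘ r`. -/
def toFibreHyp : FibreHyp R where
  degF := S.degF
  B := R.Rw.toSubring
  B_le := fun _ hx => hx
  const_mem_B := fun a ha => (R.mem_A_iff a).1 ha
  rad := {z | ∃ h : z ∈ R.Rw, R.red ⟨z, h⟩ = 0}
  rad_sub_B := fun _ hz => hz.1
  rad_red := fun _ hz => hz.2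
  rad_add := fun z hz z' hz' => ⟨add_mem hz.1 hz'.1, by
    rw [show (⟨z + z', add_mem hz.1 hz'.1⟩ : R.Rw) = ⟨z, hz.1⟩ + ⟨z', hz'.1⟩ from rfl, map_add,
      hz.2, hz'.2, add_zero]⟩
  rad_mul := fun b hb z hz => ⟨mul_mem hb hz.1, by
    rw [show (⟨b * z, mul_mem hb hz.1⟩ : R.Rw) = ⟨b, hb⟩ * ⟨z, hz.1⟩ from rfl, map_mul, hz.2,
      mul_zero]⟩
  rad_const := fun a ha => by
    have haA : a ∈ R.A := (R.A.valuation_le_one_iff a).mp ha.le
    refine ⟨(R.mem_A_iff a).1 haA, ?_⟩
    have h1 := R.red_algebraMap ⟨a, haA⟩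
    have h2 : R.res ⟨a, haA⟩ = 0 := (Fermat.Agent.GH.Disc.res_eq_zero_iff (R := R) ⟨a, haA⟩).mpr ha
    rw [h2, map_zero] at h1
    exact h1
  rad_unit := fun z hz => by
    have h1 : R.red ⟨1 + z, add_mem (one_mem _) hz.1⟩ = 1 := by
      rw [show (⟨1 + z, add_mem (one_mem _) hz.1⟩ : R.Rw) = 1 + ⟨z, hz.1⟩ from rfl, map_add,
        map_one, hz.2, add_zero]
    exact inv_mem_Rw_of_red_ne_zero R _ (by rw [h1]; exact one_ne_zero)
  good := Set.univ
  rOf := fun P => some (S.r P)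
  fibre := fun y hy hyinv Dy hDy Q _ => by
    by_cases hy0 : y = 0
    · subst hy0
      have hD0 : Dy = 0 := by
        ext P
        rw [hDy P, Place.ord_zero, Finsupp.zero_apply]
      rw [hD0, Finsupp.support_zero, Finset.filter_empty, Finset.sum_empty,
        show (⟨0, hy⟩ : R.Rw) = 0 from rfl, map_zero, Place.ord_zero]
    · have hred : R.red ⟨y, hy⟩ ≠ 0 := by
        intro h0
        have hmul : (⟨y, hy⟩ : R.Rw) * ⟨y⁻¹, hyinv⟩ = 1 := Subtype.ext (mul_inv_cancel₀ hy0)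
        have := congrArg R.red hmul
        rw [map_mul, h0, zero_mul, map_one] at this
        exact zero_ne_one this
      rw [S.ord_red_eq_sum hy hred hDy Q]
      refine Finset.sum_congr ?_ fun _ _ => rfl
      ext P
      simp only [Finset.mem_filter, Option.some.injEq]

@[simp] theorem mem_disc_iff {Q : Place k Ft} {P : Place K F} :
    P ∈ Fermat.Agent.GS.Frame.Local.disc S.toFibreHyp Q ↔ S.r P = Q := by
  show some (S.r P) = some Q ↔ S.r P = Q
  exact Option.some_inj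

theorem mem_good (Q : Place k Ft) : Q ∈ S.toFibreHyp.good := Set.mem_univ Q

theorem mem_Odisc_iff {Q : Place k Ft} {e : F} :
    e ∈ Fermat.Agent.GS.Frame.Local.Odisc S.toFibreHyp Q ↔
      e ∈ R.Rw ∧ ∀ P : Place K F, S.r P = Q → e ∈ P.toValuationSubring := by
  constructor
  · rintro ⟨h1, h2⟩
    exact ⟨h1, fun P hP => h2 P ((S.mem_disc_iff).mpr hP)⟩
  · rintro ⟨h1, h2⟩
    exact ⟨h1, fun P hP => h2 P ((S.mem_disc_iff).mp hP)⟩

/-- units of `B = Rw`: nonzero reduction. -/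
theorem isU_of_red_ne_zero {y : F} (hy : y ∈ R.Rw) (hred : R.red ⟨y, hy⟩ ≠ 0) :
    IsU S.toFibreHyp y := by
  refine ⟨?_, hy, inv_mem_Rw_of_red_ne_zero R hy hred⟩
  rintro rfl
  exact hred (by rw [show (⟨0, hy⟩ : R.Rw) = 0 from rfl, map_zero])

/-! ### functions regular on a disc, wrappers of the local value calculus -/

/-- `e` is `w`-integral and has no pole at the places reducing to `Q`. -/
def RegOn (Q : Place k Ft) (e : F) : Prop :=
  e ∈ R.Rw ∧ ∀ P : Place K F, S.r P = Q → e ∈ P.toValuationSubring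

theorem regOn_iff {Q : Place k Ft} {e : F} :
    S.RegOn Q e ↔ e ∈ Fermat.Agent.GS.Frame.Local.Odisc S.toFibreHyp Q :=
  (S.mem_Odisc_iff).symm

variable [HasPrincipalDivisors K F]

/-- **max modulus**: the values on the disc of a function regular on the disc lie in `R.A`. -/
theorem value_mem_A {Q : Place k Ft} {e : F} (he : S.RegOn Q e) {P : Place K F} (hP : S.r P = Q)
    {a : K} (ha : ValueAt P e a) : a ∈ R.A :=
  Fermat.Agent.GS.Frame.Local.valueAt_mem_A (S.regOn_iff.mp he) (S.mem_good Q)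
    (S.mem_disc_iff.mpr hP) ha

/-- **a parameter takes every small value exactly once.** -/
theorem param_existsUnique' {Q : Place k Ft} {t : F} (ht : S.RegOn Q t)
    (hred : Q.ord (R.red ⟨t, ht.1⟩) = 1) {a : K} (ha : R.A.valuation a < 1) :
    ∃! P : Place K F, S.r P = Q ∧ ValueAt P t a := by
  have haA : a ∈ R.A := (R.A.valuation_le_one_iff a).mp ha.le
  have hred0 : R.red ⟨t, ht.1⟩ ≠ 0 := by
    intro h0
    rw [h0, Place.ord_zero] at hred
    exact zero_ne_one hred
  have hmem : t - algebraMap K F a ∈ R.Rw := sub_mem ht.1 ((R.mem_A_iff a).1 haA)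
  have hredeq : R.red ⟨t - algebraMap K F a, hmem⟩ = R.red ⟨t, ht.1⟩ :=
    Fermat.Agent.GS.Frame.Local.red_sub_const_small (Φ := S.toFibreHyp) (t := t) ht.1 ha
  have hU : IsU S.toFibreHyp (t - algebraMap K F a) :=
    S.isU_of_red_ne_zero hmem (by rw [hredeq]; exact hred0)
  obtain ⟨P, ⟨hP, hv⟩, huniq⟩ := Fermat.Agent.GS.Frame.Local.param_existsUnique
    (S.regOn_iff.mp ht) (S.mem_good Q) hred ha hU
  exact ⟨P, ⟨S.mem_disc_iff.mp hP, hv⟩, fun P' hP' => huniq P' ⟨S.mem_disc_iff.mpr hP'.1, hP'.2⟩⟩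

/-- the values on the disc of a function regular on the disc whose reduction vanishes at `Q` lie in
the maximal ideal of `R.A`. -/
theorem value_lt_one {Q : Place k Ft} {t : F} (ht : S.RegOn Q t)
    (hred : 0 < Q.ord (R.red ⟨t, ht.1⟩)) {P : Place K F} (hP : S.r P = Q) {a : K}
    (ha : ValueAt P t a) : R.A.valuation a < 1 := by
  have hred0 : R.red ⟨t, ht.1⟩ ≠ 0 := by
    intro h0
    rw [h0, Place.ord_zero] at hred
    exact lt_irrefl _ hred
  refine Fermat.Agent.GS.Frame.Local.valuation_lt_one_of_isU (S.regOn_iff.mp ht) (S.mem_good Q)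
    hred ?_ (S.mem_disc_iff.mpr hP) ha
  intro b hb
  have hmem : t - algebraMap K F b ∈ R.Rw := sub_mem ht.1 ((R.mem_A_iff b).1 hb)
  refine S.isU_of_red_ne_zero hmem ?_
  have e : (⟨t - algebraMap K F b, hmem⟩ : R.Rw)
      = ⟨t, ht.1⟩ - ⟨algebraMap K F b, (R.mem_A_iff b).1 hb⟩ := rfl
  rw [e, map_sub, R.red_algebraMap ⟨b, hb⟩]
  intro h0
  -- `red t` would be the constant `res b`, of order `0` or equal to `0`
  rw [sub_eq_zero] at h0
  rw [h0] at hred
  by_cases hb0 : R.res ⟨b, hb⟩ = 0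
  · rw [hb0, map_zero, Place.ord_zero] at hred
    exact lt_irrefl _ hred
  · rw [PlaceB.ord_algebraMap Q hb0] at hred
    exact lt_irrefl _ hred

/-! ### poles of the value force poles on the disc -/

/-- **(G1)** if `J(x) = a` with `|a| > 1`, then `J` has a pole at a place with the same reduction
as `x`. -/
theorem exists_pole_of_value_not_mem {J : F} (hJ : J ∈ R.Rw) {x : Place K F} {a : K}
    (hx : ValueAt x J a) (ha : a ∉ R.A) : ∃ c : Place K F, c.ord J < 0 ∧ S.r c = S.r x := by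
  by_contra hne
  have hne : ∀ c : Place K F, c.ord J < 0 → S.r c ≠ S.r x := fun c hc hr => hne ⟨c, hc, hr⟩
  have hJ0 : J ≠ 0 := by
    rintro rfl
    have h0 : ValueAt x (0 : F) 0 := (valueAt_zero_iff x 0).mpr (Or.inl rfl)
    have : a = 0 := valueAt_unique hx h0
    exact ha (this ▸ R.A.zero_mem)
  have hreg : S.RegOn (S.r x) J := by
    refine ⟨hJ, fun P hP => (PlaceB.ord_nonneg_iff P hJ0).mp ?_⟩
    by_contra hlt
    exact hne P (not_le.mp hlt) hP
  exact ha (S.value_mem_A hreg rfl hx)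

/-- **(L)** if `c` is the only pole of `f` on the disc of `Q` and `ord_c f = ord_Q (red f)`, then
`f` has neither zero nor pole at the other places of the disc. -/
theorem ord_eq_zero_of_unique_pole {f : F} (hf : f ∈ R.Rw) (hred : R.red ⟨f, hf⟩ ≠ 0)
    {c : Place K F} {Q : Place k Ft} (hc : S.r c = Q)
    (hpole : ∀ P : Place K F, S.r P = Q → P.ord f < 0 → P = c)
    (hord : c.ord f = Q.ord (R.red ⟨f, hf⟩))
    {P : Place K F} (hP : S.r P = Q) (hne : P ≠ c) : P.ord f = 0 := by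
  have hf0 : f ≠ 0 := coe_ne_zero_of_red_ne_zero (y := ⟨f, hf⟩) hred
  obtain ⟨D, hD, -⟩ := HasPrincipalDivisors.exists_divisor (K := K) f hf0
  have hsum := S.ord_red_eq_sum hf hred hD Q
  set T := D.support.filter (fun P => S.r P = Q) with hT
  have hnn : ∀ P' ∈ T.erase c, 0 ≤ P'.ord f := by
    intro P' hP'
    have h1 := Finset.mem_erase.mp hP'
    by_contra hlt
    exact h1.1 (hpole P' (Finset.mem_filter.mp h1.2).2 (not_le.mp hlt))
  have hzero : ∑ P' ∈ T.erase c, P'.ord f = 0 := by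
    by_cases hcT : c ∈ T
    · have h2 := Finset.add_sum_erase T (fun P => P.ord f) hcT
      omega
    · rw [Finset.erase_eq_of_notMem hcT]
      have hc0 : c.ord f = 0 := by
        rw [← hD c]
        by_contra h0
        exact hcT (Finset.mem_filter.mpr ⟨Finsupp.mem_support_iff.mpr h0, hc⟩)
      omega
  have hall := (Finset.sum_eq_zero_iff_of_nonneg hnn).mp hzero
  by_cases hmem : P ∈ D.support
  · exact hall P (Finset.mem_erase.mpr ⟨hne, Finset.mem_filter.mpr ⟨hmem, hP⟩⟩)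
  · rw [← hD P]
    exact Finsupp.notMem_support_iff.mp hmem

/-- **(T0) a dominant pole reduces to the matching pole of the reduction**: if the poles of `J`
are `c` and the places of `others`, and the pole order of `red J` at `Q` exceeds the sum of the
pole orders of `J` on `others`, then `c` reduces to `Q`. -/
theorem r_eq_of_dominant {J : F} (hJ : J ∈ R.Rw) (hred : R.red ⟨J, hJ⟩ ≠ 0) {c : Place K F}
    {Q : Place k Ft} (others : Finset (Place K F))
    (hpoles : ∀ P : Place K F, P.ord J < 0 → P = c ∨ P ∈ others)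
    (hnonpos : ∀ P ∈ others, P.ord J ≤ 0)
    (hdom : Q.ord (R.red ⟨J, hJ⟩) < ∑ P ∈ others, P.ord J) : S.r c = Q := by
  by_contra hne
  have hJ0 : J ≠ 0 := coe_ne_zero_of_red_ne_zero (y := ⟨J, hJ⟩) hred
  obtain ⟨D, hD, -⟩ := HasPrincipalDivisors.exists_divisor (K := K) J hJ0
  have hsum := S.ord_red_eq_sum hJ hred hD Q
  set T := D.support.filter (fun P => S.r P = Q) with hT
  set N := T.filter (fun P => P.ord J < 0) with hN
  have hsub : N ⊆ others := by
    intro P hP
    have h1 := Finset.mem_filter.mp hP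
    have h2 := Finset.mem_filter.mp h1.1
    rcases hpoles P h1.2 with h | h
    · exact absurd (h ▸ h2.2) hne
    · exact h
  have h1 : ∑ P ∈ N, P.ord J ≤ ∑ P ∈ T, P.ord J := by
    rw [← Finset.sum_filter_add_sum_filter_not T (fun P => P.ord J < 0)]
    have : 0 ≤ ∑ P ∈ T.filter (fun P => ¬ P.ord J < 0), P.ord J :=
      Finset.sum_nonneg fun P hP => not_lt.mp (Finset.mem_filter.mp hP).2
    linarith
  have h2 : ∑ P ∈ others, P.ord J ≤ ∑ P ∈ N, P.ord J := by
    rw [← Finset.sum_sdiff hsub]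
    have : ∑ P ∈ others \ N, P.ord J ≤ 0 :=
      Finset.sum_nonpos fun P hP => hnonpos P (Finset.mem_sdiff.mp hP).1
    linarith
  linarith

end SpecMap

/-! ### order calculus -/

section Ord

variable (P : Place K F)

theorem ord_npow (f : F) (n : ℕ) : P.ord (f ^ n) = n * P.ord f := by
  by_cases hf : f = 0
  · subst hf
    rcases Nat.eq_zero_or_pos n with rfl | hn
    · simp [Place.ord_one]
    · rw [zero_pow hn.ne', Place.ord_zero, mul_zero]
  · induction n with
    | zero => simp [Place.ord_one]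
    | succ m ih =>
      rw [pow_succ, P.ord_mul (pow_ne_zero m hf) hf, ih]
      push_cast
      ring

/-- a value at a place where the function has order `0` is nonzero. -/
theorem valueAt_ne_zero_of_ord_eq_zero {e : F} {a : K} (he0 : e ≠ 0) (hord : P.ord e = 0)
    (h : ValueAt P e a) : a ≠ 0 := by
  rintro rfl
  rcases (valueAt_zero_iff P e).mp h with h0 | h0
  · exact he0 h0
  · omega

/-- a function has no value at a pole. -/
theorem not_valueAt_of_ord_neg {e : F} {a : K} (hord : P.ord e < 0) : ¬ ValueAt P e a := by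
  intro h
  have he0 : e ≠ 0 := by
    rintro rfl
    rw [Place.ord_zero] at hord
    exact lt_irrefl _ hord
  have := (PlaceB.ord_nonneg_iff P he0).mpr (valueAt_mem h)
  omega

end Ord

/-! ### a function with a single pole on a disc -/

/-- `c ↦ Q`, `c` is the only pole of `J` on the disc of `Q`, of order `n`, and the reduction of `J`
has a pole of order `n` at `Q`. -/
structure PoleAt (S : SpecMap R) (c : Place K F) (Q : Place k Ft) (J : F) (n : ℕ) : Prop where
  mem : J ∈ R.Rw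
  red_ne : R.red ⟨J, mem⟩ ≠ 0
  r_c : S.r c = Q
  unique : ∀ P : Place K F, S.r P = Q → P.ord J < 0 → P = c
  ord_c : c.ord J = -(n : ℤ)
  ord_Q : Q.ord (R.red ⟨J, mem⟩) = -(n : ℤ)

namespace PoleAt

variable {S : SpecMap R} [HasPrincipalDivisors K F]
variable {c : Place K F} {Q : Place k Ft} {J : F} {n : ℕ}

theorem ne_zero (h : PoleAt S c Q J n) : J ≠ 0 :=
  coe_ne_zero_of_red_ne_zero (y := ⟨J, h.mem⟩) h.red_ne

/-- `J` has neither zero nor pole at the other places of the disc. -/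
theorem ord_eq_zero (h : PoleAt S c Q J n) {P : Place K F} (hP : S.r P = Q) (hne : P ≠ c) :
    P.ord J = 0 :=
  S.ord_eq_zero_of_unique_pole h.mem h.red_ne h.r_c h.unique (by rw [h.ord_c, h.ord_Q]) hP hne

/-- `ord_P J` on the disc. -/
theorem ord_eq (h : PoleAt S c Q J n) {P : Place K F} (hP : S.r P = Q) :
    P.ord J = if P = c then -(n : ℤ) else 0 := by
  split_ifs with hc
  · rw [hc, h.ord_c]
  · exact h.ord_eq_zero hP hc

/-- a place where `J` has a value is not the pole. -/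
theorem ne_of_valueAt (h : PoleAt S c Q J n) (hn : 0 < n) {x : Place K F} {a : K}
    (hx : ValueAt x J a) : x ≠ c := by
  rintro rfl
  refine not_valueAt_of_ord_neg x ?_ hx
  rw [h.ord_c]
  omega

/-- the values of `J` on the disc, away from the pole, are nonzero. -/
theorem value_ne_zero (h : PoleAt S c Q J n) {x : Place K F} (hr : S.r x = Q) (hne : x ≠ c)
    {a : K} (hx : ValueAt x J a) : a ≠ 0 :=
  valueAt_ne_zero_of_ord_eq_zero x h.ne_zero (h.ord_eq_zero hr hne) hx

theorem inv_mem (h : PoleAt S c Q J n) : J⁻¹ ∈ R.Rw := inv_mem_Rw_of_red_ne_zero R h.mem h.red_ne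

/-- `J⁻¹` is regular on the disc. -/
theorem inv_regOn (h : PoleAt S c Q J n) : S.RegOn Q J⁻¹ := by
  refine ⟨h.inv_mem, fun P hP => (PlaceB.ord_nonneg_iff P (inv_ne_zero h.ne_zero)).mp ?_⟩
  rw [Place.ord_inv, h.ord_eq hP]
  split_ifs <;> omega

theorem ord_red_inv (h : PoleAt S c Q J n) : Q.ord (R.red ⟨J⁻¹, h.inv_mem⟩) = n := by
  rw [red_inv R h.mem h.red_ne, Place.ord_inv, h.ord_Q, neg_neg]

/-- **the values of `J` on the disc are poles**: `|J(x)| > 1`. -/
theorem value_not_mem (h : PoleAt S c Q J n) (hn : 0 < n) {x : Place K F} (hr : S.r x = Q)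
    {a : K} (hx : ValueAt x J a) : a ∉ R.A := by
  have hne : x ≠ c := h.ne_of_valueAt hn hx
  have ha0 : a ≠ 0 := h.value_ne_zero hr hne hx
  have hinv : ValueAt x J⁻¹ a⁻¹ := valueAt_inv hx ha0
  have hlt : R.A.valuation a⁻¹ < 1 :=
    S.value_lt_one h.inv_regOn (by rw [h.ord_red_inv]; exact_mod_cast hn) hr hinv
  rw [map_inv₀] at hlt
  rw [not_mem_A_iff]
  have hv0 : R.A.valuation a ≠ 0 := (Valuation.ne_zero_iff _).mpr ha0
  by_contra hle
  rw [not_lt] at hle
  have : 1 ≤ (R.A.valuation a)⁻¹ := (one_le_inv₀ (zero_lt_iff.mpr hv0)).mpr hle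
  exact absurd hlt (not_lt.mpr this)

/-- **the valuation pattern on the disc**: `|J₁(x)| ^ n₂ = |J₂(x)| ^ n₁`. -/
theorem valuation_pow_eq {J₁ J₂ : F} {n₁ n₂ : ℕ} (h₁ : PoleAt S c Q J₁ n₁)
    (h₂ : PoleAt S c Q J₂ n₂) {x : Place K F} (hr : S.r x = Q) (hne : x ≠ c) {a₁ a₂ : K}
    (hx₁ : ValueAt x J₁ a₁) (hx₂ : ValueAt x J₂ a₂) :
    R.A.valuation a₁ ^ n₂ = R.A.valuation a₂ ^ n₁ := by
  have ha₁ : a₁ ≠ 0 := h₁.value_ne_zero hr hne hx₁
  have ha₂ : a₂ ≠ 0 := h₂.value_ne_zero hr hne hx₂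
  have hJ₁ := h₁.ne_zero
  have hJ₂ := h₂.ne_zero
  set u : F := J₁ ^ n₂ * (J₂⁻¹) ^ n₁ with hu
  have hu0 : u ≠ 0 := mul_ne_zero (pow_ne_zero _ hJ₁) (pow_ne_zero _ (inv_ne_zero hJ₂))
  have hinv : u⁻¹ = (J₁⁻¹) ^ n₂ * J₂ ^ n₁ := by
    rw [hu, mul_inv, inv_pow, inv_pow, inv_inv]
  -- the order of `u` vanishes on the whole disc
  have hord : ∀ P : Place K F, S.r P = Q → P.ord u = 0 := by
    intro P hP
    rw [hu, P.ord_mul (pow_ne_zero _ hJ₁) (pow_ne_zero _ (inv_ne_zero hJ₂)), ord_npow, ord_npow,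
      Place.ord_inv, h₁.ord_eq hP, h₂.ord_eq hP]
    split_ifs
    · ring
    · ring
  have hreg : S.RegOn Q u := by
    refine ⟨mul_mem (pow_mem h₁.mem _) (pow_mem h₂.inv_mem _), fun P hP => ?_⟩
    exact (PlaceB.ord_nonneg_iff P hu0).mp (by rw [hord P hP])
  have hreg' : S.RegOn Q u⁻¹ := by
    refine ⟨?_, fun P hP => ?_⟩
    · rw [hinv]
      exact mul_mem (pow_mem h₁.inv_mem _) (pow_mem h₂.mem _)
    · exact (PlaceB.ord_nonneg_iff P (inv_ne_zero hu0)).mp (by rw [Place.ord_inv, hord P hP, neg_zero])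
  -- values
  set w : K := a₁ ^ n₂ * (a₂⁻¹) ^ n₁ with hw
  have hw0 : w ≠ 0 := mul_ne_zero (pow_ne_zero _ ha₁) (pow_ne_zero _ (inv_ne_zero ha₂))
  have hv : ValueAt x u w := valueAt_mul (valueAt_pow hx₁ n₂) (valueAt_pow (valueAt_inv hx₂ ha₂) n₁)
  have hv' : ValueAt x u⁻¹ w⁻¹ := valueAt_inv hv hw0
  have hA : R.A.valuation w ≤ 1 := (R.A.valuation_le_one_iff _).mpr (S.value_mem_A hreg hr hv)
  have hA' : R.A.valuation w⁻¹ ≤ 1 := (R.A.valuation_le_one_iff _).mpr (S.value_mem_A hreg' hr hv')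
  have hvw0 : R.A.valuation w ≠ 0 := (Valuation.ne_zero_iff _).mpr hw0
  rw [map_inv₀, inv_le_one₀ (zero_lt_iff.mpr hvw0)] at hA'
  have hone : R.A.valuation w = 1 := le_antisymm hA hA'
  rw [hw, map_mul, map_pow, map_pow, map_inv₀, inv_pow] at hone
  have hv₂ : R.A.valuation a₂ ^ n₁ ≠ 0 := pow_ne_zero _ ((Valuation.ne_zero_iff _).mpr ha₂)
  exact (mul_inv_eq_one₀ hv₂).mp hone

/-- **a simple pole is a coordinate on the disc**: every `a` with `|a| > 1` is the value of `J` at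
exactly one place of the disc. -/
theorem existsUnique (h : PoleAt S c Q J 1) {a : K} (ha : a ∉ R.A) :
    ∃! x : Place K F, S.r x = Q ∧ ValueAt x J a := by
  have ha0 : a ≠ 0 := fun h0 => ha (h0 ▸ R.A.zero_mem)
  have hva : R.A.valuation a⁻¹ < 1 := by
    rw [map_inv₀]
    exact inv_lt_one_of_one_lt₀ (not_mem_A_iff.mp ha)
  have hord : Q.ord (R.red ⟨J⁻¹, h.inv_regOn.1⟩) = 1 := by
    have := h.ord_red_inv
    simpa using this
  obtain ⟨x, ⟨hx, hv⟩, huniq⟩ := S.param_existsUnique' h.inv_regOn hord hva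
  refine ⟨x, ⟨hx, ?_⟩, ?_⟩
  · have := valueAt_inv hv (inv_ne_zero ha0)
    rwa [inv_inv, inv_inv] at this
  · rintro y ⟨hy, hvy⟩
    exact huniq y ⟨hy, valueAt_inv hvy ha0⟩

end PoleAt

/-! ### level `p`: two cusps, two functions -/

/-- the two valuation patterns are exclusive when `|a| > 1`, `p ≥ 2`. -/
theorem not_both_patterns {a a' : K} {p : ℕ} (hp : 2 ≤ p) (ha : a ∉ R.A) :
    ¬ (R.A.valuation a' = R.A.valuation a ^ p ∧ R.A.valuation a = R.A.valuation a' ^ p) := by
  rintro ⟨h1, h2⟩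
  have hv : 1 < R.A.valuation a := not_mem_A_iff.mp ha
  rw [h1, ← pow_mul] at h2
  have hlt : R.A.valuation a ^ 1 < R.A.valuation a ^ (p * p) :=
    pow_lt_pow_right₀ hv (by nlinarith)
  rw [pow_one, ← h2] at hlt
  exact lt_irrefl _ hlt

/-- **The primitive cusp facts at level `p`** (instance side of [MOD-alpha]): `J`, `Jp` are
`w`-integral with nonzero reductions; their poles are the two cusps `cI`, `cZ` of the generic fibre,
with orders `(1, p)` for `J` and `(p, 1)` for `Jp`; the reductions have poles of the same orders at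
two DISTINCT points `Qi`, `Qz` of the special fibre.  Nothing about the place map is assumed. -/
structure PoleData (S : SpecMap R) (cI cZ : Place K F) (Qi Qz : Place k Ft) (J Jp : F) (p : ℕ) :
    Prop where
  two_le : 2 ≤ p
  Q_ne : Qi ≠ Qz
  J_mem : J ∈ R.Rw
  J_red : R.red ⟨J, J_mem⟩ ≠ 0
  Jp_mem : Jp ∈ R.Rw
  Jp_red : R.red ⟨Jp, Jp_mem⟩ ≠ 0
  J_poles : ∀ P : Place K F, P.ord J < 0 → P = cI ∨ P = cZ
  Jp_poles : ∀ P : Place K F, P.ord Jp < 0 → P = cI ∨ P = cZ
  J_cI : cI.ord J = -1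
  J_cZ : cZ.ord J = -(p : ℤ)
  Jp_cI : cI.ord Jp = -(p : ℤ)
  Jp_cZ : cZ.ord Jp = -1
  J_Qi : Qi.ord (R.red ⟨J, J_mem⟩) = -1
  J_Qz : Qz.ord (R.red ⟨J, J_mem⟩) = -(p : ℤ)
  Jp_Qi : Qi.ord (R.red ⟨Jp, Jp_mem⟩) = -(p : ℤ)
  Jp_Qz : Qz.ord (R.red ⟨Jp, Jp_mem⟩) = -1

namespace PoleData

variable {S : SpecMap R} [HasPrincipalDivisors K F]
variable {cI cZ : Place K F} {Qi Qz : Place k Ft} {J Jp : F} {p : ℕ}
variable (C : PoleData S cI cZ Qi Qz J Jp p)
variable {x : Place K F} {a a' : K}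

include C

theorem p_ne_zero : p ≠ 0 := by have := C.two_le; omega

/-- **the cusp `0` reduces to `Qz`** (`J` has its dominant pole there). -/
theorem r_cZ : S.r cZ = Qz := by
  have h2 := C.two_le
  refine S.r_eq_of_dominant C.J_mem C.J_red {cI} ?_ ?_ ?_
  · intro P hP
    rcases C.J_poles P hP with h | h
    · exact Or.inr (Finset.mem_singleton.mpr h)
    · exact Or.inl h
  · intro P hP
    rw [Finset.mem_singleton.mp hP, C.J_cI]
    omega
  · rw [Finset.sum_singleton, C.J_cI, C.J_Qz]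
    omega

/-- **the cusp `∞` reduces to `Qi`** (`Jp` has its dominant pole there). -/
theorem r_cI : S.r cI = Qi := by
  have h2 := C.two_le
  refine S.r_eq_of_dominant C.Jp_mem C.Jp_red {cZ} ?_ ?_ ?_
  · intro P hP
    rcases C.Jp_poles P hP with h | h
    · exact Or.inl h
    · exact Or.inr (Finset.mem_singleton.mpr h)
  · intro P hP
    rw [Finset.mem_singleton.mp hP, C.Jp_cZ]
    omega
  · rw [Finset.sum_singleton, C.Jp_cZ, C.Jp_Qi]
    omega

theorem cI_ne_cZ : cI ≠ cZ := fun h => C.Q_ne (by rw [← C.r_cI, ← C.r_cZ, h])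

theorem poleAt_J_inf : PoleAt S cI Qi J 1 where
  mem := C.J_mem
  red_ne := C.J_red
  r_c := C.r_cI
  unique := fun P hP hord => by
    rcases C.J_poles P hord with h | h
    · exact h
    · exact absurd (by rw [← hP, h, C.r_cZ]) C.Q_ne
  ord_c := by rw [C.J_cI]; rfl
  ord_Q := by rw [C.J_Qi]; rfl

theorem poleAt_Jp_inf : PoleAt S cI Qi Jp p where
  mem := C.Jp_mem
  red_ne := C.Jp_red
  r_c := C.r_cI
  unique := fun P hP hord => by
    rcases C.Jp_poles P hord with h | h
    · exact h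
    · exact absurd (by rw [← hP, h, C.r_cZ]) C.Q_ne
  ord_c := C.Jp_cI
  ord_Q := C.Jp_Qi

theorem poleAt_J_zero : PoleAt S cZ Qz J p where
  mem := C.J_mem
  red_ne := C.J_red
  r_c := C.r_cZ
  unique := fun P hP hord => by
    rcases C.J_poles P hord with h | h
    · exact absurd (by rw [← hP, h, C.r_cI]) C.Q_ne.symm
    · exact h
  ord_c := C.J_cZ
  ord_Q := C.J_Qz

theorem poleAt_Jp_zero : PoleAt S cZ Qz Jp 1 where
  mem := C.Jp_mem
  red_ne := C.Jp_red
  r_c := C.r_cZ
  unique := fun P hP hord => by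
    rcases C.Jp_poles P hord with h | h
    · exact absurd (by rw [← hP, h, C.r_cI]) C.Q_ne.symm
    · exact h
  ord_c := by rw [C.Jp_cZ]; rfl
  ord_Q := by rw [C.Jp_Qz]; rfl

/-- **`x` reduces to one of the two cusps.** -/
theorem r_mem (hx : ValueAt x J a) (ha : a ∉ R.A) : S.r x = Qi ∨ S.r x = Qz := by
  obtain ⟨c, hc, hr⟩ := S.exists_pole_of_value_not_mem C.J_mem hx ha
  rcases C.J_poles c hc with h | h
  · exact Or.inl (by rw [← hr, h, C.r_cI])
  · exact Or.inr (by rw [← hr, h, C.r_cZ])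

/-- `x ↦ Qi ⟹ |a'| = |a| ^ p` (and `|a'| > 1`). -/
theorem valuation_eq_of_r_inf (hx : ValueAt x J a) (hx' : ValueAt x Jp a') (hr : S.r x = Qi) :
    a ∉ R.A ∧ a' ∉ R.A ∧ R.A.valuation a' = R.A.valuation a ^ p := by
  have hne : x ≠ cI := C.poleAt_J_inf.ne_of_valueAt one_pos hx
  refine ⟨C.poleAt_J_inf.value_not_mem one_pos hr hx,
    C.poleAt_Jp_inf.value_not_mem (by have := C.two_le; omega) hr hx', ?_⟩
  have := PoleAt.valuation_pow_eq C.poleAt_Jp_inf C.poleAt_J_inf hr hne hx' hx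
  rwa [pow_one] at this

/-- `x ↦ Qz ⟹ |a| = |a'| ^ p` (and `|a'| > 1`). -/
theorem valuation_eq_of_r_zero (hx : ValueAt x J a) (hx' : ValueAt x Jp a') (hr : S.r x = Qz) :
    a ∉ R.A ∧ a' ∉ R.A ∧ R.A.valuation a = R.A.valuation a' ^ p := by
  have hne : x ≠ cZ := C.poleAt_Jp_zero.ne_of_valueAt one_pos hx'
  refine ⟨C.poleAt_J_zero.value_not_mem (by have := C.two_le; omega) hr hx,
    C.poleAt_Jp_zero.value_not_mem one_pos hr hx', ?_⟩
  have := PoleAt.valuation_pow_eq C.poleAt_J_zero C.poleAt_Jp_zero hr hne hx hx'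
  rwa [pow_one] at this

/-- in both cases the second coordinate has a pole as well: `|a'| > 1`. -/
theorem not_mem_A_snd (hx : ValueAt x J a) (hx' : ValueAt x Jp a') (ha : a ∉ R.A) : a' ∉ R.A := by
  rcases C.r_mem hx ha with hr | hr
  · exact (C.valuation_eq_of_r_inf hx hx' hr).2.1
  · exact (C.valuation_eq_of_r_zero hx hx' hr).2.1

/-- **`x ↦ Qi ⟺ |a'| = |a| ^ p`.** -/
theorem r_eq_inf_iff (hx : ValueAt x J a) (hx' : ValueAt x Jp a') (ha : a ∉ R.A) :
    S.r x = Qi ↔ R.A.valuation a' = R.A.valuation a ^ p := by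
  refine ⟨fun hr => (C.valuation_eq_of_r_inf hx hx' hr).2.2, fun hv => ?_⟩
  rcases C.r_mem hx ha with hr | hr
  · exact hr
  · exact absurd ⟨hv, (C.valuation_eq_of_r_zero hx hx' hr).2.2⟩ (not_both_patterns C.two_le ha)

/-- **`x ↦ Qz ⟺ |a| = |a'| ^ p`.** -/
theorem r_eq_zero_iff (hx : ValueAt x J a) (hx' : ValueAt x Jp a') (ha : a ∉ R.A) :
    S.r x = Qz ↔ R.A.valuation a = R.A.valuation a' ^ p := by
  refine ⟨fun hr => (C.valuation_eq_of_r_zero hx hx' hr).2.2, fun hv => ?_⟩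
  rcases C.r_mem hx ha with hr | hr
  · exact absurd ⟨(C.valuation_eq_of_r_inf hx hx' hr).2.2, hv⟩ (not_both_patterns C.two_le ha)
  · exact hr

/-- the consumer form: `x ↦ r(∞) ⟺ |a'| = |a| ^ p`. -/
theorem r_eq_r_cI_iff (hx : ValueAt x J a) (hx' : ValueAt x Jp a') (ha : a ∉ R.A) :
    S.r x = S.r cI ↔ R.A.valuation a' = R.A.valuation a ^ p := by
  rw [C.r_cI]
  exact C.r_eq_inf_iff hx hx' ha

/-- the consumer form: `x ↦ r(0) ⟺ |a| = |a'| ^ p`. -/
theorem r_eq_r_cZ_iff (hx : ValueAt x J a) (hx' : ValueAt x Jp a') (ha : a ∉ R.A) :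
    S.r x = S.r cZ ↔ R.A.valuation a = R.A.valuation a' ^ p := by
  rw [C.r_cZ]
  exact C.r_eq_zero_iff hx hx' ha

/-- exactly one of the two valuation patterns holds. -/
theorem valuation_dichotomy (hx : ValueAt x J a) (hx' : ValueAt x Jp a') (ha : a ∉ R.A) :
    R.A.valuation a' = R.A.valuation a ^ p ∨ R.A.valuation a = R.A.valuation a' ^ p := by
  rcases C.r_mem hx ha with hr | hr
  · exact Or.inl (C.valuation_eq_of_r_inf hx hx' hr).2.2
  · exact Or.inr (C.valuation_eq_of_r_zero hx hx' hr).2.2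

/-- **uniqueness**: a place is determined by its pair of values `(a, a')`, `|a| > 1`. -/
theorem unique_of_pair {x' : Place K F} (hx : ValueAt x J a) (hxp : ValueAt x Jp a')
    (hx' : ValueAt x' J a) (hxp' : ValueAt x' Jp a') (ha : a ∉ R.A) : x = x' := by
  have ha' : a' ∉ R.A := C.not_mem_A_snd hx hxp ha
  rcases C.r_mem hx ha with hr | hr
  · have hr' : S.r x' = Qi :=
      (C.r_eq_inf_iff hx' hxp' ha).mpr ((C.r_eq_inf_iff hx hxp ha).mp hr)
    obtain ⟨P, -, hP⟩ := C.poleAt_J_inf.existsUnique ha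
    rw [hP x ⟨hr, hx⟩, hP x' ⟨hr', hx'⟩]
  · have hr' : S.r x' = Qz :=
      (C.r_eq_zero_iff hx' hxp' ha).mpr ((C.r_eq_zero_iff hx hxp ha).mp hr)
    obtain ⟨P, -, hP⟩ := C.poleAt_Jp_zero.existsUnique ha'
    rw [hP x ⟨hr, hxp⟩, hP x' ⟨hr', hxp'⟩]

/-- **analytic existence at `Qi`**: every `a` with `|a| > 1` is the `J`-value of a unique place of
the disc of `Qi`. -/
theorem exists_inf (ha : a ∉ R.A) : ∃! x : Place K F, S.r x = Qi ∧ ValueAt x J a :=
  C.poleAt_J_inf.existsUnique ha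

/-- **analytic existence at `Qz`**: every `a'` with `|a'| > 1` is the `Jp`-value of a unique place
of the disc of `Qz`. -/
theorem exists_zero (ha' : a' ∉ R.A) : ∃! x : Place K F, S.r x = Qz ∧ ValueAt x Jp a' :=
  C.poleAt_Jp_zero.existsUnique ha'

end PoleData

end Fermat.Agent.GZ.Mod.AlphaSpec
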