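/-
GATE-Z (S15) / [MOD-alpha], FAMILY form (helper48; claims row GZ-MOD-ALPHA-DISC): the level is a
parameter (helper20 R2: levels `p`, `2p`, `3p`).

`S : SpecMap R` (`GZ/Mod/AlphaSpec.lean`) any place map with the fibre formula.  A FINITE family of
cusps `c i` of the generic fibre, of DISTINCT points `Q i` of the special fibre, and a family of
functions `J l` with pole-order matrix `n i l`:

* the poles of `J l` are among the `c i`, `ord_{c i} (J l) = - n i l = ord_{Q i} (red (J l))`;
* every cusp is DOMINANT for some function: `Σ_{i' ≠ i} n i' l < n i l`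
  (level `p`: `(j, j_p)`, orders `(1, p), (p, 1)`; level `3p`: `(j, j_3, j_p, j_{3p})`, orders
  `w₃ w_p` with `w ∈ {1, prime}`: `3p > 3 + p + 1`).

Then `c i ↦ Q i` (`r_c`), every `x` with `|J l (x)| > 1` reduces to some `Q i` (`exists_cusp`), on the
disc of `Q i` the values satisfy `|J l (x)| ^ n i l' = |J l' (x)| ^ n i l` (`valuation_pow_eq`), the
pattern determines the cusp when the order matrices separate (`r_eq_of_pattern`), and a function
with a simple pole at `c i` is a coordinate on the disc of `Q i` (`existsUnique`, `eq_of_value_eq`).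
For the pull-back count (MOD at the auxiliary levels): `sum_ord_inv_sub` — the zeros of
`T⁻¹ - a⁻¹` on the disc of a pole of `T` of order `m`, with multiplicities, add up to `m`.
-/
import Mathlib
import Fermat.Agent.GZ.Mod.AlphaSpec

set_option autoImplicit false
set_option linter.unusedSectionVars false

noncomputable section

open AlgebraicCurve

namespace Fermat.Agent.GZ.Mod.AlphaFamily

open Fermat.Agent.RRh45 Fermat.Agent.GJ.J1 Fermat.Agent.S24 Fermat.Agent.GH
  Fermat.Agent.GZ.Mod.AlphaDisc Fermat.Agent.GZ.Mod.AlphaSpec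

open scoped Classical

variable {K F k Ft : Type*} [Field K] [Field F] [Algebra K F] [Field k] [Field Ft] [Algebra k Ft]
variable {R : RedData K F k Ft}

/-! ### the divisor of `T⁻¹ - a⁻¹` on the disc of a pole of `T` (the count for pull-backs) -/

section Count

variable {S : SpecMap R} [HasPrincipalDivisors K F]
variable {c : Place K F} {Q : Place k Ft} {T : F} {m : ℕ}

/-- for `|a| > 1`, the function `T⁻¹ - a⁻¹` is `w`-integral with the reduction of `T⁻¹`. -/
theorem inv_sub_mem (h : PoleAt S c Q T m) {a : K} (ha : a ∉ R.A) :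
    T⁻¹ - algebraMap K F a⁻¹ ∈ R.Rw :=
  sub_mem h.inv_mem ((R.mem_A_iff _).1
    ((R.A.valuation_le_one_iff _).mp (Fermat.Agent.GS.Frame.Local.valuation_inv_lt_one_of_not_mem
      (R := R) ha).le))

theorem red_inv_sub (h : PoleAt S c Q T m) {a : K} (ha : a ∉ R.A) :
    R.red ⟨T⁻¹ - algebraMap K F a⁻¹, inv_sub_mem h ha⟩ = R.red ⟨T⁻¹, h.inv_mem⟩ :=
  Fermat.Agent.GS.Frame.Local.red_sub_const_small (Φ := S.toFibreHyp) (t := T⁻¹) h.inv_mem
    (Fermat.Agent.GS.Frame.Local.valuation_inv_lt_one_of_not_mem (R := R) ha)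

/-- **the count**: the zeros of `T⁻¹ - a⁻¹` on the disc of `Q`, with multiplicities, add up to the
pole order `m` of `red T` at `Q`. -/
theorem sum_ord_inv_sub (h : PoleAt S c Q T m) {a : K} (ha : a ∉ R.A) {D : Divisor K F}
    (hD : ∀ P, D P = P.ord (T⁻¹ - algebraMap K F a⁻¹)) :
    ∑ P ∈ D.support.filter (fun P => S.r P = Q), P.ord (T⁻¹ - algebraMap K F a⁻¹) = m := by
  have hne : R.red ⟨T⁻¹ - algebraMap K F a⁻¹, inv_sub_mem h ha⟩ ≠ 0 := by
    rw [red_inv_sub h ha, red_inv R h.mem h.red_ne]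
    exact inv_ne_zero h.red_ne
  rw [← S.ord_red_eq_sum (inv_sub_mem h ha) hne hD Q, red_inv_sub h ha, h.ord_red_inv]

/-- `T⁻¹ - a⁻¹` has no pole on the disc of `Q`. -/
theorem ord_inv_sub_nonneg (h : PoleAt S c Q T m) {a : K} {P : Place K F}
    (hP : S.r P = Q) (hne : T⁻¹ - algebraMap K F a⁻¹ ≠ 0) :
    0 ≤ P.ord (T⁻¹ - algebraMap K F a⁻¹) :=
  (PlaceB.ord_nonneg_iff P hne).mpr (sub_mem (h.inv_regOn.2 P hP) (P.algebraMap_mem' _))

/-- the zeros of `T⁻¹ - a⁻¹` are the places where `T` takes the value `a`. -/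
theorem valueAt_iff_ord_inv_sub_pos {a : K} (ha : a ∉ R.A)
    {P : Place K F} (hne : T⁻¹ - algebraMap K F a⁻¹ ≠ 0) :
    ValueAt P T a ↔ 0 < P.ord (T⁻¹ - algebraMap K F a⁻¹) := by
  have ha0 : a ≠ 0 := fun h0 => ha (h0 ▸ R.A.zero_mem)
  constructor
  · intro hv
    have := (Fermat.Agent.GH.Disc.valueAt_iff_ord P T⁻¹ a⁻¹).mp (valueAt_inv hv ha0)
    exact this.resolve_left hne
  · intro hpos
    have hv : ValueAt P T⁻¹ a⁻¹ := (Fermat.Agent.GH.Disc.valueAt_iff_ord P T⁻¹ a⁻¹).mpr (Or.inr hpos)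
    have := valueAt_inv hv (inv_ne_zero ha0)
    rwa [inv_inv, inv_inv] at this

end Count

/-- **The primitive cusp facts for a finite family of cusps and functions.** Nothing about the
place map is assumed. -/
structure CuspFamily (S : SpecMap R) {ι κ : Type*} [Fintype ι] [DecidableEq ι]
    (c : ι → Place K F) (Q : ι → Place k Ft) (J : κ → F) (n : ι → κ → ℕ) : Prop where
  Q_inj : Function.Injective Q
  mem : ∀ l, J l ∈ R.Rw
  red_ne : ∀ l, R.red ⟨J l, mem l⟩ ≠ 0
  poles : ∀ l (P : Place K F), P.ord (J l) < 0 → ∃ i, P = c i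
  ord_c : ∀ i l, (c i).ord (J l) = -(n i l : ℤ)
  ord_Q : ∀ i l, (Q i).ord (R.red ⟨J l, mem l⟩) = -(n i l : ℤ)
  pos : ∀ i l, 0 < n i l
  dominant : ∀ i, ∃ l, ∑ i' ∈ Finset.univ.erase i, n i' l < n i l

namespace CuspFamily

variable {S : SpecMap R} {ι κ : Type*} [Fintype ι] [DecidableEq ι]
variable {c : ι → Place K F} {Q : ι → Place k Ft} {J : κ → F} {n : ι → κ → ℕ}
variable (C : CuspFamily S c Q J n)
variable {x : Place K F} {a a' : K}

include C

/-- the cusps of the generic fibre are distinct. -/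
theorem c_inj : Function.Injective c := by
  intro i i' h
  by_contra hne
  obtain ⟨l, hl⟩ := C.dominant i
  have h1 : n i' l ≤ ∑ i'' ∈ Finset.univ.erase i, n i'' l :=
    Finset.single_le_sum (f := fun i'' => n i'' l) (fun _ _ => Nat.zero_le _)
      (Finset.mem_erase.mpr ⟨fun h' => hne h'.symm, Finset.mem_univ _⟩)
  have h2 : (n i l : ℤ) = n i' l := by
    have e1 := C.ord_c i l
    have e2 := C.ord_c i' l
    rw [h] at e1
    omega
  omega

variable [HasPrincipalDivisors K F]

/-- **`c i ↦ Q i`** (dominant poles). -/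
theorem r_c (i : ι) : S.r (c i) = Q i := by
  obtain ⟨l, hl⟩ := C.dominant i
  refine S.r_eq_of_dominant (C.mem l) (C.red_ne l) ((Finset.univ.erase i).image c) ?_ ?_ ?_
  · intro P hP
    obtain ⟨i', rfl⟩ := C.poles l P hP
    by_cases h : i' = i
    · exact Or.inl (by rw [h])
    · exact Or.inr (Finset.mem_image.mpr ⟨i', Finset.mem_erase.mpr ⟨h, Finset.mem_univ _⟩, rfl⟩)
  · intro P hP
    obtain ⟨i', -, rfl⟩ := Finset.mem_image.mp hP
    rw [C.ord_c]
    omega
  · rw [Finset.sum_image (fun _ _ _ _ h => C.c_inj h), C.ord_Q]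
    simp only [C.ord_c]
    rw [Finset.sum_neg_distrib, neg_lt_neg_iff]
    exact_mod_cast hl

theorem poleAt (i : ι) (l : κ) : PoleAt S (c i) (Q i) (J l) (n i l) where
  mem := C.mem l
  red_ne := C.red_ne l
  r_c := C.r_c i
  unique := fun P hP hord => by
    obtain ⟨i', rfl⟩ := C.poles l P hord
    have h : Q i' = Q i := by rw [← C.r_c i', hP]
    rw [C.Q_inj h]
  ord_c := C.ord_c i l
  ord_Q := C.ord_Q i l

/-- **`x` reduces to one of the cusps** as soon as one `|J l (x)| > 1`. -/
theorem exists_cusp {l : κ} (hx : ValueAt x (J l) a) (ha : a ∉ R.A) : ∃ i, S.r x = Q i := by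
  obtain ⟨c', hc', hr⟩ := S.exists_pole_of_value_not_mem (C.mem l) hx ha
  obtain ⟨i, rfl⟩ := C.poles l c' hc'
  exact ⟨i, by rw [← hr, C.r_c i]⟩

/-- on the disc of a cusp all the functions have poles: `|J l (x)| > 1`. -/
theorem value_not_mem {i : ι} {l : κ} (hr : S.r x = Q i) (hx : ValueAt x (J l) a) : a ∉ R.A :=
  (C.poleAt i l).value_not_mem (C.pos i l) hr hx

/-- a place where some `J l` has a value is not a cusp. -/
theorem ne_c {i : ι} {l : κ} (hx : ValueAt x (J l) a) : x ≠ c i :=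
  (C.poleAt i l).ne_of_valueAt (C.pos i l) hx

/-- **the valuation pattern on the disc of `Q i`**: `|J l (x)| ^ n i l' = |J l' (x)| ^ n i l`. -/
theorem valuation_pow_eq {i : ι} {l l' : κ} (hr : S.r x = Q i) (hx : ValueAt x (J l) a)
    (hx' : ValueAt x (J l') a') :
    R.A.valuation a ^ n i l' = R.A.valuation a' ^ n i l :=
  PoleAt.valuation_pow_eq (C.poleAt i l) (C.poleAt i l') hr (C.ne_c hx) hx hx'

/-- **the pattern determines the cusp**: if `|J l₀ (x)| > 1` and for every other cusp `i'` some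
pair `(l, l')` of functions has the pattern of `i` at `x` while the order matrices of `i`, `i'`
differ on `(l, l')`, then `x ↦ Q i`. -/
theorem r_eq_of_pattern {i : ι} {l₀ : κ} {a₀ : K} (hx₀ : ValueAt x (J l₀) a₀) (ha₀ : a₀ ∉ R.A)
    (hsep : ∀ i', i' ≠ i → ∃ (l l' : κ) (b b' : K), ValueAt x (J l) b ∧ ValueAt x (J l') b' ∧
      R.A.valuation b ^ n i l' = R.A.valuation b' ^ n i l ∧
      n i l * n i' l' ≠ n i' l * n i l') :
    S.r x = Q i := by
  obtain ⟨i', hi'⟩ := C.exists_cusp hx₀ ha₀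
  by_cases h : i' = i
  · rw [hi', h]
  · exfalso
    obtain ⟨l, l', b, b', hx, hx', hpat, hne⟩ := hsep i' h
    have hpat' := C.valuation_pow_eq hi' hx hx'
    have hV : 1 < R.A.valuation b := not_mem_A_iff.mp (C.value_not_mem hi' hx)
    have e1 : R.A.valuation b ^ (n i l' * n i' l) = R.A.valuation b ^ (n i' l' * n i l) :=
      calc R.A.valuation b ^ (n i l' * n i' l)
          = (R.A.valuation b ^ n i l') ^ n i' l := pow_mul _ _ _
        _ = (R.A.valuation b' ^ n i l) ^ n i' l := by rw [hpat]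
        _ = (R.A.valuation b' ^ n i' l) ^ n i l := by rw [← pow_mul, ← pow_mul, mul_comm]
        _ = (R.A.valuation b ^ n i' l') ^ n i l := by rw [hpat']
        _ = R.A.valuation b ^ (n i' l' * n i l) := (pow_mul _ _ _).symm
    have e2 : n i l' * n i' l = n i' l' * n i l := (pow_right_strictMono₀ hV).injective e1
    exact hne (by linarith)

/-- **a function with a simple pole at `c i` is a coordinate on the disc of `Q i`.** -/
theorem existsUnique {i : ι} {l : κ} (h1 : n i l = 1) (ha : a ∉ R.A) :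
    ∃! x : Place K F, S.r x = Q i ∧ ValueAt x (J l) a :=
  (h1 ▸ C.poleAt i l : PoleAt S (c i) (Q i) (J l) 1).existsUnique ha

/-- two places of the disc of `Q i` with the same value of a function with a simple pole at `c i`
are equal. -/
theorem eq_of_value_eq {i : ι} {l : κ} (h1 : n i l = 1) {x' : Place K F} (hr : S.r x = Q i)
    (hr' : S.r x' = Q i) (hx : ValueAt x (J l) a) (hx' : ValueAt x' (J l) a) : x = x' := by
  obtain ⟨P, -, hP⟩ := C.existsUnique h1 (C.value_not_mem hr hx)
  rw [hP x ⟨hr, hx⟩, hP x' ⟨hr', hx'⟩]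

end CuspFamily

end Fermat.Agent.GZ.Mod.AlphaFamily
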