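/-
GATE-Z (S15) / [MOD-alpha], LITE form (helper48; claims row GZ-MOD-ALPHA-DISC; request of helper80
5887 (4)): the cusp dichotomy from the `∞`-side of the reduced fibre ONLY.

`S : SpecMap R` (`GZ/Mod/AlphaSpec.lean`) any place map with the fibre formula.  Hypotheses
(`PoleDataInf S cI cZ Qi J Jp p`):

* generic fibre: the poles of `J`, `Jp` are the two cusps `cI`, `cZ`, orders `(1, p)` and `(p, 1)`;
* reduced fibre, `∞`-side only: ONE point `Qi` with `ord_Qi (red J) = -1`, `ord_Qi (red Jp) = -p`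
  (the `q`-expansions at the `q`-place);
* NO CANCELLATION for `J` only: no residue disc contains both a zero and a pole of `J`
  (degree preservation at `j`; `GZ/Mod/Inst/NoCancel.lean` in frame form).

Nothing is assumed about the reduced fibre at the cusp `0` (no Atkin–Lehner involution of the reduced
field, no degree of `red Jp`).  Conclusions, with `Q0 := S.r cZ`:

* `r_cI : S.r cI = Qi`, `r_cZ_ne : S.r cZ ≠ S.r cI`;
* `r_mem`, `r_eq_r_cI_iff : S.r x = S.r cI ↔ |a'| = |a| ^ p`,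
  `r_eq_r_cZ_of_pattern : |a| = |a'| ^ p → S.r x = S.r cZ`, `lt_of_r_zero`;
* `unique_of_pair` (for `|a'| > 1`), `exists_inf`, `exists_zero`.
-/
import Mathlib
import Fermat.Agent.GZ.Mod.AlphaSpec

set_option autoImplicit false
set_option linter.unusedSectionVars false

noncomputable section

open AlgebraicCurve

namespace Fermat.Agent.GZ.Mod.AlphaLite

open Fermat.Agent.RRh45 Fermat.Agent.GJ.J1 Fermat.Agent.S24 Fermat.Agent.GH
  Fermat.Agent.GZ.Mod.AlphaDisc Fermat.Agent.GZ.Mod.AlphaSpec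
open Fermat.Agent.GS.Frame.Local (FibreHyp IsU)
open Fermat.Agent.GH.Disc (valueAt_iff_ord valueAt_mem valueAt_const valueAt_add
  valueAt_neg valueAt_sub valueAt_mul valueAt_pow valueAt_unique valueAt_zero_iff exists_valueAt
  coe_ne_zero_of_red_ne_zero)

open scoped Classical

variable {K F k Ft : Type*} [Field K] [Field F] [Algebra K F] [Field k] [Field Ft] [Algebra k Ft]
variable {R : RedData K F k Ft}

/-! ### two more general lemmas over a `SpecMap` -/

section General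

variable (S : SpecMap R) [HasPrincipalDivisors K F]

/-- **(Z')** `ord_P e ≤ ord_Q (red e)` on the disc of `Q` for `e` regular on the disc. -/
theorem ord_le_ord_red_spec {Q : Place k Ft} {e : F} (he : S.RegOn Q e)
    (hred : R.red ⟨e, he.1⟩ ≠ 0) {P : Place K F} (hP : S.r P = Q) :
    P.ord e ≤ Q.ord (R.red ⟨e, he.1⟩) :=
  Fermat.Agent.GS.Frame.Local.ord_le_ord_red (S.regOn_iff.mp he) (S.isU_of_red_ne_zero he.1 hred)
    (S.mem_good Q) (S.mem_disc_iff.mpr hP)

/-- the order of `T - a` at a pole of `T`. -/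
theorem ord_sub_const_of_pole (P : Place K F) {T : F} (hT : P.ord T < 0) (a : K) :
    P.ord (T - algebraMap K F a) = P.ord T := by
  have hT0 : T ≠ 0 := by
    rintro rfl
    rw [Place.ord_zero] at hT
    exact lt_irrefl _ hT
  by_cases ha : a = 0
  · rw [ha, map_zero, sub_zero]
  have hx0 : algebraMap K F a ≠ 0 := by simpa using ha
  have hnx0 : -algebraMap K F a ≠ 0 := neg_ne_zero.mpr hx0
  have hord : P.ord (-algebraMap K F a) = 0 := by
    rw [PlaceB.ord_neg, PlaceB.ord_algebraMap P ha]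
  have hsub : T - algebraMap K F a ≠ 0 := by
    intro h0
    rw [sub_eq_zero] at h0
    rw [h0, PlaceB.ord_algebraMap P ha] at hT
    exact lt_irrefl _ hT
  have h1 := PlaceB.ord_add_ge P hT0 hnx0 (by rw [← sub_eq_add_neg]; exact hsub)
  rw [← sub_eq_add_neg, hord] at h1
  have h2 := PlaceB.ord_add_ge P hsub hx0 (by rw [sub_add_cancel]; exact hT0)
  rw [sub_add_cancel, PlaceB.ord_algebraMap P ha] at h2
  have h3 : min (P.ord T) 0 = P.ord T := min_eq_left hT.le
  rw [h3] at h1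
  rcases le_total (P.ord (T - algebraMap K F a)) 0 with h | h
  · rw [min_eq_left h] at h2
    omega
  · rw [min_eq_right h] at h2
    omega

/-- **(U) a function with a single simple pole on a disc takes every large value exactly once
there** (no hypothesis on the reduction of `T`). -/
theorem existsUnique_of_simple_pole {T : F} (hT : T ∈ R.Rw) {c : Place K F} {Q : Place k Ft}
    (hc : S.r c = Q) (hpole : ∀ P : Place K F, S.r P = Q → P.ord T < 0 → P = c)
    (hord : c.ord T = -1) {a : K} (ha : a ∉ R.A) :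
    ∃! x : Place K F, S.r x = Q ∧ ValueAt x T a := by
  have ha0 : a ≠ 0 := fun h0 => ha (h0 ▸ R.A.zero_mem)
  have hb : R.A.valuation a⁻¹ < 1 :=
    Fermat.Agent.GS.Frame.Local.valuation_inv_lt_one_of_not_mem (R := R) ha
  have hbA : a⁻¹ ∈ R.A := (R.A.valuation_le_one_iff _).mp hb.le
  have hbm : algebraMap K F a⁻¹ ∈ R.Rw := (R.mem_A_iff _).1 hbA
  have hx0 : algebraMap K F a ≠ 0 := by simpa using ha0
  -- `e := -a⁻¹ (T - a) = 1 - T a⁻¹`
  set e : F := -algebraMap K F a⁻¹ * (T - algebraMap K F a) with he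
  have hecoe : e = 1 - T * algebraMap K F a⁻¹ := by
    rw [he, map_inv₀]
    field_simp
    ring
  have hem : e ∈ R.Rw := by
    rw [hecoe]
    exact sub_mem (one_mem _) (mul_mem hT hbm)
  have hered : R.red ⟨e, hem⟩ = 1 := by
    have e1 : (⟨e, hem⟩ : R.Rw) = 1 - ⟨T, hT⟩ * ⟨algebraMap K F a⁻¹, hbm⟩ := Subtype.ext hecoe
    have e2 : R.red ⟨algebraMap K F a⁻¹, hbm⟩ = 0 := by
      have h1 := R.red_algebraMap ⟨a⁻¹, hbA⟩
      have h2 : R.res ⟨a⁻¹, hbA⟩ = 0 :=
        (Fermat.Agent.GH.Disc.res_eq_zero_iff (R := R) ⟨a⁻¹, hbA⟩).mpr hb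
      rw [h2, map_zero] at h1
      exact h1
    rw [e1, map_sub, map_one, map_mul, e2, mul_zero, sub_zero]
  have hered0 : R.red ⟨e, hem⟩ ≠ 0 := by rw [hered]; exact one_ne_zero
  have he0 : e ≠ 0 := coe_ne_zero_of_red_ne_zero (y := ⟨e, hem⟩) hered0
  have hTa0 : T - algebraMap K F a ≠ 0 := by
    intro h0
    rw [he, h0, mul_zero] at he0
    exact he0 rfl
  have hc0 : -algebraMap K F a⁻¹ ≠ 0 := by
    rw [map_inv₀]
    exact neg_ne_zero.mpr (inv_ne_zero hx0)
  -- `ord_P e = ord_P (T - a)`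
  have horde : ∀ P : Place K F, P.ord e = P.ord (T - algebraMap K F a) := by
    intro P
    rw [he, P.ord_mul hc0 hTa0, PlaceB.ord_neg, PlaceB.ord_algebraMap P (inv_ne_zero ha0), zero_add]
  have hordc : c.ord e = -1 := by
    rw [horde, ord_sub_const_of_pole c (by rw [hord]; omega), hord]
  obtain ⟨D, hD, -⟩ := HasPrincipalDivisors.exists_divisor (K := K) e he0
  have hsum := S.ord_red_eq_sum hem hered0 hD Q
  rw [hered, Place.ord_one] at hsum
  set T' := D.support.filter (fun P => S.r P = Q) with hT'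
  have hcT : c ∈ T' := Finset.mem_filter.mpr
    ⟨Finsupp.mem_support_iff.mpr (by rw [hD c, hordc]; omega), hc⟩
  have hsplit := Finset.add_sum_erase T' (fun P => P.ord e) hcT
  have hone : ∑ P ∈ T'.erase c, P.ord e = 1 := by
    have h1 : c.ord e + ∑ P ∈ T'.erase c, P.ord e = ∑ P ∈ T', P.ord e := hsplit
    omega
  have hnn : ∀ P' ∈ T'.erase c, 0 ≤ P'.ord e := by
    intro P' hP'
    have h1 := Finset.mem_erase.mp hP'
    rw [horde]
    by_contra hlt
    have hlt' : P'.ord (T - algebraMap K F a) < 0 := not_le.mp hlt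
    have hTneg : P'.ord T < 0 := by
      by_contra hge
      have hT0' : T ≠ 0 ∨ T = 0 := (ne_or_eq T 0)
      have hmemT : T ∈ P'.toValuationSubring := by
        rcases hT0' with h | h
        · exact (PlaceB.ord_nonneg_iff P' h).mp (not_lt.mp hge)
        · rw [h]; exact zero_mem _
      have := (PlaceB.ord_nonneg_iff P' hTa0).mpr (sub_mem hmemT (P'.algebraMap_mem' a))
      omega
    exact h1.1 (hpole P' (Finset.mem_filter.mp h1.2).2 hTneg)
  have hpos : ∀ P' ∈ T'.erase c, 1 ≤ P'.ord e := fun P' hP' => by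
    have h1 := hnn P' hP'
    have h2 : P'.ord e ≠ 0 := by
      rw [← hD P']
      exact Finsupp.mem_support_iff.mp (Finset.mem_filter.mp (Finset.mem_erase.mp hP').2).1
    omega
  have hne : (T'.erase c).Nonempty := by
    by_contra hemp
    rw [Finset.not_nonempty_iff_eq_empty] at hemp
    rw [hemp, Finset.sum_empty] at hone
    omega
  obtain ⟨P₀, hP₀⟩ := hne
  have huniq : ∀ P' ∈ T'.erase c, P' = P₀ := by
    intro P' hP'
    by_contra hne'
    have hsub : ({P₀, P'} : Finset (Place K F)) ⊆ T'.erase c := by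
      intro y hy
      rcases Finset.mem_insert.mp hy with rfl | hy
      · exact hP₀
      · rw [Finset.mem_singleton.mp hy]; exact hP'
    have h1 := Finset.sum_le_sum_of_subset_of_nonneg (f := fun P => P.ord e) hsub
      (fun y hy _ => hnn y hy)
    rw [Finset.sum_pair (Ne.symm hne')] at h1
    have h2 := hpos P₀ hP₀
    have h3 := hpos P' hP'
    omega
  have hP₀' := Finset.mem_erase.mp hP₀
  have hval : ∀ P : Place K F, ValueAt P T a ↔ 0 < P.ord e := by
    intro P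
    rw [valueAt_iff_ord, horde]
    exact ⟨fun h => h.resolve_left hTa0, fun h => Or.inr h⟩
  refine ⟨P₀, ⟨(Finset.mem_filter.mp hP₀'.2).2, (hval P₀).mpr (by have := hpos P₀ hP₀; omega)⟩, ?_⟩
  rintro y ⟨hy, hvy⟩
  have hy1 := (hval y).mp hvy
  have hyc : y ≠ c := by
    rintro rfl
    omega
  exact huniq y (Finset.mem_erase.mpr ⟨hyc, Finset.mem_filter.mpr
    ⟨Finsupp.mem_support_iff.mpr (by rw [hD y]; omega), hy⟩⟩)

end General

/-! ### the lite package -/

/-- **The primitive cusp facts at level `p`, `∞`-side only** (+ no cancellation for `J`). -/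
structure PoleDataInf (S : SpecMap R) (cI cZ : Place K F) (Qi : Place k Ft) (J Jp : F) (p : ℕ) :
    Prop where
  two_le : 2 ≤ p
  J_mem : J ∈ R.Rw
  J_red : R.red ⟨J, J_mem⟩ ≠ 0
  Jp_mem : Jp ∈ R.Rw
  Jp_red : R.red ⟨Jp, Jp_mem⟩ ≠ 0
  J_poles : ∀ P : Place K F, P.ord J < 0 → P = cI ∨ P = cZ
  Jp_poles : ∀ P : Place K F, P.ord Jp < 0 → P = cI ∨ P = cZ
  J_cI : cI.ord J = -1
  J_cZ : cZ.ord J = -(p : ℤ)
  Jp_cI : cI.ord Jp = -(p : ℤ)
  Jp_cZ : cZ.ord Jp = -1
  J_Qi : Qi.ord (R.red ⟨J, J_mem⟩) = -1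
  Jp_Qi : Qi.ord (R.red ⟨Jp, Jp_mem⟩) = -(p : ℤ)
  nocancel : ∀ Q : Place k Ft, (∀ P : Place K F, S.r P = Q → 0 ≤ P.ord J) ∨
    (∀ P : Place K F, S.r P = Q → P.ord J ≤ 0)

namespace PoleDataInf

variable {S : SpecMap R} [HasPrincipalDivisors K F]
variable {cI cZ : Place K F} {Qi : Place k Ft} {J Jp : F} {p : ℕ}
variable (C : PoleDataInf S cI cZ Qi J Jp p)
variable {x : Place K F} {a a' : K}

include C

theorem p_ne_zero : p ≠ 0 := by have := C.two_le; omega

theorem J_ne_zero : J ≠ 0 := coe_ne_zero_of_red_ne_zero (y := ⟨J, C.J_mem⟩) C.J_red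

theorem Jp_ne_zero : Jp ≠ 0 := coe_ne_zero_of_red_ne_zero (y := ⟨Jp, C.Jp_mem⟩) C.Jp_red

theorem cI_ne_cZ : cI ≠ cZ := by
  intro h
  have h1 := C.J_cI
  have h2 := C.J_cZ
  have h3 := C.two_le
  rw [h] at h1
  omega

/-- **the cusp `∞` reduces to `Qi`** (`Jp` has its dominant pole there). -/
theorem r_cI : S.r cI = Qi := by
  have h2 := C.two_le
  refine S.r_eq_of_dominant C.Jp_mem C.Jp_red {cZ} ?_ ?_ ?_
  · intro P hP
    rcases C.Jp_poles P hP with h | h
    · exact Or.inl h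
    · exact Or.inr (Finset.mem_singleton.mpr h)
  · intro P hP
    rw [Finset.mem_singleton.mp hP, C.Jp_cZ]
    omega
  · rw [Finset.sum_singleton, C.Jp_cZ, C.Jp_Qi]
    omega

/-- on a disc containing a pole of `J`, `J` has no zero. -/
theorem ord_nonpos_of_pole {Q : Place k Ft} {c : Place K F} (hc : S.r c = Q) (hord : c.ord J < 0)
    {P : Place K F} (hP : S.r P = Q) : P.ord J ≤ 0 := by
  rcases C.nocancel Q with h | h
  · have := h c hc
    omega
  · exact h P hP

/-- **the cusp `0` does not reduce to `Qi`.** -/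
theorem r_cZ_ne_Qi : S.r cZ ≠ Qi := by
  intro hcZ
  have h2 := C.two_le
  have hJ0 := C.J_ne_zero
  obtain ⟨D, hD, -⟩ := HasPrincipalDivisors.exists_divisor (K := K) J hJ0
  have hsum := S.ord_red_eq_sum C.J_mem C.J_red hD Qi
  rw [C.J_Qi] at hsum
  set T := D.support.filter (fun P => S.r P = Qi) with hT
  have hI : cI ∈ T := Finset.mem_filter.mpr
    ⟨Finsupp.mem_support_iff.mpr (by rw [hD cI, C.J_cI]; omega), C.r_cI⟩
  have hZ : cZ ∈ T := Finset.mem_filter.mpr
    ⟨Finsupp.mem_support_iff.mpr (by rw [hD cZ, C.J_cZ]; omega), hcZ⟩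
  have hsub : ({cI, cZ} : Finset (Place K F)) ⊆ T := by
    intro y hy
    rcases Finset.mem_insert.mp hy with rfl | hy
    · exact hI
    · rw [Finset.mem_singleton.mp hy]; exact hZ
  have hnp : ∀ P ∈ T, P.ord J ≤ 0 := fun P hP =>
    C.ord_nonpos_of_pole C.r_cI (by rw [C.J_cI]; omega) (Finset.mem_filter.mp hP).2
  have h1 : ∑ P ∈ T, P.ord J ≤ ∑ P ∈ ({cI, cZ} : Finset (Place K F)), P.ord J := by
    rw [← Finset.sum_sdiff hsub]
    have : ∑ P ∈ T \ {cI, cZ}, P.ord J ≤ 0 :=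
      Finset.sum_nonpos fun P hP => hnp P (Finset.mem_sdiff.mp hP).1
    linarith
  rw [Finset.sum_pair C.cI_ne_cZ, C.J_cI, C.J_cZ] at h1
  omega

theorem r_cZ_ne : S.r cZ ≠ S.r cI := by
  rw [C.r_cI]
  exact C.r_cZ_ne_Qi

/-- the reduction of `J` has a pole of order `p` at the reduction of the cusp `0`. -/
theorem J_Qz : (S.r cZ).ord (R.red ⟨J, C.J_mem⟩) = -(p : ℤ) := by
  have h2 := C.two_le
  have hJ0 := C.J_ne_zero
  obtain ⟨D, hD, -⟩ := HasPrincipalDivisors.exists_divisor (K := K) J hJ0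
  rw [S.ord_red_eq_sum C.J_mem C.J_red hD (S.r cZ)]
  have hZ : cZ ∈ D.support.filter (fun P => S.r P = S.r cZ) := Finset.mem_filter.mpr
    ⟨Finsupp.mem_support_iff.mpr (by rw [hD cZ, C.J_cZ]; omega), rfl⟩
  rw [Finset.sum_eq_single_of_mem cZ hZ, C.J_cZ]
  intro P hP hne
  have hP' := (Finset.mem_filter.mp hP).2
  have hle : P.ord J ≤ 0 := C.ord_nonpos_of_pole rfl (by rw [C.J_cZ]; omega) hP'
  by_contra h0
  have hlt : P.ord J < 0 := lt_of_le_of_ne hle h0
  rcases C.J_poles P hlt with h | h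
  · exact C.r_cZ_ne (by rw [← hP', h])
  · exact hne h

theorem poleAt_J_inf : PoleAt S cI Qi J 1 where
  mem := C.J_mem
  red_ne := C.J_red
  r_c := C.r_cI
  unique := fun P hP hord => by
    rcases C.J_poles P hord with h | h
    · exact h
    · exact absurd (by rw [← hP, h]) C.r_cZ_ne_Qi
  ord_c := by rw [C.J_cI]; rfl
  ord_Q := by rw [C.J_Qi]; rfl

theorem poleAt_Jp_inf : PoleAt S cI Qi Jp p where
  mem := C.Jp_mem
  red_ne := C.Jp_red
  r_c := C.r_cI
  unique := fun P hP hord => by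
    rcases C.Jp_poles P hord with h | h
    · exact h
    · exact absurd (by rw [← hP, h]) C.r_cZ_ne_Qi
  ord_c := C.Jp_cI
  ord_Q := C.Jp_Qi

theorem poleAt_J_zero : PoleAt S cZ (S.r cZ) J p where
  mem := C.J_mem
  red_ne := C.J_red
  r_c := rfl
  unique := fun P hP hord => by
    rcases C.J_poles P hord with h | h
    · exact absurd (by rw [← hP, h]) C.r_cZ_ne
    · exact h
  ord_c := C.J_cZ
  ord_Q := C.J_Qz

/-- **`x` reduces to one of the two cusps.** -/
theorem r_mem (hx : ValueAt x J a) (ha : a ∉ R.A) : S.r x = S.r cI ∨ S.r x = S.r cZ := by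
  obtain ⟨c, hc, hr⟩ := S.exists_pole_of_value_not_mem C.J_mem hx ha
  rcases C.J_poles c hc with h | h
  · exact Or.inl (by rw [← hr, h])
  · exact Or.inr (by rw [← hr, h])

/-- `x ↦ r(∞) ⟹ |a'| = |a| ^ p` (and `|a|, |a'| > 1`). -/
theorem valuation_eq_of_r_inf (hx : ValueAt x J a) (hx' : ValueAt x Jp a')
    (hr : S.r x = S.r cI) :
    a ∉ R.A ∧ a' ∉ R.A ∧ R.A.valuation a' = R.A.valuation a ^ p := by
  rw [C.r_cI] at hr
  have hne : x ≠ cI := C.poleAt_J_inf.ne_of_valueAt one_pos hx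
  refine ⟨C.poleAt_J_inf.value_not_mem one_pos hr hx,
    C.poleAt_Jp_inf.value_not_mem (by have := C.two_le; omega) hr hx', ?_⟩
  have := PoleAt.valuation_pow_eq C.poleAt_Jp_inf C.poleAt_J_inf hr hne hx' hx
  rwa [pow_one] at this

/-- **`x ↦ r(0) ⟹ |a'| < |a| ^ p`** (`Jp / J ^ p` is regular on the disc of `r(0)` and vanishes at
the cusp `0`). -/
theorem lt_of_r_zero (hx : ValueAt x J a) (hx' : ValueAt x Jp a') (hr : S.r x = S.r cZ) :
    a ∉ R.A ∧ R.A.valuation a' < R.A.valuation a ^ p := by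
  have h2 := C.two_le
  have hJ0 := C.J_ne_zero
  have hJp0 := C.Jp_ne_zero
  have hPZ := C.poleAt_J_zero
  have haA : a ∉ R.A := hPZ.value_not_mem (by omega) hr hx
  have ha0 : a ≠ 0 := fun h0 => haA (h0 ▸ R.A.zero_mem)
  refine ⟨haA, ?_⟩
  set g : F := Jp * (J⁻¹) ^ p with hg
  have hg0 : g ≠ 0 := mul_ne_zero hJp0 (pow_ne_zero _ (inv_ne_zero hJ0))
  have hgm : g ∈ R.Rw := mul_mem C.Jp_mem (pow_mem hPZ.inv_mem _)
  have hordg : ∀ P : Place K F, P.ord g = P.ord Jp - p * P.ord J := by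
    intro P
    rw [hg, P.ord_mul hJp0 (pow_ne_zero _ (inv_ne_zero hJ0)), ord_npow, Place.ord_inv]
    ring
  have hreg : S.RegOn (S.r cZ) g := by
    refine ⟨hgm, fun P hP => (PlaceB.ord_nonneg_iff P hg0).mp ?_⟩
    rw [hordg]
    by_cases hPc : P = cZ
    · rw [hPc, C.Jp_cZ, C.J_cZ]
      nlinarith
    · rw [hPZ.ord_eq_zero hP hPc, mul_zero, sub_zero]
      by_contra hlt
      rcases C.Jp_poles P (not_le.mp hlt) with h | h
      · exact C.r_cZ_ne (by rw [← hP, h])
      · exact hPc h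
  have hgred : R.red ⟨g, hgm⟩ ≠ 0 := by
    have e : (⟨g, hgm⟩ : R.Rw) = ⟨Jp, C.Jp_mem⟩ * ⟨J⁻¹, hPZ.inv_mem⟩ ^ p := rfl
    rw [e, map_mul, map_pow, red_inv R C.J_mem C.J_red]
    exact mul_ne_zero C.Jp_red (pow_ne_zero _ (inv_ne_zero C.J_red))
  have hpos : 0 < (S.r cZ).ord (R.red ⟨g, hreg.1⟩) := by
    have h1 := ord_le_ord_red_spec S hreg hgred (P := cZ) rfl
    rw [hordg, C.Jp_cZ, C.J_cZ] at h1
    have h3 : (2 : ℤ) ≤ p := by exact_mod_cast h2
    nlinarith
  have hv : ValueAt x g (a' * (a⁻¹) ^ p) := valueAt_mul hx' (valueAt_pow (valueAt_inv hx ha0) p)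
  have hlt := S.value_lt_one hreg hpos hr hv
  rw [map_mul, map_pow, map_inv₀, inv_pow] at hlt
  have hva : R.A.valuation a ^ p ≠ 0 := pow_ne_zero _ ((Valuation.ne_zero_iff _).mpr ha0)
  have := mul_lt_mul_of_pos_right hlt (zero_lt_iff.mpr hva)
  rwa [mul_assoc, inv_mul_cancel₀ hva, mul_one, one_mul] at this

/-- **`x ↦ r(∞) ⟺ |a'| = |a| ^ p`.** -/
theorem r_eq_r_cI_iff (hx : ValueAt x J a) (hx' : ValueAt x Jp a') (ha : a ∉ R.A) :
    S.r x = S.r cI ↔ R.A.valuation a' = R.A.valuation a ^ p := by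
  refine ⟨fun hr => (C.valuation_eq_of_r_inf hx hx' hr).2.2, fun hv => ?_⟩
  rcases C.r_mem hx ha with hr | hr
  · exact hr
  · have := (C.lt_of_r_zero hx hx' hr).2
    rw [hv] at this
    exact absurd this (lt_irrefl _)

/-- **`|a| = |a'| ^ p ⟹ x ↦ r(0)`.** -/
theorem r_eq_r_cZ_of_pattern (hx : ValueAt x J a) (hx' : ValueAt x Jp a') (ha : a ∉ R.A)
    (hv : R.A.valuation a = R.A.valuation a' ^ p) : S.r x = S.r cZ := by
  rcases C.r_mem hx ha with hr | hr
  · exact absurd ⟨(C.valuation_eq_of_r_inf hx hx' hr).2.2, hv⟩ (not_both_patterns C.two_le ha)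
  · exact hr

/-- **`x ↦ r(0) ⟺ ¬ |a'| = |a| ^ p`.** -/
theorem r_eq_r_cZ_iff_not (hx : ValueAt x J a) (hx' : ValueAt x Jp a') (ha : a ∉ R.A) :
    S.r x = S.r cZ ↔ ¬ R.A.valuation a' = R.A.valuation a ^ p := by
  rw [← C.r_eq_r_cI_iff hx hx' ha]
  constructor
  · intro hr hr'
    exact C.r_cZ_ne (by rw [← hr, hr'])
  · intro hne
    exact (C.r_mem hx ha).resolve_left hne

/-- **uniqueness**: a place is determined by its pair of values `(a, a')`, `|a|, |a'| > 1`. -/
theorem unique_of_pair {x' : Place K F} (hx : ValueAt x J a) (hxp : ValueAt x Jp a')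
    (hx' : ValueAt x' J a) (hxp' : ValueAt x' Jp a') (ha : a ∉ R.A) (ha' : a' ∉ R.A) : x = x' := by
  rcases C.r_mem hx ha with hr | hr
  · have hr' : S.r x' = S.r cI :=
      (C.r_eq_r_cI_iff hx' hxp' ha).mpr ((C.r_eq_r_cI_iff hx hxp ha).mp hr)
    rw [C.r_cI] at hr hr'
    obtain ⟨P, -, hP⟩ := C.poleAt_J_inf.existsUnique ha
    rw [hP x ⟨hr, hx⟩, hP x' ⟨hr', hx'⟩]
  · have hr' : S.r x' = S.r cZ :=
      (C.r_eq_r_cZ_iff_not hx' hxp' ha).mpr ((C.r_eq_r_cZ_iff_not hx hxp ha).mp hr)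
    obtain ⟨P, -, hP⟩ := existsUnique_of_simple_pole S C.Jp_mem (c := cZ) rfl
      (fun P hP hord => by
        rcases C.Jp_poles P hord with h | h
        · exact absurd (by rw [← hP, h]) C.r_cZ_ne
        · exact h) C.Jp_cZ ha'
    rw [hP x ⟨hr, hxp⟩, hP x' ⟨hr', hxp'⟩]

/-- **analytic existence at `r(∞)`**: every `a` with `|a| > 1` is the `J`-value of a unique place
reducing to `r(∞)`. -/
theorem exists_inf (ha : a ∉ R.A) : ∃! x : Place K F, S.r x = S.r cI ∧ ValueAt x J a := by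
  rw [C.r_cI]
  exact C.poleAt_J_inf.existsUnique ha

/-- **analytic existence at `r(0)`**: every `a'` with `|a'| > 1` is the `Jp`-value of a unique
place reducing to `r(0)`. -/
theorem exists_zero (ha' : a' ∉ R.A) : ∃! x : Place K F, S.r x = S.r cZ ∧ ValueAt x Jp a' :=
  existsUnique_of_simple_pole S C.Jp_mem (c := cZ) rfl
    (fun P hP hord => by
      rcases C.Jp_poles P hord with h | h
      · exact absurd (by rw [← hP, h]) C.r_cZ_ne
      · exact h) C.Jp_cZ ha'

end PoleDataInf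

end Fermat.Agent.GZ.Mod.AlphaLite
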