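/-
GATE-Z (S15) / [MOD-alpha], helper leaf for the instances at the auxiliary levels `N = d p`
(helper48): the pole-order matrix of `(j, j_d, j_p, j_{dp})` at the four cusps `W_i • ∞`,

  `nMat d p i l = d ^ (i.1 xor l.1) * p ^ (i.2 xor l.2)`,   `i, l : Bool × Bool`,

and its arithmetic: `nMat_pos`, `sum_nMat` (`= (d + 1) (p + 1) = ψ(d p)`), `nMat_dominant`
(the `dominant` field of `AlphaFamily.CuspFamily`), `nMat_type` (the `htype` hypothesis of
`AlphaPull` for the columns `lJ = (false, false)`, `lT = (false, true)`), `nMat_col_injective`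
(distinct cusps have distinct pole orders in every column: `Q_inj`).
-/
import Mathlib

set_option autoImplicit false

namespace Fermat.Agent.GZ.Mod.AlphaMatrix

/-- the pole order of `W_l j` at the cusp `W_i • ∞` of `X₀(d p)`. -/
def nMat (d p : ℕ) (i l : Bool × Bool) : ℕ :=
  d ^ (xor i.1 l.1).toNat * p ^ (xor i.2 l.2).toNat

theorem nMat_pos {d p : ℕ} (hd : 0 < d) (hp : 0 < p) (i l : Bool × Bool) : 0 < nMat d p i l :=
  Nat.mul_pos (pow_pos hd _) (pow_pos hp _)

@[simp] theorem nMat_self (d p : ℕ) (i : Bool × Bool) : nMat d p i i = 1 := by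
  simp [nMat]

theorem nMat_symm (d p : ℕ) (i l : Bool × Bool) : nMat d p i l = nMat d p l i := by
  simp [nMat, Bool.xor_comm]

/-- the opposite index. -/
def opp (i : Bool × Bool) : Bool × Bool := (!i.1, !i.2)

theorem nMat_opp (d p : ℕ) (i : Bool × Bool) : nMat d p i (opp i) = d * p := by
  rcases i with ⟨_ | _, _ | _⟩ <;> simp [nMat, opp]

/-- **the column sums**: `Σ_i nMat d p i l = (d + 1) (p + 1)`. -/
theorem sum_nMat (d p : ℕ) (l : Bool × Bool) : ∑ i, nMat d p i l = (d + 1) * (p + 1) := by
  rcases l with ⟨_ | _, _ | _⟩ <;> simp [nMat, Fintype.sum_prod_type] <;> ring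

/-- **dominance**: the pole of `W_{opp i} j` at the cusp `i` exceeds the sum of its other poles. -/
theorem nMat_dominant {d p : ℕ} (hd : 2 ≤ d) (hp : 5 ≤ p) (i : Bool × Bool) :
    ∃ l, ∑ i' ∈ Finset.univ.erase i, nMat d p i' l < nMat d p i l := by
  refine ⟨opp i, ?_⟩
  have h1 := Finset.add_sum_erase Finset.univ (fun i' => nMat d p i' (opp i)) (Finset.mem_univ i)
  rw [sum_nMat] at h1
  rw [nMat_opp] at h1 ⊢
  nlinarith

/-- the same with `d = 3`, `p ≥ 3` (or any `d ≥ 3`). -/
theorem nMat_dominant' {d p : ℕ} (hd : 3 ≤ d) (hp : 3 ≤ p) (i : Bool × Bool) :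
    ∃ l, ∑ i' ∈ Finset.univ.erase i, nMat d p i' l < nMat d p i l := by
  refine ⟨opp i, ?_⟩
  have h1 := Finset.add_sum_erase Finset.univ (fun i' => nMat d p i' (opp i)) (Finset.mem_univ i)
  rw [sum_nMat] at h1
  rw [nMat_opp] at h1 ⊢
  nlinarith

/-- **the type of a cusp** for the columns `j = (false, false)` and `j_p = (false, true)`: over the
cusp `0` of `X₀(p)` (`i.2 = true`) the order of `j` is `p` times the order of `j_p`; over `∞` the
other way round. -/
theorem nMat_type (d p : ℕ) (i : Bool × Bool) :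
    nMat d p i (false, false) = p * nMat d p i (false, true) ∨
      nMat d p i (false, true) = p * nMat d p i (false, false) := by
  rcases i with ⟨_ | _, _ | _⟩ <;> simp [nMat] <;> ring_nf <;> simp

theorem nMat_type_true (d p : ℕ) (b : Bool) :
    nMat d p (b, true) (false, false) = p * nMat d p (b, true) (false, true) := by
  cases b <;> simp [nMat]
  ring

theorem nMat_type_false (d p : ℕ) (b : Bool) :
    nMat d p (b, false) (false, true) = p * nMat d p (b, false) (false, false) := by
  cases b <;> simp [nMat]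
  ring

/-- the entries of the first column: `1, p, d, d p`. -/
theorem nMat_zero (d p : ℕ) (i : Bool × Bool) :
    nMat d p i (false, false) = d ^ i.1.toNat * p ^ i.2.toNat := by
  simp [nMat]

theorem nMat_xor (d p : ℕ) (i l : Bool × Bool) :
    nMat d p i l = nMat d p (xor i.1 l.1, xor i.2 l.2) (false, false) := by
  simp [nMat]

/-- `1, p, d, d p` are pairwise distinct. -/
theorem nMat_zero_injective {d p : ℕ} (hd : 1 < d) (hp : 1 < p) (hdp : d ≠ p) :
    Function.Injective (fun i : Bool × Bool => nMat d p i (false, false)) := by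
  have hdp1 : 1 < d * p := by nlinarith
  have h1 : d * p ≠ d := by
    intro h
    have : d * p = d * 1 := by rw [h, mul_one]
    have := Nat.eq_of_mul_eq_mul_left (by omega) this
    omega
  have h2 : d * p ≠ p := by
    intro h
    have : d * p = 1 * p := by rw [h, one_mul]
    have := Nat.eq_of_mul_eq_mul_right (by omega) this
    omega
  rintro ⟨_ | _, _ | _⟩ ⟨_ | _, _ | _⟩ h <;> simp [nMat] at h ⊢ <;> omega

/-- **distinct cusps have distinct pole orders in every column.** -/
theorem nMat_col_injective {d p : ℕ} (hd : 1 < d) (hp : 1 < p) (hdp : d ≠ p) (l : Bool × Bool) :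
    Function.Injective (fun i : Bool × Bool => nMat d p i l) := by
  intro i i' h
  simp only at h
  rw [nMat_xor d p i l, nMat_xor d p i' l] at h
  have h' := nMat_zero_injective hd hp hdp h
  rw [Prod.mk.injEq] at h'
  obtain ⟨h1, h2⟩ := h'
  have e1 : i.1 = i'.1 := by
    have := congrArg (fun b => xor b l.1) h1
    simpa [Bool.xor_assoc] using this
  have e2 : i.2 = i'.2 := by
    have := congrArg (fun b => xor b l.2) h2
    simpa [Bool.xor_assoc] using this
  exact Prod.ext e1 e2

end Fermat.Agent.GZ.Mod.AlphaMatrix
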