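/-
GATE-Z (S15) / [MOD-alpha], NO CANCELLATION over a `SpecMap` (helper48; claims row
GZ-MOD-ALPHA-DISC): the spec-only port of helper16's `GZ/Mod/Inst/NoCancel.no_cancel_div` /
`no_cancel_of_finrank` (frame form, `rOf H`) to ANY place map with the fibre formula.  This is the
`nocancel` field of `GZ/Mod/AlphaLite.PoleDataInf`.

* `no_cancel_div_map`   : for any map of places `r` (all places of degree one on both sides), if the
  pole degree of `D` does not drop under push-forward, no fibre of `r` contains both a zero and a pole;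
* `no_cancel_spec`      : for `S : SpecMap R` and `y : R.Rw` with transcendental reduction and degree
  preservation `[F : K(y)] ≤ [Ft : k(red y)]`, no residue disc of `S.r` contains both a zero and a pole
  of `y`.
-/
import Mathlib
import Fermat.Agent.GZ.Mod.AlphaSpec
import Fermat.Agent.GH.L3.Shift
import Fermat.Agent.GJ.S37.PoleDeg
import Fermat.Agent.GJ.S37.PlaceMap
import Fermat.Agent.GJ.J1.IntegralityRed

set_option autoImplicit false
set_option linter.unusedSectionVars false

noncomputable section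

open AlgebraicCurve IntermediateField

namespace Fermat.Agent.GZ.Mod.AlphaNoCancel

open Fermat.Agent.RRh45 Fermat.Agent.GJ.J1 Fermat.Agent.S24 Fermat.Agent.GH
  Fermat.Agent.GZ.Mod.AlphaSpec
open Fermat.Agent.GH.Disc (coe_ne_zero_of_red_ne_zero)

/-! ### push-forward of effective `Finsupp`s -/

section Fin

variable {α β : Type*}

theorem mapDomain_nonneg_of_nonneg' (f : α → β) {D : α →₀ ℤ} (hD : 0 ≤ D) :
    0 ≤ Finsupp.mapDomain f D := by
  classical
  intro b
  rw [mapDomain_apply_eq_sum, Finsupp.zero_apply]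
  exact Finset.sum_nonneg fun a _ => hD a

/-- if the push-forward of an effective `D` vanishes at `b`, then `D` vanishes on the fibre. -/
theorem eq_zero_of_mapDomain_eq_zero' (f : α → β) {D : α →₀ ℤ} (hD : 0 ≤ D) {b : β}
    (h : Finsupp.mapDomain f D b = 0) {a : α} (ha : f a = b) : D a = 0 := by
  classical
  rw [mapDomain_apply_eq_sum] at h
  by_cases hmem : a ∈ D.support
  · exact (Finset.sum_eq_zero_iff_of_nonneg (fun a' _ => hD a')).mp h a
      (Finset.mem_filter.mpr ⟨hmem, ha⟩)
  · exact Finsupp.notMem_support_iff.mp hmem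

end Fin

variable {K F k Ft : Type*} [Field K] [Field F] [Algebra K F] [Field k] [Field Ft] [Algebra k Ft]

/-- **no cancellation** (divisor form, any map of places): if the pole degree does not drop under
push-forward, no fibre of `r` contains both a zero and a pole. -/
theorem no_cancel_div_map (degF : ∀ P : Place K F, P.deg = 1) (degFt : ∀ Q : Place k Ft, Q.deg = 1)
    (r : Place K F → Place k Ft) (Dy : Divisor K F)
    (hdeg : Divisor.degree ((-Dy) ⊔ 0) ≤
      Divisor.degree ((-(Finsupp.mapDomain r Dy)) ⊔ 0)) (Q : Place k Ft) :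
    (∀ P : Place K F, r P = Q → 0 ≤ Dy P) ∨ (∀ P : Place K F, r P = Q → Dy P ≤ 0) := by
  classical
  set N : Divisor K F := (-Dy) ⊔ 0 with hN
  set Z : Divisor K F := Dy ⊔ 0 with hZ
  have hN0 : 0 ≤ N := le_sup_right
  have hZ0 : 0 ≤ Z := le_sup_right
  have hNP : ∀ P, N P = max (-(Dy P)) 0 := fun P => by
    rw [hN, Finsupp.sup_apply, Finsupp.neg_apply]; rfl
  have hZP : ∀ P, Z P = max (Dy P) 0 := fun P => by
    rw [hZ, Finsupp.sup_apply]; rfl
  have hsplit : Dy = Z - N := by
    ext P
    rw [Finsupp.sub_apply, hNP, hZP]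
    rcases le_total (Dy P) 0 with h | h
    · rw [max_eq_right h, max_eq_left (by omega)]; omega
    · rw [max_eq_left h, max_eq_right (by omega)]; omega
  have hr : Finsupp.mapDomain r Dy =
      Finsupp.mapDomain r Z - Finsupp.mapDomain r N := by
    conv_lhs => rw [hsplit]
    rw [← Finsupp.mapDomain.addMonoidHom_apply, map_sub, Finsupp.mapDomain.addMonoidHom_apply,
      Finsupp.mapDomain.addMonoidHom_apply]
  have hrN0 := mapDomain_nonneg_of_nonneg' r hN0
  have hrZ0 := mapDomain_nonneg_of_nonneg' r hZ0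
  set E1 : Divisor k Ft := (-(Finsupp.mapDomain r Dy)) ⊔ 0 with hE1
  have hE1Q : ∀ Q, E1 Q = max (Finsupp.mapDomain r N Q - Finsupp.mapDomain r Z Q) 0 :=
    fun Q => by
      rw [hE1, Finsupp.sup_apply, Finsupp.neg_apply, hr, Finsupp.sub_apply, neg_sub]; rfl
  have hle : E1 ≤ Finsupp.mapDomain r N := fun Q => by
    rw [hE1Q]
    have h1 := hrN0 Q
    have h2 := hrZ0 Q
    rw [Finsupp.zero_apply] at h1 h2
    exact max_le (by omega) h1
  have hE : Finsupp.mapDomain r N - E1 = 0 := by
    refine Fermat.Agent.GJ.S37.PlaceMap.eq_zero_of_nonneg_of_degree_eq_zero degFt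
      (sub_nonneg.mpr hle) ?_
    have h1 : Divisor.degree (Finsupp.mapDomain r N) = Divisor.degree N :=
      Fermat.Agent.GH.L3.degree_mapDomain degF degFt r N
    have h2 := Fermat.Agent.GJ.S37.PlaceMap.degree_nonneg degFt (sub_nonneg.mpr hle)
    rw [map_sub, h1] at h2 ⊢
    omega
  have hEQ : Finsupp.mapDomain r N Q =
      max (Finsupp.mapDomain r N Q - Finsupp.mapDomain r Z Q) 0 := by
    have := congrArg (fun D : Divisor k Ft => D Q) hE
    simp only [Finsupp.sub_apply, Finsupp.zero_apply] at this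
    rw [← hE1Q]; omega
  by_cases hn : Finsupp.mapDomain r N Q = 0
  · left
    intro P hP
    have h1 := eq_zero_of_mapDomain_eq_zero' r hN0 hn hP
    rw [hNP] at h1
    have := le_max_left (-(Dy P)) 0
    omega
  · right
    intro P hP
    have h0 := hrN0 Q
    have h0' := hrZ0 Q
    rw [Finsupp.zero_apply] at h0 h0'
    have hz : Finsupp.mapDomain r Z Q = 0 := by
      rcases le_total (Finsupp.mapDomain r N Q - Finsupp.mapDomain r Z Q) 0 with h | h
      · rw [max_eq_right h] at hEQ; exact absurd hEQ hn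
      · rw [max_eq_left h] at hEQ; omega
    have h1 := eq_zero_of_mapDomain_eq_zero' r hZ0 hz hP
    rw [hZP] at h1
    have := le_max_left (Dy P) 0
    omega

variable {R : RedData K F k Ft}
variable [HasPrincipalDivisors K F]

/-- **no cancellation over a `SpecMap`** from degree preservation at `y`: no residue disc contains
both a zero and a pole of `y`. -/
theorem no_cancel_spec (S : SpecMap R) (degFt : ∀ Q : Place k Ft, Q.deg = 1)
    (x₀ : F) [IsGen K x₀] (xt₀ : Ft) [IsGen k xt₀]
    {y : R.Rw} (htr : Transcendental k (R.red y))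
    (hfr : Module.finrank K⟮(y : F)⟯ F ≤ Module.finrank k⟮R.red y⟯ Ft) (Q : Place k Ft) :
    (∀ P : Place K F, S.r P = Q → 0 ≤ P.ord (y : F)) ∨
      (∀ P : Place K F, S.r P = Q → P.ord (y : F) ≤ 0) := by
  have hy : R.red y ≠ 0 := fun h => htr (h ▸ isAlgebraic_zero)
  have hy0 : (y : F) ≠ 0 := coe_ne_zero_of_red_ne_zero hy
  obtain ⟨Dy, hDy, -⟩ := HasPrincipalDivisors.exists_divisor (K := K) (y : F) hy0
  have hDt : ∀ Q : Place k Ft, Finsupp.mapDomain S.r Dy Q = Q.ord (R.red y) :=
    S.fibre y hy Dy hDy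
  have hxtr : Transcendental K (y : F) :=
    Fermat.Agent.GJ.J1.IntRed.transcendental_of_isGaussChart (R := R) ⟨y.2, htr⟩
  have h1 := Fermat.Agent.GJ.S37PoleDeg.degree_neg_sup_zero_eq_finrank x₀ hxtr hDy
  have h2 := Fermat.Agent.GJ.S37PoleDeg.degree_neg_sup_zero_eq_finrank xt₀ htr hDt
  have hdeg : Divisor.degree ((-Dy) ⊔ 0) ≤
      Divisor.degree ((-(Finsupp.mapDomain S.r Dy)) ⊔ 0) := by
    rw [h1, h2]; exact_mod_cast hfr
  rcases no_cancel_div_map S.degF degFt S.r Dy hdeg Q with h | h
  · exact Or.inl fun P hP => by rw [← hDy P]; exact h P hP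
  · exact Or.inr fun P hP => by rw [← hDy P]; exact h P hP

end Fermat.Agent.GZ.Mod.AlphaNoCancel
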