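/-
GATE-Z (S15) / [MOD-alpha], helper leaf for the instances (helper48): **poles from the degree
count**.

`poles_of_degree`: `F / K` a function field (`IsGen`), all places of degree one, `y` transcendental;
if distinct places `c i` carry poles of `y` of orders `n i` with `[F : K(y)] ≤ Σ n i`, then `y` has
no other pole (`deg (y)_∞ = [F : K(y)]`, `GJ/S37/PoleDeg.degree_neg_sup_zero_eq_finrank`).
This is the `poles` field of `AlphaFamily.CuspFamily` / of `AlphaSpec.PoleData` from
`Σ_i n i l = ψ(N) = [F_N : ℚ̄(J l)]`.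
-/
import Mathlib
import Fermat.Agent.GJ.S37.PoleDeg
import Fermat.Agent.GJ.S37.PlaceMap

set_option autoImplicit false

noncomputable section

open AlgebraicCurve IntermediateField

namespace Fermat.Agent.GZ.Mod.AlphaPoleCount

open Fermat.Agent.S24 Fermat.Agent.RRh45

variable {K F : Type*} [Field K] [Field F] [Algebra K F]

/-- the divisor `Σ_i n i (c i)`. -/
def cuspDiv {ι : Type*} [Fintype ι] (c : ι → Place K F) (n : ι → ℕ) : Divisor K F :=
  ∑ i, Finsupp.single (c i) (n i : ℤ)

theorem cuspDiv_apply {ι : Type*} [Fintype ι] [DecidableEq ι] {c : ι → Place K F}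
    (hc : Function.Injective c) (n : ι → ℕ) (i : ι) : cuspDiv c n (c i) = n i := by
  classical
  rw [cuspDiv, Finset.sum_apply']
  rw [Finset.sum_eq_single i]
  · exact Finsupp.single_eq_same
  · intro j _ hj
    exact Finsupp.single_eq_of_ne (fun h => hj (hc h).symm)
  · intro h
    exact absurd (Finset.mem_univ i) h

theorem cuspDiv_apply_of_notMem {ι : Type*} [Fintype ι] {c : ι → Place K F} (n : ι → ℕ)
    {P : Place K F} (hP : ∀ i, P ≠ c i) : cuspDiv c n P = 0 := by
  classical
  rw [cuspDiv, Finset.sum_apply']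
  exact Finset.sum_eq_zero fun i _ => Finsupp.single_eq_of_ne (fun h => hP i h)

theorem degree_cuspDiv {ι : Type*} [Fintype ι] (degF : ∀ P : Place K F, P.deg = 1)
    (c : ι → Place K F) (n : ι → ℕ) : Divisor.degree (cuspDiv c n) = ∑ i, (n i : ℤ) := by
  rw [cuspDiv, map_sum]
  refine Finset.sum_congr rfl fun i _ => ?_
  rw [Divisor.degree_single, degF]
  simp

variable [HasPrincipalDivisors K F]

/-- **poles from the degree count.** -/
theorem poles_of_degree (degF : ∀ P : Place K F, P.deg = 1) (x₀ : F) [IsGen K x₀] {y : F}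
    (hy : Transcendental K y) {ι : Type*} [Fintype ι] (c : ι → Place K F)
    (hc : Function.Injective c) (n : ι → ℕ) (hord : ∀ i, (c i).ord y = -(n i : ℤ))
    (hsum : Module.finrank K⟮y⟯ F ≤ ∑ i, n i) :
    ∀ P : Place K F, P.ord y < 0 → ∃ i, P = c i := by
  classical
  have hy0 : y ≠ 0 := fun h => hy (h ▸ isAlgebraic_zero)
  obtain ⟨D, hD, -⟩ := HasPrincipalDivisors.exists_divisor (K := K) y hy0
  have hdeg := Fermat.Agent.GJ.S37PoleDeg.degree_neg_sup_zero_eq_finrank x₀ hy hD
  set N : Divisor K F := (-D) ⊔ 0 with hN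
  have hNP : ∀ P, N P = max (-(P.ord y)) 0 := fun P => by
    rw [hN, Fermat.Agent.GJ.S37PoleDeg.neg_sup_zero_apply, hD]
  set E : Divisor K F := cuspDiv c n with hE
  -- `E ≤ N`
  have hle : E ≤ N := by
    intro P
    by_cases hP : ∃ i, P = c i
    · obtain ⟨i, rfl⟩ := hP
      rw [hE, cuspDiv_apply hc, hNP, hord]
      simp
    · have hP' : ∀ i, P ≠ c i := fun i h => hP ⟨i, h⟩
      rw [hE, cuspDiv_apply_of_notMem n hP', hNP]
      exact le_max_right _ _
  have hzero : N - E = 0 := by
    refine Fermat.Agent.GJ.S37.PlaceMap.eq_zero_of_nonneg_of_degree_eq_zero degF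
      (sub_nonneg.mpr hle) ?_
    have h1 := Fermat.Agent.GJ.S37.PlaceMap.degree_nonneg degF (sub_nonneg.mpr hle)
    rw [map_sub, hdeg, hE, degree_cuspDiv degF] at h1 ⊢
    have h2 : (Module.finrank K⟮y⟯ F : ℤ) ≤ ∑ i, (n i : ℤ) := by exact_mod_cast hsum
    omega
  intro P hP
  by_contra hne
  have hP' : ∀ i, P ≠ c i := fun i h => hne ⟨i, h⟩
  have h1 := congrArg (fun D : Divisor K F => D P) hzero
  simp only [Finsupp.sub_apply, Finsupp.zero_apply] at h1
  rw [hE, cuspDiv_apply_of_notMem n hP', hNP] at h1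
  have := le_max_left (-(P.ord y)) 0
  omega

end Fermat.Agent.GZ.Mod.AlphaPoleCount
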