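/-
GATE-Z (S15) / [MOD-alpha], PULL-BACK form (helper48; claims row GZ-MOD-ALPHA-PULL): the abstract
theorem behind the `2, 3`-clauses of `GZ/Top/S15TopB.ModuliB`.

`K ⊆ F ⊆ F'` function fields (levels `p ∣ N' = d p`), `S' : SpecMap R'` a place map with the fibre
formula at level `N'` ONLY (nothing is needed at level `p` over the residue characteristic).

* `mapDomain_pullback_single_apply` : `(r'_* π^* (v)) (Q') = Σ_{w ∣ v, w ↦ Q'} e(w ∣ v)`;
* **`mapDomain_pullback_sub_eq_zero`** (P-ABS): if `T ∈ F` has a simple pole at `cZ`, the cusps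
  `c i` (`i ∈ I0`) of `F'` lie over `cZ`, `T` has on the disc of `Q i` the only pole `c i` (of order
  `m i ≤ e(c i ∣ cZ)`, matched by the reduction), `T(x) = a'` with `|a'| > 1`, and every place over
  `x` reduces to one of the `Q i`, then `r'_* π^* ((x) − (cZ)) = 0` AS A DIVISOR.
  Proof: `E := r'_* π^* (x) − r'_* π^* (cZ) ≤ 0` by the count for `T⁻¹ − a'⁻¹`
  (`AlphaFamily.sum_ord_inv_sub`), and `deg E = 0`.
-/
import Mathlib
import Fermat.Agent.GZ.Mod.AlphaFamily
import Fermat.Agent.GH.L3.Shift
import Fermat.Agent.GJ.S37.PlaceMap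
import Fermat.Prelude.Def_AlgebraicCurve_DivisorPushPull

set_option autoImplicit false
set_option linter.unusedSectionVars false

noncomputable section

open AlgebraicCurve

namespace Fermat.Agent.GZ.Mod.AlphaPull

open Fermat.Agent.RRh45 Fermat.Agent.GJ.J1 Fermat.Agent.S24 Fermat.Agent.GH
  Fermat.Agent.GZ.Mod.AlphaDisc Fermat.Agent.GZ.Mod.AlphaSpec Fermat.Agent.GZ.Mod.AlphaFamily
open Fermat.Agent.GH.Disc (valueAt_iff_ord valueAt_mem valueAt_unique valueAt_zero_iff
  coe_ne_zero_of_red_ne_zero)

open scoped Classical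

variable {K F F' k Ft' : Type*} [Field K] [Field F] [Field F'] [Field k] [Field Ft']
  [Algebra K F] [Algebra K F'] [Algebra F F'] [IsScalarTower K F F'] [Algebra k Ft']
  [Algebra.IsIntegral F F'] [HasPrincipalDivisors K F']

/-! ### push-forward of the pull-back of a point -/

section Push

variable (r : Place K F' → Place k Ft')

/-- `(r_* π^* (v)) (Q') = Σ_{w ∣ v, w ↦ Q'} e(w ∣ v)`. -/
theorem mapDomain_pullback_single_apply (v : Place K F) (Q' : Place k Ft') :
    Finsupp.mapDomain r (Divisor.pullback F' (Finsupp.single v 1)) Q' =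
      ∑ w ∈ (v.fiber F').filter (fun w => r w = Q'), (w.ramificationIndex F : ℤ) := by
  rw [Divisor.pullback_single, Finsupp.mapDomain_finsetSum, Finset.sum_apply', Finset.sum_filter]
  refine Finset.sum_congr rfl fun w _ => ?_
  rw [Finsupp.mapDomain_single, Finsupp.single_apply, one_mul]

theorem mapDomain_pullback_single_nonneg (v : Place K F) (Q' : Place k Ft') :
    0 ≤ Finsupp.mapDomain r (Divisor.pullback F' (Finsupp.single v 1)) Q' := by
  rw [mapDomain_pullback_single_apply]
  exact Finset.sum_nonneg fun w _ => Int.natCast_nonneg _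

theorem mapDomain_pullback_sub (x cZ : Place K F) :
    Finsupp.mapDomain r (Divisor.pullback F' (Finsupp.single x 1 - Finsupp.single cZ 1)) =
      Finsupp.mapDomain r (Divisor.pullback F' (Finsupp.single x 1)) -
        Finsupp.mapDomain r (Divisor.pullback F' (Finsupp.single cZ 1)) := by
  rw [map_sub, ← Finsupp.mapDomain.addMonoidHom_apply, map_sub,
    Finsupp.mapDomain.addMonoidHom_apply, Finsupp.mapDomain.addMonoidHom_apply]

end Push

/-! ### transfer of values and orders along `F ⊆ F'` -/

section Transfer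

theorem valueAt_algebraMap_of_restrict {w : Place K F'} {f : F} {a : K}
    (h : ValueAt (w.restrict F) f a) : ValueAt w (algebraMap F F' f) a := by
  rw [valueAt_iff_ord] at h ⊢
  have e : algebraMap F F' f - algebraMap K F' a = algebraMap F F' (f - algebraMap K F a) := by
    rw [map_sub, ← IsScalarTower.algebraMap_apply]
  rw [e, Place.ord_restrict]
  rcases h with h | h
  · left
    rw [h, map_zero]
  · right
    have := w.ramificationIndex_pos (F := F)
    positivity

theorem valueAt_restrict_of_algebraMap {w : Place K F'} {f : F} {a : K}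
    (h : ValueAt w (algebraMap F F' f) a) : ValueAt (w.restrict F) f a := by
  rw [valueAt_iff_ord] at h ⊢
  have e : algebraMap F F' f - algebraMap K F' a = algebraMap F F' (f - algebraMap K F a) := by
    rw [map_sub, ← IsScalarTower.algebraMap_apply]
  rw [e, Place.ord_restrict] at h
  rcases h with h | h
  · left
    exact (map_eq_zero (algebraMap F F')).mp h
  · right
    have h1 := w.ramificationIndex_pos (F := F)
    by_contra hle
    have hle' : (w.restrict F).ord (f - algebraMap K F a) ≤ 0 := not_lt.mp hle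
    have : (w.ramificationIndex F : ℤ) * (w.restrict F).ord (f - algebraMap K F a) ≤ 0 :=
      mul_nonpos_of_nonneg_of_nonpos (Int.natCast_nonneg _) hle'
    omega

end Transfer

/-! ### (P-ABS) -/

section Abs

variable {R' : RedData K F' k Ft'} [FundamentalIdentity K F F']

/-- **(P-ABS) the pull-back of `(x) − (cZ)` reduces to the zero divisor.** -/
theorem mapDomain_pullback_sub_eq_zero (S' : SpecMap R')
    (degFt' : ∀ Q : Place k Ft', Q.deg = 1) (degF : ∀ P : Place K F, P.deg = 1)
    {T : F} {x cZ : Place K F} {a' : K} (ha' : a' ∉ R'.A) (hx : ValueAt x T a')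
    {ι : Type*} (I0 : Finset ι) (c : ι → Place K F') (Q : ι → Place k Ft') (m : ι → ℕ)
    (hpole : ∀ i ∈ I0, PoleAt S' (c i) (Q i) (algebraMap F F' T) (m i))
    (hres : ∀ i ∈ I0, (c i).restrict F = cZ)
    (hm : ∀ i ∈ I0, (m i : ℤ) ≤ (c i).ramificationIndex F)
    (hxred : ∀ w : Place K F', w.restrict F = x → ∃ i ∈ I0, S'.r w = Q i) :
    Finsupp.mapDomain S'.r
      (Divisor.pullback F' (Finsupp.single x 1 - Finsupp.single cZ 1)) = 0 := by
  have ha0 : a' ≠ 0 := fun h0 => ha' (h0 ▸ R'.A.zero_mem)
  set E : Divisor k Ft' := Finsupp.mapDomain S'.r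
      (Divisor.pullback F' (Finsupp.single x 1 - Finsupp.single cZ 1)) with hE
  have hEsub := mapDomain_pullback_sub S'.r x cZ
  -- the function `h = T⁻¹ - a'⁻¹` downstairs and upstairs
  set h₀ : F := T⁻¹ - algebraMap K F a'⁻¹ with hh₀
  have hup : (algebraMap F F' T)⁻¹ - algebraMap K F' a'⁻¹ = algebraMap F F' h₀ := by
    rw [hh₀, map_sub, map_inv₀ (algebraMap F F') T, ← IsScalarTower.algebraMap_apply]
  -- (a) `E ≤ 0`
  have hle : ∀ Q' : Place k Ft', E Q' ≤ 0 := by
    intro Q'
    rw [hE, hEsub, Finsupp.sub_apply]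
    by_cases hQ : ∃ i ∈ I0, Q i = Q'
    · obtain ⟨i, hi, rfl⟩ := hQ
      have hP := hpole i hi
      -- the count upstairs
      have hne : (algebraMap F F' T)⁻¹ - algebraMap K F' a'⁻¹ ≠ 0 := by
        have h1 : R'.red ⟨_, inv_sub_mem hP ha'⟩ ≠ 0 := by
          rw [red_inv_sub hP ha', red_inv R' hP.mem hP.red_ne]
          exact inv_ne_zero hP.red_ne
        exact coe_ne_zero_of_red_ne_zero (y := ⟨_, inv_sub_mem hP ha'⟩) h1
      have hh₀ne : h₀ ≠ 0 := by
        intro h0
        rw [hup, h0, map_zero] at hne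
        exact hne rfl
      obtain ⟨D', hD', -⟩ := HasPrincipalDivisors.exists_divisor (K := K) _ hne
      have hcount := sum_ord_inv_sub hP ha' hD'
      -- `ord_x h₀ ≥ 1`
      have hordx : 1 ≤ x.ord h₀ := by
        have hv : ValueAt x T⁻¹ a'⁻¹ := valueAt_inv hx ha0
        rw [valueAt_iff_ord] at hv
        rcases hv with h | h
        · exact absurd h hh₀ne
        · exact h
      -- the first term
      have h1 : Finsupp.mapDomain S'.r (Divisor.pullback F' (Finsupp.single x 1)) (Q i) ≤ m i := by
        rw [mapDomain_pullback_single_apply, ← hcount]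
        have hsub : (x.fiber F').filter (fun w => S'.r w = Q i) ⊆
            D'.support.filter (fun w => S'.r w = Q i) := by
          intro w hw
          have hw' := Finset.mem_filter.mp hw
          have hwx : w.restrict F = x := Place.mem_fiber.mp hw'.1
          refine Finset.mem_filter.mpr ⟨Finsupp.mem_support_iff.mpr ?_, hw'.2⟩
          rw [hD' w, hup, Place.ord_restrict, hwx]
          have := w.ramificationIndex_pos (F := F)
          positivity
        calc ∑ w ∈ (x.fiber F').filter (fun w => S'.r w = Q i), (w.ramificationIndex F : ℤ)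
            ≤ ∑ w ∈ (x.fiber F').filter (fun w => S'.r w = Q i),
                w.ord ((algebraMap F F' T)⁻¹ - algebraMap K F' a'⁻¹) := by
              refine Finset.sum_le_sum fun w hw => ?_
              have hwx : w.restrict F = x := Place.mem_fiber.mp (Finset.mem_filter.mp hw).1
              rw [hup, Place.ord_restrict, hwx]
              have hpos : (0 : ℤ) ≤ w.ramificationIndex F := Int.natCast_nonneg _
              nlinarith
          _ ≤ ∑ w ∈ D'.support.filter (fun w => S'.r w = Q i),
                w.ord ((algebraMap F F' T)⁻¹ - algebraMap K F' a'⁻¹) := by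
              refine Finset.sum_le_sum_of_subset_of_nonneg hsub fun w hw _ => ?_
              exact ord_inv_sub_nonneg hP (Finset.mem_filter.mp hw).2 hne
      -- the second term
      have h2 : (m i : ℤ) ≤
          Finsupp.mapDomain S'.r (Divisor.pullback F' (Finsupp.single cZ 1)) (Q i) := by
        rw [mapDomain_pullback_single_apply]
        have hmem : c i ∈ (cZ.fiber F').filter (fun w => S'.r w = Q i) :=
          Finset.mem_filter.mpr ⟨Place.mem_fiber.mpr (hres i hi), hP.r_c⟩
        have := Finset.single_le_sum (f := fun w : Place K F' => (w.ramificationIndex F : ℤ))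
          (fun w _ => Int.natCast_nonneg _) hmem
        exact (hm i hi).trans this
      omega
    · have h1 : Finsupp.mapDomain S'.r (Divisor.pullback F' (Finsupp.single x 1)) Q' = 0 := by
        rw [mapDomain_pullback_single_apply]
        refine Finset.sum_eq_zero fun w hw => ?_
        exfalso
        have hw' := Finset.mem_filter.mp hw
        obtain ⟨i, hi, hri⟩ := hxred w (Place.mem_fiber.mp hw'.1)
        exact hQ ⟨i, hi, by rw [← hri, hw'.2]⟩
      have h2 := mapDomain_pullback_single_nonneg S'.r cZ Q'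
      omega
  -- (b) `deg E = 0`
  have hdeg : Divisor.degree E = 0 := by
    rw [hE, Fermat.Agent.GH.L3.degree_mapDomain S'.degF degFt' S'.r, Divisor.degree_pullback,
      map_sub, Divisor.degree_single, Divisor.degree_single, degF x, degF cZ]
    ring
  -- (c)
  have hneg : 0 ≤ -E := by
    intro Q'
    rw [Finsupp.zero_apply, Finsupp.neg_apply]
    have := hle Q'
    omega
  have h0 := Fermat.Agent.GJ.S37.PlaceMap.eq_zero_of_nonneg_of_degree_eq_zero degFt' hneg
    (by rw [map_neg, hdeg, neg_zero])
  exact neg_eq_zero.mp h0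

end Abs

/-! ### (P-FAM) from a `CuspFamily` at the upper level -/

section Fam

variable {R' : RedData K F' k Ft'} [FundamentalIdentity K F F']
variable {S' : SpecMap R'} {ι κ : Type*} [Fintype ι] [DecidableEq ι]
variable {c : ι → Place K F'} {Q : ι → Place k Ft'} {J' : κ → F'} {n : ι → κ → ℕ}

omit [FundamentalIdentity K F F'] in
/-- the valuation patterns `|a| ^ (p m) = |a'| ^ m` (`m ≠ 0`) and `|a| = |a'| ^ p` are exclusive for
`|a| > 1`, `p ≥ 2`. -/
theorem pattern_absurd {a a' : K} {p m : ℕ} (hp : 2 ≤ p) (hm : m ≠ 0) (ha : a ∉ R'.A)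
    (h1 : R'.A.valuation a ^ (p * m) = R'.A.valuation a' ^ m)
    (h2 : R'.A.valuation a = R'.A.valuation a' ^ p) : False := by
  have h3 : (R'.A.valuation a ^ p) ^ m = R'.A.valuation a' ^ m := by rw [← pow_mul, h1]
  have h4 : R'.A.valuation a ^ p = R'.A.valuation a' :=
    (pow_left_inj₀ zero_le zero_le hm).mp h3
  exact not_both_patterns hp ha ⟨h4.symm, h2⟩

/-- **(P-FAM)**: `C` a cusp family at the upper level, `J, T ∈ F` two of its functions (columns
`lJ`, `lT`), every cusp of type `0` (`n i lJ = p * n i lT`) or of type `∞` (`n i lT = p * n i lJ`);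
level-`p` generic data: the poles of `T` are `cI`, `cZ`, with `ord (J, T) = (-1, -p)` at `cI` and
`(-p, -1)` at `cZ`.  If `x` has values `(a, a')` of type `0` (`|a| = |a'| ^ p > 1`), then
`r'_* π^* ((x) − (cZ)) = 0`. -/
theorem mapDomain_pullback_sub_eq_zero_of_family (C : CuspFamily S' c Q J' n)
    (degFt' : ∀ Q : Place k Ft', Q.deg = 1) (degF : ∀ P : Place K F, P.deg = 1)
    {J T : F} (lJ lT : κ) (hJ' : J' lJ = algebraMap F F' J) (hT' : J' lT = algebraMap F F' T)
    {p : ℕ} (hp : 2 ≤ p) {cI cZ : Place K F}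
    (hTpoles : ∀ P : Place K F, P.ord T < 0 → P = cI ∨ P = cZ)
    (hJ_cI : cI.ord J = -1) (hT_cI : cI.ord T = -(p : ℤ))
    (hT_cZ : cZ.ord T = -1)
    (htype : ∀ i, n i lJ = p * n i lT ∨ n i lT = p * n i lJ)
    {x : Place K F} {a a' : K} (hx : ValueAt x J a) (hx' : ValueAt x T a') (ha : a ∉ R'.A)
    (hv : R'.A.valuation a = R'.A.valuation a' ^ p) :
    Finsupp.mapDomain S'.r
      (Divisor.pullback F' (Finsupp.single x 1 - Finsupp.single cZ 1)) = 0 := by
  have hp0 : p ≠ 0 := by omega
  -- `|a'| > 1`
  have ha' : a' ∉ R'.A := by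
    intro hmem
    have h1 : R'.A.valuation a' ≤ 1 := (R'.A.valuation_le_one_iff _).mpr hmem
    have h2 : R'.A.valuation a' ^ p ≤ 1 := pow_le_one₀ zero_le h1
    rw [← hv] at h2
    exact absurd (not_mem_A_iff.mp ha) (not_lt.mpr h2)
  -- the orders of the two functions at the cusps upstairs
  have hordT : ∀ i, (c i).ord (algebraMap F F' T) = -(n i lT : ℤ) := fun i => by
    rw [← hT', C.ord_c]
  have hordJ : ∀ i, (c i).ord (algebraMap F F' J) = -(n i lJ : ℤ) := fun i => by
    rw [← hJ', C.ord_c]
  -- the restriction of a cusp of type `0` is `cZ`, with `e = n i lT`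
  have hres : ∀ i, n i lJ = p * n i lT → (c i).restrict F = cZ ∧
      (n i lT : ℤ) = (c i).ramificationIndex F := by
    intro i hi
    have hpos := C.pos i lT
    have he := (c i).ramificationIndex_pos (F := F)
    have h1 := hordT i
    rw [Place.ord_restrict] at h1
    have hneg : ((c i).restrict F).ord T < 0 := by
      by_contra hge
      have : (0 : ℤ) ≤ ((c i).ramificationIndex F : ℤ) * ((c i).restrict F).ord T :=
        mul_nonneg (Int.natCast_nonneg _) (not_lt.mp hge)
      omega
    rcases hTpoles _ hneg with h | h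
    · exfalso
      rw [h, hT_cI] at h1
      have h2 := hordJ i
      rw [Place.ord_restrict, h, hJ_cI] at h2
      -- `n i lT = e p`, `n i lJ = e`, `n i lJ = p n i lT`
      have h3 : (n i lJ : ℤ) = (p : ℤ) * (n i lT : ℤ) := by exact_mod_cast hi
      have h4 : (n i lT : ℤ) = ((c i).ramificationIndex F : ℤ) * p := by linarith
      have h5 : (n i lJ : ℤ) = ((c i).ramificationIndex F : ℤ) := by linarith
      have h6 : (2 : ℤ) ≤ p := by exact_mod_cast hp
      have h7 : (0 : ℤ) < ((c i).ramificationIndex F : ℤ) := by exact_mod_cast he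
      nlinarith
    · refine ⟨h, ?_⟩
      rw [h, hT_cZ] at h1
      linarith
  set I0 : Finset ι := Finset.univ.filter (fun i => n i lJ = p * n i lT) with hI0
  refine mapDomain_pullback_sub_eq_zero S' degFt' degF ha' hx' I0 c Q (fun i => n i lT)
    (fun i _ => hT' ▸ C.poleAt i lT) (fun i hi => (hres i (Finset.mem_filter.mp hi).2).1)
    (fun i hi => (hres i (Finset.mem_filter.mp hi).2).2.le) ?_
  -- every place over `x` reduces to a cusp of type `0`
  intro w hw
  have hwJ : ValueAt w (J' lJ) a := by
    rw [hJ']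
    exact valueAt_algebraMap_of_restrict (by rw [hw]; exact hx)
  have hwT : ValueAt w (J' lT) a' := by
    rw [hT']
    exact valueAt_algebraMap_of_restrict (by rw [hw]; exact hx')
  obtain ⟨i, hi⟩ := C.exists_cusp hwJ ha
  refine ⟨i, ?_, hi⟩
  rcases htype i with h | h
  · exact Finset.mem_filter.mpr ⟨Finset.mem_univ _, h⟩
  · exfalso
    have hpat := C.valuation_pow_eq hi hwJ hwT
    rw [h] at hpat
    exact pattern_absurd hp (C.pos i lJ).ne' ha hpat hv

end Fam

end Fermat.Agent.GZ.Mod.AlphaPull
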