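/-
GATE-Z (S15) / [MOD-alpha], ADAPTER (helper48; claims row GZ-MOD-ALPHA-DISC).

The prelude's place reduction map `placeReductionModL h` (and every map `r'` satisfying the prelude
specification `IsPlaceReductionModL A N r'`) is a `SpecMap` of `GZ/Mod/AlphaSpec.lean` over
`redDataFull N A hle`: the fibre formula on the whole Gauss valuation ring is
`GJ/S37/UniqFrac.spec_frac`.  Only `hle : FresBar N A ≤ k(j(q^d) : d ∣ N)` is needed
(`GJ/J1/Res/FresEq.FresBar_le_fullC`: `ℓ ∤ N`), so the residue characteristics `2, 3` are included.
-/
import Mathlib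
import Fermat.Agent.GJ.S37.UniqFrac
import Fermat.Agent.GJ.S37.AuxPullModular
import Fermat.Agent.GJ.J1.Res.FresEq
import Fermat.Agent.GZ.Mod.AlphaSpec

set_option autoImplicit false
set_option synthInstance.maxHeartbeats 400000
set_option maxHeartbeats 1000000

noncomputable section

open AlgebraicCurve HahnSeries ModularCurve

namespace Fermat.Agent.GZ.Mod.AlphaSpecInst

open Fermat.Agent.RRh45 Fermat.Agent.GJ.J1 Fermat.Agent.GJ.J1.Val Fermat.Agent.S24
  Fermat.Agent.GJ.S37Bridge Fermat.Agent.GJ.S37UniqFrac Fermat.Agent.GJ.S37Aux
  Fermat.Agent.GZ.Mod.AlphaSpec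

variable {N : ℕ} [NeZero N] {A : ValuationSubring (AlgebraicClosure ℚ)}

/-- shortcut instance (the generic search through `IntermediateField` is slow here) -/
local instance instAlgebraFullAuxZ : Algebra (IsLocalRing.ResidueField A)
    (modularFunctionFieldFullC (IsLocalRing.ResidueField A) N) := inferInstance

/-- every place map satisfying the prelude specification is a `SpecMap`. -/
def specMapOf
    {r' : Place (AlgebraicClosure ℚ) (modularFunctionFieldBar N) →
      Place (IsLocalRing.ResidueField A)
        (modularFunctionFieldFullC (IsLocalRing.ResidueField A) N)}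
    (hr' : IsPlaceReductionModL A N r')
    (hle : FresBar N A ≤ modularFunctionFieldFullC (IsLocalRing.ResidueField A) N) :
    SpecMap (redDataFull N A hle) where
  degF := fun P => deg_eq_one_bar P
  r := r'
  fibre := fun y hy D hD Q => by
    have := hasPrincipalDivisors_bar N
    exact spec_frac hr' hle y hy D hD Q

@[simp] theorem specMapOf_r
    {r' : Place (AlgebraicClosure ℚ) (modularFunctionFieldBar N) →
      Place (IsLocalRing.ResidueField A)
        (modularFunctionFieldFullC (IsLocalRing.ResidueField A) N)}
    (hr' : IsPlaceReductionModL A N r')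
    (hle : FresBar N A ≤ modularFunctionFieldFullC (IsLocalRing.ResidueField A) N) :
    (specMapOf hr' hle).r = r' := rfl

/-- **the prelude's place reduction map is a `SpecMap`.** -/
def specMapModL (h : ReductionInputsModL A N)
    (hle : FresBar N A ≤ modularFunctionFieldFullC (IsLocalRing.ResidueField A) N) :
    SpecMap (redDataFull N A hle) :=
  specMapOf (isPlaceReductionModL_placeReductionModL h) hle

@[simp] theorem specMapModL_r (h : ReductionInputsModL A N)
    (hle : FresBar N A ≤ modularFunctionFieldFullC (IsLocalRing.ResidueField A) N) :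
    (specMapModL h hle).r = placeReductionModL h := rfl

/-- the residue characteristic form of `hle`. -/
theorem hle_of_not_dvd {ℓ : ℕ} [Fact ℓ.Prime] (hℓN : ¬ ℓ ∣ N) (hA : A.LiesOverPrime ℓ) :
    FresBar N A ≤ modularFunctionFieldFullC (IsLocalRing.ResidueField A) N :=
  Fermat.Agent.GJ.J1.Res.FresBar_le_fullC N A hℓN hA

theorem hasPrincipalDivisors_barZ :
    HasPrincipalDivisors (AlgebraicClosure ℚ) (modularFunctionFieldBar N) :=
  hasPrincipalDivisors_bar N

end Fermat.Agent.GZ.Mod.AlphaSpecInst
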