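/-
GATE-Z (S15) / [MOD-alpha], PULL-BACK form at the MODULAR levels (helper48; claims row
GZ-MOD-ALPHA-PULL): the `2, 3`-clauses of `GZ/Top/S15TopB.ModuliB` from a `CuspFamily` at the
auxiliary level `N'` (helper16, `GZ/Mod/Inst/Aux/**`), in the EXACT shape of `ModuliB`:

  `reductionModL A N' (pullBar hdvd (diffCl p x cZ)) = 0`.

`reductionModL_pullBar_diffCl_eq_zero`: levels `p ∣ N'`, `A` with `FresBar N' A ≤ k(j(q^d) : d ∣ N')`
(`ℓ' ∤ N'`), `h' : ReductionInputsModL A N'`, `C` a cusp family for `specMapModL h' hle'` whose columns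
`lJ`, `lT` are the images of `J, T ∈ F_p`, cusps of type `0` / `∞`, the level-`p` generic data, and
`x` of type `0`.
-/
import Mathlib
import Fermat.Agent.GZ.Mod.AlphaPull
import Fermat.Agent.GZ.Mod.AlphaSpecInst
import Fermat.Agent.GZ.Top.S15Top
import Fermat.Agent.GJ.S37.HeckePullback
import Fermat.Agent.GJ.J1.FibreFinal
import Fermat.Agent.GJ.J1.ResidueAlgClosed

set_option autoImplicit false
set_option synthInstance.maxHeartbeats 400000
set_option maxHeartbeats 1000000

noncomputable section

open AlgebraicCurve HahnSeries ModularCurve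

namespace Fermat.Agent.GZ.Mod.AlphaPullInst

open Fermat.Agent.RRh45 Fermat.Agent.GJ.J1 Fermat.Agent.GJ.J1.Val Fermat.Agent.S24
  Fermat.Agent.GH Fermat.Agent.GJ.S37Bridge Fermat.Agent.GJ.S37Aux
  Fermat.Agent.GJ.S37HeckePullback
  Fermat.Agent.GZ.Mod.AlphaSpec Fermat.Agent.GZ.Mod.AlphaFamily Fermat.Agent.GZ.Mod.AlphaPull
  Fermat.Agent.GZ.Mod.AlphaSpecInst Fermat.Agent.GZ.Top

local notation "Qb" => AlgebraicClosure ℚ
local notation "FN" => modularFunctionFieldBar

variable {p N' : ℕ} [NeZero p] [NeZero N'] {A : ValuationSubring (AlgebraicClosure ℚ)}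

/-- shortcut instance (the generic search through `IntermediateField` is slow here) -/
local instance instAlgebraFullAuxP : Algebra (IsLocalRing.ResidueField A)
    (modularFunctionFieldFullC (IsLocalRing.ResidueField A) N') := inferInstance

/-- **the `2, 3`-clause of `ModuliB`** from a cusp family at the auxiliary level. -/
theorem reductionModL_pullBar_diffCl_eq_zero (hdvd : p ∣ N')
    (h' : ReductionInputsModL A N')
    (hle' : FresBar N' A ≤ modularFunctionFieldFullC (IsLocalRing.ResidueField A) N')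
    {ι κ : Type*} [Fintype ι] [DecidableEq ι]
    {c : ι → Place Qb (FN N')}
    {Q : ι → Place (IsLocalRing.ResidueField A)
      (modularFunctionFieldFullC (IsLocalRing.ResidueField A) N')}
    {J' : κ → FN N'} {n : ι → κ → ℕ}
    (C : CuspFamily (specMapModL h' hle') c Q J' n)
    {J T : FN p} (lJ lT : κ) (hJ' : J' lJ = levelIncl hdvd J) (hT' : J' lT = levelIncl hdvd T)
    {q : ℕ} (hq : 2 ≤ q) {cI cZ : Place Qb (FN p)}
    (hTpoles : ∀ P : Place Qb (FN p), P.ord T < 0 → P = cI ∨ P = cZ)
    (hJ_cI : cI.ord J = -1) (hT_cI : cI.ord T = -(q : ℤ)) (hT_cZ : cZ.ord T = -1)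
    (htype : ∀ i, n i lJ = q * n i lT ∨ n i lT = q * n i lJ)
    {x : Place Qb (FN p)} {a a' : Qb} (hx : ValueAt x J a) (hx' : ValueAt x T a') (ha : a ∉ A)
    (hv : A.valuation a = A.valuation a' ^ q) :
    reductionModL A N' (pullBar hdvd (diffCl p x cZ)) = 0 := by
  let _ := algebraAlong (levelIncl hdvd)
  have := isScalarTower_along (levelIncl hdvd)
  have := isIntegral_along (levelIncl hdvd) (isIntegral_levelIncl hdvd)
  have := Fermat.Agent.RR.ModularBar.hasPrincipalDivisors N'
  have : FundamentalIdentity Qb (FN p) (FN N') := fundamentalIdentityAlong_levelIncl hdvd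
  have hzero := mapDomain_pullback_sub_eq_zero_of_family (F := FN p) (F' := FN N') C
    (fun Q => Fermat.Agent.GJ.FibreCurve.deg_eq_one_fibre N' A (IsLocalRing.residue A) Q)
    (fun P => Fermat.Agent.RR.ModularBar.deg_eq_one p P) lJ lT hJ' hT' hq hTpoles hJ_cI hT_cI
    hT_cZ htype hx hx' ha hv
  rw [diffCl, pullBar_mk, reductionModL_mk h']
  have hD : (reductionDegZeroAlong (placeReductionModL h')
      (isPlaceReductionModL_placeReductionModL h').1
      ⟨Divisor.pullbackAlong (levelIncl hdvd) (isIntegral_levelIncl hdvd)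
        (diffDiv p x cZ : Divisor Qb (FN p)),
        Divisor.pullbackAlong_mem_degZero _ _ (fundamentalIdentityAlong_levelIncl hdvd)
          (diffDiv p x cZ).2⟩) = 0 := by
    apply Subtype.ext
    rw [coe_reductionDegZeroAlong]
    exact hzero
  rw [hD]
  exact Pic0.mk_zero

end Fermat.Agent.GZ.Mod.AlphaPullInst
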