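/-
GATE-Z (Mazur key step, S15) / node (MOD), INTERFACE PIN between the elliptic side [MOD-beta]
(Tate curve, `GZ/Tate/**`) and the modular side [MOD-alpha] (`GZ/Mod/**`)  (helper80, node owner).

There is NO modular polynomial `Φ_p` on main (no instance of the prelude's `ModularPolynomialData`
anywhere), and none is needed: the elliptic side hands over a pair of RATIONAL numbers
`(a, a') = (j(W), j(W/⟨Q⟩))` together with

* `RelQ p a a'` : every polynomial relation over `ℚ` between the two `q`-expansions `j(q)`,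
  `j(q^p)` specialises to `(a, a')`  (this replaces "`Φ_p(a, a') = 0`"; on the elliptic side it is
  proved by evaluating the integral `q`-expansions at the Tate parameter `q₀` in ONE complete
  field, once in the form `(a, a') = (j(q₀), j(q₀^p))` and once in the swapped form
  `(a, a') = (j(t^p), j(t))`; the modular side symmetrises with the Atkin–Lehner involution);
* the two valuation statements at every multiplicative prime `ℓ' ≠ p`.

The modular side turns `RelQ` into a place of `ℚ̄(X₀(p))` over `(a, a')` (Chevalley), unique hence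
`G_ℚ`-fixed, and reads off its reduction from the valuations (helper48 `AlphaSpec`).

Mathlib + prelude definitions only: everything under `GZ/Tate/**` may import this file.
-/
import Mathlib
import Fermat.Prelude.Def_ModularCurve_X0
import Fermat.Prelude.Def_EllipticCurve_ZeroComponentAt
import Fermat.Prelude.Def_FLTPrelim_Ramification

set_option autoImplicit false

noncomputable section

open ModularCurve WeierstrassCurve
open scoped WeierstrassCurve.Affine

namespace Fermat.Agent.GZ.Mod

/-- the `j`-invariant `c₄³ / Δ` of an integral Weierstrass equation, as a rational number -/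
def jRat (W : WeierstrassCurve ℤ) : ℚ := (W.c₄ : ℚ) ^ 3 / (W.Δ : ℚ)

/-- **`RelQ p a a'`**: every polynomial relation over `ℚ` between the `q`-expansions `j(q)` and
`j(q^p)` (in `ℚ((q))`) vanishes at the pair of rational numbers `(a, a')`. -/
def RelQ (p : ℕ) [NeZero p] (a a' : ℚ) : Prop :=
  ∀ G : MvPolynomial (Fin 2) ℚ,
    MvPolynomial.aeval ![(jq : LaurentSeries ℚ), qExpand ℚ p jq] G = 0 →
      MvPolynomial.eval ![a, a'] G = 0

/-- **(MOD-beta) OUTPUT** = the statement the elliptic side (`GZ/Tate/**`, T0–T6) proves from the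
binders of S15 (`hp`, `hΔ`, `hQfix`, `hQord`, and ONE multiplicative prime, e.g. `h2Δ`, `h2c₄`):
the `j`-invariant `a'` of the quotient curve `W/⟨Q⟩` (Vélu's formula in the rational numbers
`x(kQ)`), the relation with `a = j(W)`, and its valuation at every multiplicative prime `ℓ' ≠ p`:
`v(a') = p v(a)` if `Q` is in the zero component at `A ∣ ℓ'` (`⟨Q⟩ = μ_p`, quotient `E_{q^p}`),
`p v(a') = v(a)` otherwise (`⟨Q⟩ ∋ q^{1/p}`, quotient `E_{q^{1/p}}`). -/
def BetaOut (p : ℕ) [NeZero p] (W : WeierstrassCurve ℤ)
    (Q : ((W.map (Int.castRingHom ℚ))⁄(AlgebraicClosure ℚ)).Point) : Prop :=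
  ∃ a' : ℚ, RelQ p (jRat W) a' ∧
    ∀ (ℓ' : ℕ), ℓ'.Prime → ℓ' ≠ p → (ℓ' : ℤ) ∣ W.Δ → ¬ (ℓ' : ℤ) ∣ W.c₄ →
      ∀ A : ValuationSubring (AlgebraicClosure ℚ), A.LiesOverPrime ℓ' →
        (W.InZeroComponentAt A Q →
          padicValRat ℓ' a' = (p : ℤ) * padicValRat ℓ' (jRat W)) ∧
        (¬ W.InZeroComponentAt A Q →
          (p : ℤ) * padicValRat ℓ' a' = padicValRat ℓ' (jRat W))

/-- `RelQ` in the form in which the elliptic side produces it: it suffices to exhibit ONE ring
homomorphism `ev` from a `ℚ`-subalgebra `S ⊆ ℚ((q))` containing `j(q)`, `j(q^p)` to a field `K`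
of characteristic zero (evaluation of integral `q`-expansions at the Tate parameter) sending
`(j(q), j(q^p))` to `(a, a')`. -/
theorem relQ_of_eval {p : ℕ} [NeZero p] {a a' : ℚ} {K : Type*} [Field K] [CharZero K]
    (S : Subalgebra ℚ (LaurentSeries ℚ))
    (hj : (jq : LaurentSeries ℚ) ∈ S) (hjp : qExpand ℚ p jq ∈ S)
    (ev : S →+* K) (hev : ev ⟨jq, hj⟩ = (a : K)) (hevp : ev ⟨qExpand ℚ p jq, hjp⟩ = (a' : K)) :
    RelQ p a a' := by
  intro G hG
  set g : Fin 2 → S := ![⟨jq, hj⟩, ⟨qExpand ℚ p jq, hjp⟩] with hg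
  have hval : (fun i => S.val (g i)) = ![(jq : LaurentSeries ℚ), qExpand ℚ p jq] := by
    funext i
    fin_cases i <;> rfl
  have h1 : S.val (MvPolynomial.aeval g G) = 0 := by
    rw [MvPolynomial.comp_aeval_apply, hval, hG]
  have h2 : MvPolynomial.aeval g G = 0 := Subtype.ext h1
  have hevg : (fun i => ev.toRatAlgHom (g i)) = fun i => algebraMap ℚ K (![a, a'] i) := by
    funext i
    fin_cases i
    · exact hev
    · exact hevp
  have h3 : ev.toRatAlgHom (MvPolynomial.aeval g G) = 0 := by rw [h2, map_zero]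
  rw [MvPolynomial.comp_aeval_apply, hevg] at h3
  have h4 : MvPolynomial.aeval (fun i => algebraMap ℚ K (![a, a'] i)) G =
      algebraMap ℚ K (MvPolynomial.eval ![a, a'] G) := by
    have := MvPolynomial.comp_aeval_apply (f := ![a, a']) (Algebra.ofId ℚ K) G
    rw [MvPolynomial.aeval_eq_eval] at this
    exact this.symm
  rw [h4] at h3
  exact (map_eq_zero (algebraMap ℚ K)).mp h3

end Fermat.Agent.GZ.Mod
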