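/-
GATE-Z / node (MOD), modular side (helper80): **descent of the relation predicate from `ℚ` to
`ℚ̄`.**

`RelQ p a a'` (`GZ/Mod/Pin.lean`) is about polynomials over `ℚ` and the two `q`-expansions in
`ℚ((q))`; the existence of a place of `ℚ̄(X₀(p))` over `(a, a')` needs the same statement for
polynomials over `ℚ̄` and the two generators `jF p`, `jdF p p` of the function field:

* `Rel p a a'`      : `∀ G ∈ ℚ̄[X,Y], G(jF p, jdF p p) = 0 → G(a, a') = 0`;
* `rel_of_relQ`     : `RelQ p a a' → Rel p a a'` (coefficientwise `ℚ`-linear retractions `ℚ̄ → ℚ`,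
                      `GL/Base/RatDescent.mapLin`).
-/
import Mathlib
import Fermat.Agent.GZ.Mod.Pin
import Fermat.Agent.S24.ModularDefs
import Fermat.Agent.GL.Base.LinDisjoint

set_option autoImplicit false

noncomputable section

open ModularCurve HahnSeries

namespace Fermat.Agent.GZ.Mod

open Fermat.Agent.S24 Fermat.Agent.GL.Base.RatDescent

variable (p : ℕ) [NeZero p]

/-- the pair of generators `(j, j_p)` of `ℚ̄(X₀(p))` -/
def genPair : Fin 2 → FN p := ![jF p, jdF p p dvd_rfl]

/-- **`Rel p a a'`**: every polynomial relation over `ℚ̄` between the generators `j`, `j_p` of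
`ℚ̄(X₀(p))` vanishes at `(a, a')`. -/
def Rel (a a' : Kbar) : Prop :=
  ∀ G : MvPolynomial (Fin 2) Kbar, MvPolynomial.aeval (genPair p) G = 0 →
    MvPolynomial.eval ![a, a'] G = 0

variable {p}

/-- the pair of `q`-expansions over `ℚ` -/
def serPair (p : ℕ) [NeZero p] : Fin 2 → LaurentSeries ℚ := ![jq, qExpand ℚ p jq]

theorem coe_genPair (i : Fin 2) :
    ((genPair p i : FN p) : LaurentSeries Kbar) = coeffEmb Kbar (serPair p i) := by
  fin_cases i
  · exact coe_jF p
  · rfl

/-- coefficientwise application of `φ` to a polynomial -/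
def polyMap (φ : Kbar →ₗ[ℚ] ℚ) (G : MvPolynomial (Fin 2) Kbar) : MvPolynomial (Fin 2) ℚ :=
  ∑ m ∈ G.support, MvPolynomial.monomial m (φ (G.coeff m))

theorem mapLin_algebraMap_mul_coeffEmb (φ : Kbar →ₗ[ℚ] ℚ) (c : Kbar) (w : LaurentSeries ℚ) :
    mapLin φ (algebraMap Kbar (LaurentSeries Kbar) c * coeffEmb Kbar w) =
      algebraMap ℚ (LaurentSeries ℚ) (φ c) * w := by
  rw [mul_comm]
  exact mapLin_coeffMap_mul_algebraMap φ w c

/-- `φ_* (G(ι j, ι j_p)) = G^φ (j, j_p)`. -/
theorem mapLin_aeval (φ : Kbar →ₗ[ℚ] ℚ) (G : MvPolynomial (Fin 2) Kbar) :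
    mapLin φ (MvPolynomial.aeval (fun i => coeffEmb Kbar (serPair p i)) G) =
      MvPolynomial.aeval (serPair p) (polyMap φ G) := by
  conv_lhs => rw [← MvPolynomial.support_sum_monomial_coeff G]
  rw [map_sum, map_sum, polyMap, map_sum]
  refine Finset.sum_congr rfl fun m _ => ?_
  rw [MvPolynomial.aeval_monomial, MvPolynomial.aeval_monomial]
  have h : (m.prod fun i k => (coeffEmb Kbar (serPair p i)) ^ k) =
      coeffEmb Kbar (m.prod fun i k => serPair p i ^ k) := by
    rw [Finsupp.prod, Finsupp.prod, map_prod]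
    refine Finset.prod_congr rfl fun i _ => ?_
    rw [map_pow]
  rw [h]
  exact mapLin_algebraMap_mul_coeffEmb φ _ _

/-- `φ (G(a, a')) = G^φ (a, a')` for rational `a`, `a'`. -/
theorem apply_eval (φ : Kbar →ₗ[ℚ] ℚ) (G : MvPolynomial (Fin 2) Kbar) (a a' : ℚ) :
    φ (MvPolynomial.eval ![(a : Kbar), (a' : Kbar)] G) =
      MvPolynomial.eval ![a, a'] (polyMap φ G) := by
  conv_lhs => rw [← MvPolynomial.support_sum_monomial_coeff G]
  rw [map_sum, map_sum, polyMap, map_sum]
  refine Finset.sum_congr rfl fun m _ => ?_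
  rw [MvPolynomial.eval_monomial, MvPolynomial.eval_monomial]
  have h : (m.prod fun i k => (![(a : Kbar), (a' : Kbar)] i) ^ k) =
      algebraMap ℚ Kbar (m.prod fun i k => (![a, a'] i) ^ k) := by
    rw [Finsupp.prod, Finsupp.prod, map_prod]
    refine Finset.prod_congr rfl fun i _ => ?_
    rw [map_pow]
    congr 1
    fin_cases i <;> simp
  rw [h, mul_comm, ← Algebra.smul_def, map_smul, smul_eq_mul, mul_comm]

/-- **descent `ℚ → ℚ̄` of the relation predicate.** -/
theorem rel_of_relQ {a a' : ℚ} (h : RelQ p a a') : Rel p (a : Kbar) (a' : Kbar) := by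
  intro G hG
  -- pass to Laurent series
  have h1 : MvPolynomial.aeval (fun i => coeffEmb Kbar (serPair p i)) G = 0 := by
    have := congrArg (modularFunctionFieldBar p).val hG
    rw [MvPolynomial.comp_aeval_apply, map_zero] at this
    have hfun : (fun i => coeffEmb Kbar (serPair p i)) =
        fun i => (modularFunctionFieldBar p).val (genPair p i) := by
      funext i
      exact (coe_genPair i).symm
    rw [hfun]
    exact this
  refine (Module.forall_dual_apply_eq_zero_iff ℚ _).mp fun φ => ?_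
  rw [apply_eval]
  refine h (polyMap φ G) ?_
  have h2 := mapLin_aeval (p := p) φ G
  rw [h1, map_zero] at h2
  exact h2.symm

end Fermat.Agent.GZ.Mod
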