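/-
GATE-Z / node (MOD), modular side (helper80): **existence of the place over a pair `(a, a')`.**

If every polynomial relation between the generators `j`, `j_p` of `ℚ̄(X₀(p))` vanishes at
`(a, a') ∈ ℚ̄²` (`Rel p a a'`, `GZ/Mod/RelDescent.lean`), there is a place `x` of `ℚ̄(X₀(p))` with
`j(x) = a`, `j_p(x) = a'` (`ValueAt` of `GH/Vocab`).

Proof: `ℚ̄[j, j_p] → ℚ̄`, `j ↦ a`, `j_p ↦ a'` is a well-defined ring homomorphism by `Rel`;
Chevalley's extension theorem (`GL/Alg/ChevalleyExt`) gives a valuation subring `U ⊇ ℚ̄[j, j_p]`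
whose maximal ideal contains `j − a`, `j_p − a'`; `U ≠ ⊤` because `j − a ≠ 0` is not a unit; every
such valuation ring of a function field with a generator is a place (`GJ/FF/ValRing.placeOf`).
-/
import Mathlib
import Fermat.Agent.GZ.Mod.RelDescent
import Fermat.Agent.GL.Alg.ChevalleyExt
import Fermat.Agent.GJ.FF.ValRing
import Fermat.Agent.GH.Vocab
import Fermat.Agent.RR.ModularBar
import Fermat.Agent.S24.Degree

set_option autoImplicit false

noncomputable section

open ModularCurve AlgebraicCurve

namespace Fermat.Agent.GZ.Mod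

open Fermat.Agent.S24 Fermat.Agent.GH

variable {p : ℕ} [NeZero p]

/-- **existence of the place over `(a, a')`.** -/
theorem exists_place_of_rel {a a' : Kbar} (h : Rel p a a') :
    ∃ x : Place Kbar (FN p), ValueAt x (jF p) a ∧ ValueAt x (jdF p p dvd_rfl) a' := by
  have : IsGen Kbar (jF p) := Fermat.Agent.RR.ModularBar.isGen_jF p
  -- the evaluation homomorphism on `ℚ̄[j, j_p]`
  set φ : MvPolynomial (Fin 2) Kbar →+* FN p :=
    (MvPolynomial.aeval (genPair p) : MvPolynomial (Fin 2) Kbar →ₐ[Kbar] FN p).toRingHom with hφ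
  set D : Subring (FN p) := φ.range with hD
  set f : MvPolynomial (Fin 2) Kbar →+* D := φ.rangeRestrict with hf
  have hsurj : Function.Surjective f := φ.rangeRestrict_surjective
  set g : MvPolynomial (Fin 2) Kbar →+* Kbar := MvPolynomial.eval ![a, a'] with hg
  have hker : RingHom.ker f ≤ RingHom.ker g := by
    intro G hG
    rw [RingHom.mem_ker] at hG ⊢
    have h0 : φ G = 0 := by
      have := congrArg (Subtype.val) hG
      exact this
    exact h G h0
  set χ : D →+* Kbar := f.liftOfSurjective hsurj ⟨g, hker⟩ with hχ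
  have hχf : ∀ G, χ (f G) = g G := fun G => f.liftOfSurjective_comp_apply hsurj ⟨g, hker⟩ G
  obtain ⟨U, hDU, e, he, hnon⟩ :=
    Fermat.Agent.GL.Alg.ChevalleyExt.exists_valuationSubring_extension' D χ
  -- membership and values of the images of polynomials
  have hmemD : ∀ G, φ G ∈ D := fun G => ⟨G, rfl⟩
  have hval : ∀ G, g G = 0 → U.valuation (φ G) < 1 := by
    intro G hG0
    have h1 : e ⟨φ G, hDU (hmemD G)⟩ = 0 := by
      have := he (f G)
      rw [hχf, hG0] at this
      exact this
    have h2 := (hnon ⟨φ G, hDU (hmemD G)⟩).mp h1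
    exact U.mem_nonunits_iff.mp h2
  -- constants
  have hK : ∀ c : Kbar, algebraMap Kbar (FN p) c ∈ U := by
    intro c
    have : φ (MvPolynomial.C c) = algebraMap Kbar (FN p) c := by
      show MvPolynomial.aeval (genPair p) (MvPolynomial.C c) = _
      rw [MvPolynomial.aeval_C]
    rw [← this]
    exact hDU (hmemD _)
  -- the two values
  have hJ : U.valuation (jF p - algebraMap Kbar (FN p) a) < 1 := by
    have h1 : φ (MvPolynomial.X 0 - MvPolynomial.C a) = jF p - algebraMap Kbar (FN p) a := by
      show MvPolynomial.aeval (genPair p) (MvPolynomial.X 0 - MvPolynomial.C a) = _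
      rw [map_sub, MvPolynomial.aeval_X, MvPolynomial.aeval_C]
      rfl
    rw [← h1]
    refine hval _ ?_
    rw [hg, map_sub, MvPolynomial.eval_X, MvPolynomial.eval_C]
    simp
  have hJp : U.valuation (jdF p p dvd_rfl - algebraMap Kbar (FN p) a') < 1 := by
    have h1 : φ (MvPolynomial.X 1 - MvPolynomial.C a') =
        jdF p p dvd_rfl - algebraMap Kbar (FN p) a' := by
      show MvPolynomial.aeval (genPair p) (MvPolynomial.X 1 - MvPolynomial.C a') = _
      rw [map_sub, MvPolynomial.aeval_X, MvPolynomial.aeval_C]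
      rfl
    rw [← h1]
    refine hval _ ?_
    rw [hg, map_sub, MvPolynomial.eval_X, MvPolynomial.eval_C]
    simp
  -- `U ≠ ⊤`
  have hne : U ≠ ⊤ := by
    intro htop
    have hJ0 : jF p - algebraMap Kbar (FN p) a ≠ 0 := by
      intro h0
      have htr := Fermat.Agent.S24.Degree.transcendental_jF p
      apply htr
      rw [sub_eq_zero] at h0
      rw [h0]
      exact isAlgebraic_algebraMap a
    have hinv : (jF p - algebraMap Kbar (FN p) a)⁻¹ ∈ U := by rw [htop]; trivial
    have h1 : U.valuation (jF p - algebraMap Kbar (FN p) a)⁻¹ ≤ 1 :=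
      (U.valuation_le_one_iff _).mpr hinv
    rw [map_inv₀] at h1
    have h2 : U.valuation (jF p - algebraMap Kbar (FN p) a) ≠ 0 :=
      (Valuation.ne_zero_iff _).mpr hJ0
    have h3 : 1 ≤ U.valuation (jF p - algebraMap Kbar (FN p) a) := by
      rwa [inv_le_one₀ (zero_lt_iff.mpr h2)] at h1
    exact absurd hJ (not_lt.mpr h3)
  exact ⟨Fermat.Agent.GJ.FF.placeOf (jF p) U hK hne, hJ, hJp⟩

/-- **(α-E), the binder `AlphaEx p` of the (MOD) integrator, verbatim**: a place over every
rational pair satisfying `RelQ`. -/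
theorem exists_place_of_relQ (a a' : ℚ) (h : RelQ p a a') :
    ∃ x : Place Kbar (FN p), ValueAt x (jF p) (a : Kbar) ∧
      ValueAt x (jdF p p dvd_rfl) (a' : Kbar) :=
  exists_place_of_rel (rel_of_relQ h)

end Fermat.Agent.GZ.Mod
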