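/-
GATE-Z (Mazur key step, S15) / node (MOD), variant B, WIRING of the pull-back clause (helper80;
claims row GZ-MOD-PULLWIRE; item (i) of helper24's answer to 6091).

`Integ.PullHyp p (cuspZero hp) d ℓ'` (helper24 `GZ/Mod/IntegratorPlugB.lean`, VERBATIM) from

* helper48's abstract pull-back theorem (P-FAM)
  `AlphaPull.mapDomain_pullback_sub_eq_zero_of_family`, and
* a cusp family at the auxiliary level `d p` (helper16's INST-AUX target) in the FLEXIBLE form
  `AuxFamily p d ℓ'`: for every `A ∣ ℓ'` and every place map `S` with the fibre formula on the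
  prelude's frame `redDataFull (d p) A hle` there are (any index types, any cusps, any functions)
  a `CuspFamily S c Q J' n` two of whose functions are `j = jF (d p)` and `j_p = jdF (d p) p`, every
  cusp being of type `0` (`n i lJ = p * n i lT`) or of type `∞` (`n i lT = p * n i lJ`).

Everything else is on main: the generic fibre at level `p` (`GZ/Unit/Cusps`, `CuspsJd`), the
`padicValRat` bridge (`GZ/Mod/ValBridge`), `levelIncl` (`GJ/S37/HeckePullback`).
-/
import Fermat.Agent.GZ.Mod.IntegratorPlugB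
import Fermat.Agent.GZ.Mod.AlphaPull

set_option autoImplicit false
set_option linter.unusedSectionVars false
set_option linter.style.haveILetI false
set_option synthInstance.maxHeartbeats 400000
set_option maxHeartbeats 1000000

noncomputable section

open AlgebraicCurve ModularCurve

namespace Fermat.Agent.GZ.Mod.PullWire

open Fermat.Agent.S24 Fermat.Agent.GR.W.RatRep Fermat.Agent.GZ.Unit
  Fermat.Agent.GZ.Mod Fermat.Agent.GZ.Mod.ValBridge Fermat.Agent.GZ.Mod.AlphaSpec
  Fermat.Agent.GZ.Mod.AlphaSpecInst Fermat.Agent.GZ.Mod.AlphaFamily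
  Fermat.Agent.GJ.S37HeckePullback Fermat.Agent.GJ.S37Bounded
open Fermat.Agent.GH (ValueAt)

local notation "Qb" => AlgebraicClosure ℚ

/-- the level inclusion on `j_d` (twin of `GL/AuxLevel/NormBCModular.levelIncl_jdF`, restated to
keep the import closure small) -/
theorem levelIncl_jdF {N L : ℕ} [NeZero N] [NeZero L] (h : N ∣ L) {d : ℕ} [NeZero d]
    (hd : d ∣ N) : levelIncl h (jdF N d hd) = jdF L d (hd.trans h) :=
  Subtype.ext rfl

/-- **the cusp family at the auxiliary level `d p`, flexible form** (target of helper16's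
INST-AUX): on the prelude's frame at level `d p`, `A ∣ ℓ'`, for EVERY place map with the fibre
formula. -/
def AuxFamily (p : ℕ) [NeZero p] (d : ℕ) [NeZero (d * p)] (ℓ' : ℕ) : Prop :=
  ∀ (A : ValuationSubring Qb), A.LiesOverPrime ℓ' →
    ∀ (hle : Fermat.Agent.GJ.J1.Val.FresBar (d * p) A ≤
        modularFunctionFieldFullC (IsLocalRing.ResidueField A) (d * p))
      (S : SpecMap (Fermat.Agent.GJ.S37Bridge.redDataFull (d * p) A hle)),
      ∃ (ι κ : Type) (_ : Fintype ι) (_ : DecidableEq ι)
        (c : ι → Place Qb (FN (d * p)))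
        (Q : ι → Place (IsLocalRing.ResidueField A)
          (modularFunctionFieldFullC (IsLocalRing.ResidueField A) (d * p)))
        (J' : κ → FN (d * p)) (n : ι → κ → ℕ) (lJ lT : κ),
        CuspFamily S c Q J' n ∧ J' lJ = jF (d * p) ∧
          J' lT = jdF (d * p) p (Dvd.intro_left d rfl) ∧
          ∀ i, n i lJ = p * n i lT ∨ n i lT = p * n i lJ

variable {p : ℕ} [NeZero p]

/-- **`PullHyp` (helper24, VERBATIM) from the cusp family at the auxiliary level.** -/
theorem pullHyp_of_auxFamily (hp : p.Prime) {d : ℕ} [NeZero (d * p)] {ℓ' : ℕ} (hℓ' : ℓ'.Prime)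
    (hndvd : ¬ ℓ' ∣ d * p) (H : AuxFamily p d ℓ') :
    Fermat.Agent.GZ.Mod.Integ.PullHyp p (cuspZero hp) d ℓ' := by
  intro x a a' hx hx' hneg hpat A hA h'
  have : Fact ℓ'.Prime := ⟨hℓ'⟩
  have hdvd : p ∣ d * p := Dvd.intro_left d rfl
  have hle := hle_of_not_dvd hndvd hA
  obtain ⟨ι, κ, hι, hιd, c, Q, J', n, lJ, lT, C, hJ', hT', htype⟩ := H A hA hle (specMapModL h' hle)
  -- the instances of the extension `F_p ⊆ F_{dp}`
  letI : Algebra (FN p) (FN (d * p)) := algebraAlong (levelIncl hdvd)
  haveI : IsScalarTower Qb (FN p) (FN (d * p)) := isScalarTower_along (levelIncl hdvd)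
  haveI : Algebra.IsIntegral (FN p) (FN (d * p)) :=
    isIntegral_along (levelIncl hdvd) (isIntegral_levelIncl hdvd)
  haveI : HasPrincipalDivisors Qb (FN (d * p)) :=
    Fermat.Agent.RR.ModularBar.hasPrincipalDivisors (d * p)
  haveI : FundamentalIdentity Qb (FN p) (FN (d * p)) := fundamentalIdentityAlong_levelIncl hdvd
  -- the rational values and the valuation of `A`
  have ha0 : a ≠ 0 := ne_zero_of_padicValRat_neg hneg
  have ha'0 : a' ≠ 0 := by
    rintro rfl
    rw [padicValRat.zero, mul_zero] at hpat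
    omega
  have haA : ((a : ℚ) : Qb) ∉ (Fermat.Agent.GJ.S37Bridge.redDataFull (d * p) A hle).A :=
    (ratCast_not_mem_iff hℓ' hA ha0).mpr hneg
  have hv : (Fermat.Agent.GJ.S37Bridge.redDataFull (d * p) A hle).A.valuation ((a : ℚ) : Qb) =
      (Fermat.Agent.GJ.S37Bridge.redDataFull (d * p) A hle).A.valuation ((a' : ℚ) : Qb) ^ p :=
    (valuation_eq_pow_iff hℓ' hA ha'0 ha0 p).mpr hpat.symm
  -- the two functions upstairs
  have hJ'' : J' lJ = algebraMap (FN p) (FN (d * p)) (jF p) := by
    rw [hJ']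
    exact (levelIncl_jF hdvd).symm
  have hT'' : J' lT = algebraMap (FN p) (FN (d * p)) (jdF p p dvd_rfl) := by
    rw [hT']
    exact (levelIncl_jdF hdvd dvd_rfl).symm
  have key := Fermat.Agent.GZ.Mod.AlphaPull.mapDomain_pullback_sub_eq_zero_of_family
    (F := FN p) (F' := FN (d * p)) C
    (fun Q' => Fermat.Agent.GJ.FibreCurve.deg_eq_one_fibre (d * p) A (IsLocalRing.residue A) Q')
    (fun P => Fermat.Agent.RR.ModularBar.deg_eq_one p P)
    lJ lT hJ'' hT'' hp.two_le (cI := cuspInf p) (cZ := cuspZero hp)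
    (Fermat.Agent.GZ.Mod.Inst.eq_cusp_of_ord_jdF_neg hp) ord_cuspInf_jF
    Fermat.Agent.GZ.Mod.Inst.ord_cuspInf_jdF (Fermat.Agent.GZ.Mod.Inst.ord_cuspZero_jdF hp)
    htype hx hx' haA hv
  rw [specMapModL_r] at key
  exact key

end Fermat.Agent.GZ.Mod.PullWire
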