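/-
GATE-Z (Mazur key step, S15) / node (MOD), INTEGRATOR PLUG, VARIANT B, part 2 (helper24).

The two pull-back clauses of `Top.ModuliB` from helper48's `AlphaPullInst` and ONE family binder per
auxiliary level (= the deliverable of helper16's INST-AUX, `GZ/Mod/Inst/LevelDP/**`):

* `FamHyp p d ℓ'` : for every `A ∣ ℓ'`, every `h' : ReductionInputsModL A (d p)` and `hle'`, a
  `CuspFamily (specMapModL h' hle') c Q J' n` indexed by `Bool × Bool` with columns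
  `J' (false, false) = levelIncl (jF p)`, `J' (false, true) = levelIncl (jdF p p)` of type
  `n i lJ = p n i lT ∨ n i lT = p n i lJ`;
* `pullHypPic_of_famHyp` : `FamHyp p d ℓ'` ⟹ the clause (in `Pic⁰` form `PullHypPic`);
* `moduliB_of_beta_fam`, **`s15B_of_beta_fam`** : the frozen statement S15 from `BetaOut`,
  `FamHyp p 3 2`, `FamHyp p 2 3`, `FStmt` — (HRED) = helper42's `hRedGood` discharged.
-/
import Fermat.Agent.GZ.Mod.IntegratorPlugB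
import Fermat.Agent.GZ.Mod.AlphaPullInst
import Fermat.Agent.GZ.HRed.TopB

set_option autoImplicit false
set_option linter.unusedSectionVars false
set_option synthInstance.maxHeartbeats 400000
set_option maxHeartbeats 1000000

noncomputable section

open AlgebraicCurve ModularCurve WeierstrassCurve
open scoped WeierstrassCurve.Affine

namespace Fermat.Agent.GZ.Mod.Integ

open Fermat.Agent.S24 Fermat.Agent.GR.W.RatRep Fermat.Agent.GZ.Top Fermat.Agent.GZ.Unit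
  Fermat.Agent.GZ.Mod Fermat.Agent.GJ.S37HeckePullback Fermat.Agent.GJ.S37Bounded
  Fermat.Agent.GZ.Mod.ValBridge Fermat.Agent.GZ.Mod.AlphaFamily Fermat.Agent.GZ.Mod.AlphaSpecInst
open Fermat.Agent.GH (ValueAt)

local notation "Qb" => AlgebraicClosure ℚ

/-- **the pull-back clause at the auxiliary level `d p`, `Pic⁰` form.** -/
def PullHypPic (p : ℕ) [NeZero p] (zero : Place Qb (FN p)) (d : ℕ) [NeZero (d * p)] (ℓ' : ℕ) :
    Prop :=
  ∀ (x : Place Qb (FN p)) (a a' : ℚ),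
    ValueAt x (jF p) ((a : ℚ) : Qb) → ValueAt x (jdF p p dvd_rfl) ((a' : ℚ) : Qb) →
    padicValRat ℓ' a < 0 → (p : ℤ) * padicValRat ℓ' a' = padicValRat ℓ' a →
    ∀ A : ValuationSubring Qb, A.LiesOverPrime ℓ' → ∀ _ : ReductionInputsModL A (d * p),
      reductionModL A (d * p) (pullBar (Dvd.intro_left d rfl) (diffCl p x zero)) = 0

/-- the divisor form implies the `Pic⁰` form -/
theorem pullHypPic_of_pullHyp {p : ℕ} [NeZero p] {zero : Place Qb (FN p)} {d : ℕ}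
    [NeZero (d * p)] {ℓ' : ℕ} (h : PullHyp p zero d ℓ') : PullHypPic p zero d ℓ' :=
  fun x a a' hx hx' hneg hv A hA h' =>
    Fermat.Agent.GZ.Mod.PullPic.red_pullBar_diffCl_eq_zero _ h' x _
      (h x a a' hx hx' hneg hv A hA h')

/-- **the family binder at the auxiliary level `d p`** (target of helper16's INST-AUX). -/
def FamHyp (p d ℓ' : ℕ) [NeZero p] [NeZero (d * p)] : Prop :=
  ∀ A : ValuationSubring Qb, A.LiesOverPrime ℓ' → ∀ (h' : ReductionInputsModL A (d * p))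
    (hle' : Fermat.Agent.GJ.J1.Val.FresBar (d * p) A ≤
      modularFunctionFieldFullC (IsLocalRing.ResidueField A) (d * p)),
    ∃ (c : Bool × Bool → Place Qb (FN (d * p)))
      (Q : Bool × Bool → Place (IsLocalRing.ResidueField A)
        (modularFunctionFieldFullC (IsLocalRing.ResidueField A) (d * p)))
      (J' : Bool × Bool → FN (d * p)) (n : Bool × Bool → Bool × Bool → ℕ),
      CuspFamily (specMapModL h' hle') c Q J' n ∧
      J' (false, false) = levelIncl (Dvd.intro_left d rfl) (jF p) ∧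
      J' (false, true) = levelIncl (Dvd.intro_left d rfl) (jdF p p dvd_rfl) ∧
      ∀ i, n i (false, false) = p * n i (false, true) ∨ n i (false, true) = p * n i (false, false)

variable {p : ℕ} [NeZero p]

/-- **the pull-back clause from the cusp family at level `d p`** (helper48 `AlphaPullInst`). -/
theorem pullHypPic_of_famHyp (hp : p.Prime) {d : ℕ} [NeZero (d * p)] {ℓ' : ℕ} (hℓ' : ℓ'.Prime)
    (hℓ'N : ¬ ℓ' ∣ d * p) (hF : FamHyp p d ℓ') : PullHypPic p (cuspZero hp) d ℓ' := by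
  intro x a a' hx hx' hneg hv A hA h'
  have : Fact ℓ'.Prime := ⟨hℓ'⟩
  have hle' := hle_of_not_dvd hℓ'N hA
  obtain ⟨c, Q, J', n, C, hJ, hT, htype⟩ := hF A hA h' hle'
  have ha0 : a ≠ 0 := ne_zero_of_padicValRat_neg hneg
  have ha'0 : a' ≠ 0 := ne_zero_of_pattern hp.ne_zero hneg (Or.inr hv)
  exact Fermat.Agent.GZ.Mod.AlphaPullInst.reductionModL_pullBar_diffCl_eq_zero
    (Dvd.intro_left d rfl) h' hle' C (false, false) (false, true) hJ hT hp.two_le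
    (Fermat.Agent.GZ.Mod.Inst.eq_cusp_of_ord_jdF_neg hp) ord_cuspInf_jF
    Fermat.Agent.GZ.Mod.Inst.ord_cuspInf_jdF (Fermat.Agent.GZ.Mod.Inst.ord_cuspZero_jdF hp) htype
    hx hx' ((ratCast_not_mem_iff hℓ' hA ha0).mpr hneg)
    ((valuation_eq_pow_iff hℓ' hA ha'0 ha0 p).mpr hv.symm)

/-- **(MOD), variant B, from [MOD-beta] and the two `Pic⁰`-form clauses.** -/
theorem moduliB_of_beta_pic (hp : p.Prime) (hp2 : p ≠ 2) (hp3 : p ≠ 3) {W : WeierstrassCurve ℤ}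
    (hΔ : W.Δ ≠ 0) {Q : ((W.map (Int.castRingHom ℚ))⁄(AlgebraicClosure ℚ)).Point}
    (h2Δ : (2 : ℤ) ∣ W.Δ) (h2c₄ : ¬ (2 : ℤ) ∣ W.c₄)
    (h3Δ : (3 : ℤ) ∣ W.Δ) (h3c₄ : ¬ (3 : ℤ) ∣ W.c₄)
    (hβ : BetaOut p W Q)
    (hP2 : PullHypPic p (cuspZero hp) 3 2) (hP3 : PullHypPic p (cuspZero hp) 2 3)
    {ℓ₀ : ℕ} (hℓ₀ : ℓ₀.Prime) (hℓ₀p : ℓ₀ ≠ p) (hℓ₀5 : 5 ≤ ℓ₀) (hℓ₀Δ : (ℓ₀ : ℤ) ∣ W.Δ)
    (hℓ₀c₄ : ¬ (ℓ₀ : ℤ) ∣ W.c₄) :
    ModuliB (Fermat.Agent.GZ.Unit.Hecke.cuspPkgFinal hp) W Q := by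
  obtain ⟨A₀, hA₀⟩ := Fermat.Agent.Common_helper32.exists_liesOverPrime ℓ₀ hℓ₀
  have hℓ₀p' : ¬ ℓ₀ ∣ p := fun h => hℓ₀p ((Nat.prime_dvd_prime_iff_eq hℓ₀ hp).mp h)
  obtain ⟨h₀, -⟩ := Fermat.Agent.GJ.S37LSpaceGate.levelPackage p hℓ₀ hℓ₀p'
    (fun h => by omega) (fun h => by omega) A₀ hA₀
  refine moduliB_of_alpha_beta _ hΔ hβ (alphaEx p)
    (fun ℓ' hℓ' hℓ'p _ A hA => alphaRed hp ℓ' hℓ' hℓ'p A hA)
    hℓ₀ hℓ₀p hℓ₀5 hℓ₀Δ hℓ₀c₄ hA₀ h₀ ?_ hp2 hp3 h2Δ h2c₄ h3Δ h3c₄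
  intro x a' hx hx'
  refine ⟨fun A hA hv hred => ?_, fun A hA hv hred => ?_⟩
  · exact hP2 x _ a' hx hx' (padicValRat_jRat_neg hΔ Nat.prime_two (by exact_mod_cast h2Δ)
      (by exact_mod_cast h2c₄)) hv A hA hred
  · exact hP3 x _ a' hx hx' (padicValRat_jRat_neg hΔ Nat.prime_three (by exact_mod_cast h3Δ)
      (by exact_mod_cast h3c₄)) hv A hA hred

/-- **Frozen S15, variant B, from [MOD-beta], the two cusp families at the levels `3p`, `2p`, and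
(F)** — (UNIT), (MOD-alpha), (CUT), (DEG), (HRED) discharged. -/
theorem s15B_of_beta_fam
    {p : ℕ} (hp : p.Prime) (hp' : p ∉ ({2, 3, 5, 7, 13} : Finset ℕ))
    (W : WeierstrassCurve ℤ) (hΔ : W.Δ ≠ 0)
    (Q : ((W.map (Int.castRingHom ℚ))⁄(AlgebraicClosure ℚ)).Point)
    (hQfix : ∀ σ : AlgebraicClosure ℚ ≃ₐ[ℚ] AlgebraicClosure ℚ, σ • Q = Q)
    (hQord : addOrderOf Q = p)
    (h2Δ : (2 : ℤ) ∣ W.Δ) (h2c₄ : ¬ (2 : ℤ) ∣ W.c₄)
    (h2 : ∀ A : ValuationSubring (AlgebraicClosure ℚ), A.LiesOverPrime 2 → ¬ W.InZeroComponentAt A Q)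
    (h3Δ : (3 : ℤ) ∣ W.Δ) (h3c₄ : ¬ (3 : ℤ) ∣ W.c₄)
    (h3 : ∀ A : ValuationSubring (AlgebraicClosure ℚ), A.LiesOverPrime 3 → ¬ W.InZeroComponentAt A Q)
    {ℓ : ℕ} (hℓ : ℓ.Prime) (hℓp : ℓ ≠ p) (hℓΔ : (ℓ : ℤ) ∣ W.Δ) (hℓc₄ : ¬ (ℓ : ℤ) ∣ W.c₄)
    (A : ValuationSubring (AlgebraicClosure ℚ)) (hA : A.LiesOverPrime ℓ)
    (hpNZ : NeZero p)
    (hβ : BetaOut p W Q)
    (hF2 : FamHyp p 3 2) (hF3 : FamHyp p 2 3)
    (hF : FStmt (Fermat.Agent.GZ.Unit.Hecke.cuspPkgFinal hp) ({2, 3, ℓ} : Finset ℕ)) :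
    ¬ W.InZeroComponentAt A Q := by
  have hp2 : p ≠ 2 := by
    rintro rfl
    exact hp' (by simp)
  have hp3 : p ≠ 3 := by
    rintro rfl
    exact hp' (by simp)
  have h2p : ¬ 2 ∣ p := fun h => hp2 ((Nat.prime_dvd_prime_iff_eq Nat.prime_two hp).mp h).symm
  have h3p : ¬ 3 ∣ p := fun h => hp3 ((Nat.prime_dvd_prime_iff_eq Nat.prime_three hp).mp h).symm
  have h23 : ¬ 2 ∣ 3 * p := by
    intro h
    rcases (Nat.Prime.dvd_mul Nat.prime_two).mp h with h | h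
    · omega
    · exact h2p h
  have h32 : ¬ 3 ∣ 2 * p := by
    intro h
    rcases (Nat.Prime.dvd_mul Nat.prime_three).mp h with h | h
    · omega
    · exact h3p h
  by_cases hℓ2 : ℓ = 2
  · subst hℓ2
    exact h2 A hA
  by_cases hℓ3 : ℓ = 3
  · subst hℓ3
    exact h3 A hA
  have hℓ5 : 5 ≤ ℓ := by
    have h2le := hℓ.two_le
    by_contra hlt
    have h4 : ℓ = 4 := by omega
    rw [h4] at hℓ
    exact absurd hℓ (by decide)
  obtain ⟨hd3, hd2⟩ := Fermat.Agent.GZ.Deg.relfinrank_three_two hp hp2 hp3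
  exact s15_of_nodes_B hp hp' W hΔ Q hQfix hQord h2Δ h2c₄ h2 h3Δ h3c₄ h3 hℓ hℓp hℓΔ hℓc₄ A hA hpNZ
    (Fermat.Agent.GZ.Unit.Hecke.cuspPkgFinal hp) Fermat.Agent.GZ.HRed.hRedGood
    (moduliB_of_beta_pic hp hp2 hp3 hΔ h2Δ h2c₄ h3Δ h3c₄ hβ
      (pullHypPic_of_famHyp hp Nat.prime_two h23 hF2)
      (pullHypPic_of_famHyp hp Nat.prime_three h32 hF3) hℓ hℓp hℓ5 hℓΔ hℓc₄)
    (cut_of_main hp W hΔ Q hQfix hQord) hF hd3 hd2

end Fermat.Agent.GZ.Mod.Integ
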