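/-
GATE-Z (Mazur key step, S15) / node (MOD), INTEGRATOR (helper24; claims row GZ-MOD).

`Top.Moduli C W Q` (contract of `GZ/Top/S15Top.lean`, variant A) and `Top.ModuliB C W Q`
(`GZ/Top/S15TopB.lean`, variant B) from the outputs of the two halves of (MOD):

* **[MOD-beta]** `BetaOut p W Q` (helper80's pin `GZ/Mod/Pin.lean`, VERBATIM): the rational number
  `a' = j(W/⟨Q⟩)`, the relation `RelQ p (j W) a'` and the two `padicValRat` lines at every
  multiplicative prime `ℓ' ≠ p`;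
* **[MOD-alpha]**, existence `AlphaEx p` : a place of `ℚ̄(X₀(p))` over every rational pair `(a, a')`
  with `RelQ p a a'`  (helper80 `RelDescent`/`Exist`);
* **[MOD-alpha]**, reduction `AlphaRedAt p zero ℓ' A` : for a place `x` over a rational pair
  `(a, a')` with `v_{ℓ'}(a) < 0`:  `x ↦ r(∞) ⟺ v(a') = p v(a)`,  `x ↦ r(zero) ⟺ p v(a') = v(a)`,
  and `x` is the only place over `(a, a')`.

`alphaRedAt_of_poleData` derives `AlphaRedAt` from helper48's `AlphaSpec.PoleData` on the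
`SpecMap` of `placeReductionModL h` (`GZ/Mod/AlphaSpecInst.lean`) through the bridge
`GZ/Mod/ValBridge.lean`; the Galois half (`σ • x` lies over the same rational pair, hence
`σ • x = x` by uniqueness at ONE multiplicative prime) is proved here.
-/
import Fermat.Agent.GZ.Top.S15TopB
import Fermat.Agent.GZ.Mod.Pin
import Fermat.Agent.GZ.Mod.ValBridge
import Fermat.Agent.GZ.Mod.AlphaSpecInst
import Fermat.Agent.GZ.Unit.Cusps
import Fermat.Agent.GK.Flat.TSGal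
import Fermat.Agent.GR.H.PlaceVal

set_option autoImplicit false
set_option linter.unusedSectionVars false
set_option synthInstance.maxHeartbeats 400000
set_option maxHeartbeats 1000000

noncomputable section

open AlgebraicCurve ModularCurve WeierstrassCurve
open scoped WeierstrassCurve.Affine

namespace Fermat.Agent.GZ.Mod.Integ

open Fermat.Agent.S24 Fermat.Agent.GR.W.RatRep Fermat.Agent.GZ.Top Fermat.Agent.GZ.Unit
  Fermat.Agent.GZ.Mod Fermat.Agent.GZ.Mod.ValBridge Fermat.Agent.GZ.Mod.AlphaSpec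
  Fermat.Agent.GZ.Mod.AlphaSpecInst
open Fermat.Agent.GH (ValueAt)

local notation "Qb" => AlgebraicClosure ℚ
local notation "GQ" => (AlgebraicClosure ℚ ≃ₐ[ℚ] AlgebraicClosure ℚ)

/-! ### the Galois half -/

section Galois

variable {p : ℕ} [NeZero p]

/-- a rational value of a Galois-fixed function is preserved by the arithmetic Galois action -/
theorem valueAt_galois {f : FN p} (σ : GQ)
    (hf : arithmeticRingAut (modularFunctionFieldFull p) σ f = f)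
    {x : Place Qb (FN p)} {a : ℚ} (h : ValueAt x f ((a : ℚ) : Qb)) :
    ValueAt (arithmeticGalois (modularFunctionFieldFull p) σ • x) f ((a : ℚ) : Qb) := by
  have h1 := (Fermat.Agent.GR.H.PlaceVal.valueAt_smulAut_iff
    (arithmeticGalois (modularFunctionFieldFull p) σ) x f ((a : ℚ) : Qb)).mpr h
  have h2 : arithmeticGalois (modularFunctionFieldFull p) σ • f = f := hf
  have h3 : SemilinearAut.baseAut (arithmeticGalois (modularFunctionFieldFull p) σ)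
      ((a : ℚ) : Qb) = ((a : ℚ) : Qb) := by
    rw [baseAut_arithmeticGalois]
    exact map_ratCast σ a
  rwa [h2, h3] at h1

theorem valueAt_galois_jF (σ : GQ) {x : Place Qb (FN p)} {a : ℚ}
    (h : ValueAt x (jF p) ((a : ℚ) : Qb)) :
    ValueAt (arithmeticGalois (modularFunctionFieldFull p) σ • x) (jF p) ((a : ℚ) : Qb) :=
  valueAt_galois σ (Fermat.Agent.GK.TSGal.arith_jF p σ) h

theorem valueAt_galois_jdF (σ : GQ) {x : Place Qb (FN p)} {a : ℚ}
    (h : ValueAt x (jdF p p dvd_rfl) ((a : ℚ) : Qb)) :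
    ValueAt (arithmeticGalois (modularFunctionFieldFull p) σ • x) (jdF p p dvd_rfl)
      ((a : ℚ) : Qb) :=
  valueAt_galois σ (Fermat.Agent.GK.TSGal.arith_jdF p σ p dvd_rfl) h

end Galois

/-! ### the binders -/

section Binders

variable (p : ℕ) [NeZero p]

/-- **[MOD-alpha], existence**: a place over every rational pair satisfying the relation. -/
def AlphaEx : Prop :=
  ∀ a a' : ℚ, RelQ p a a' → ∃ x : Place Qb (FN p),
    ValueAt x (jF p) ((a : ℚ) : Qb) ∧ ValueAt x (jdF p p dvd_rfl) ((a' : ℚ) : Qb)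

/-- **[MOD-alpha], reduction at one valuation ring `A ∣ ℓ'`** (`padicValRat` form). -/
def AlphaRedAt (zero : Place Qb (FN p)) (ℓ' : ℕ) (A : ValuationSubring Qb) : Prop :=
  ∀ (h : ReductionInputsModL A p) (x : Place Qb (FN p)) (a a' : ℚ),
    ValueAt x (jF p) ((a : ℚ) : Qb) → ValueAt x (jdF p p dvd_rfl) ((a' : ℚ) : Qb) →
    padicValRat ℓ' a < 0 →
      (placeReductionModL h x = placeReductionModL h (cuspInf p) ↔
        padicValRat ℓ' a' = (p : ℤ) * padicValRat ℓ' a) ∧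
      (placeReductionModL h x = placeReductionModL h zero ↔
        (p : ℤ) * padicValRat ℓ' a' = padicValRat ℓ' a) ∧
      ∀ x' : Place Qb (FN p), ValueAt x' (jF p) ((a : ℚ) : Qb) →
        ValueAt x' (jdF p p dvd_rfl) ((a' : ℚ) : Qb) → x' = x

/-- **[MOD-alpha], reduction at every prime `ℓ' ≠ p`.** -/
def AlphaRed (zero : Place Qb (FN p)) : Prop :=
  ∀ (ℓ' : ℕ), ℓ'.Prime → ℓ' ≠ p → ∀ A : ValuationSubring Qb, A.LiesOverPrime ℓ' →
    AlphaRedAt p zero ℓ' A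

end Binders

/-! ### `AlphaRedAt` from helper48's `PoleData` -/

section OfPoleData

variable {p : ℕ} [NeZero p]

/-- `padicValRat` of the right-hand sides: the second coordinate is nonzero as soon as one of the
two valuation patterns holds -/
theorem ne_zero_of_pattern {ℓ' : ℕ} {a a' : ℚ} (hp0 : p ≠ 0) (ha : padicValRat ℓ' a < 0)
    (h : padicValRat ℓ' a' = (p : ℤ) * padicValRat ℓ' a ∨
      (p : ℤ) * padicValRat ℓ' a' = padicValRat ℓ' a) : a' ≠ 0 := by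
  rintro rfl
  have hp1 : (0 : ℤ) < (p : ℤ) := by exact_mod_cast Nat.pos_of_ne_zero hp0
  rcases h with h | h
  · rw [padicValRat.zero] at h
    have : (p : ℤ) * padicValRat ℓ' a < 0 := mul_neg_of_pos_of_neg hp1 ha
    omega
  · rw [padicValRat.zero, mul_zero] at h
    omega

/-- **`AlphaRedAt` from `PoleData`** on the `SpecMap` of the prelude's place reduction map. -/
theorem alphaRedAt_of_poleData {zero : Place Qb (FN p)} {ℓ' : ℕ} (hℓ' : ℓ'.Prime)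
    {A : ValuationSubring Qb} (hA : A.LiesOverPrime ℓ')
    (hle : Fermat.Agent.GJ.J1.Val.FresBar p A ≤
      modularFunctionFieldFullC (IsLocalRing.ResidueField A) p)
    (hP : ∀ h : ReductionInputsModL A p, ∃ Qi Qz,
      PoleData (specMapModL h hle) (cuspInf p) zero Qi Qz (jF p) (jdF p p dvd_rfl) p) :
    AlphaRedAt p zero ℓ' A := by
  intro h x a a' hx hx' hneg
  have : HasPrincipalDivisors Qb (FN p) := hasPrincipalDivisors_barZ
  obtain ⟨Qi, Qz, C⟩ := hP h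
  have ha0 : a ≠ 0 := ne_zero_of_padicValRat_neg hneg
  have haA : ((a : ℚ) : Qb) ∉ (Fermat.Agent.GJ.S37Bridge.redDataFull p A hle).A :=
    (ratCast_not_mem_iff hℓ' hA ha0).mpr hneg
  have ha'A : ((a' : ℚ) : Qb) ∉ (Fermat.Agent.GJ.S37Bridge.redDataFull p A hle).A :=
    C.not_mem_A_snd hx hx' haA
  have ha'0 : a' ≠ 0 := by
    rintro rfl
    apply ha'A
    rw [Rat.cast_zero]
    exact zero_mem _
  refine ⟨?_, ?_, ?_⟩
  · have := C.r_eq_r_cI_iff hx hx' haA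
    rw [specMapModL_r] at this
    rw [this]
    exact valuation_eq_pow_iff hℓ' hA ha0 ha'0 p
  · have := C.r_eq_r_cZ_iff hx hx' haA
    rw [specMapModL_r] at this
    rw [this]
    exact (valuation_eq_pow_iff hℓ' hA ha'0 ha0 p).trans eq_comm
  · intro x' h1 h2
    exact C.unique_of_pair h1 h2 hx hx' haA

/-- **`AlphaRed` at the cusp `0 = W_p • ∞` from `PoleData` at every prime `ℓ' ≠ p`**
(helper16's instance target, VERBATIM in helper48's vocabulary). -/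
theorem alphaRed_of_poleData (hp : p.Prime)
    (hP : ∀ (ℓ' : ℕ), ℓ'.Prime → ℓ' ≠ p → ∀ A : ValuationSubring Qb, A.LiesOverPrime ℓ' →
      ∀ (hle : Fermat.Agent.GJ.J1.Val.FresBar p A ≤
        modularFunctionFieldFullC (IsLocalRing.ResidueField A) p)
        (h : ReductionInputsModL A p), ∃ Qi Qz,
          PoleData (specMapModL h hle) (cuspInf p) (cuspZero hp) Qi Qz (jF p)
            (jdF p p dvd_rfl) p) :
    AlphaRed p (cuspZero hp) := by
  intro ℓ' hℓ' hℓ'p A hA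
  have : Fact ℓ'.Prime := ⟨hℓ'⟩
  have hndvd : ¬ ℓ' ∣ p := fun h => hℓ'p ((Nat.prime_dvd_prime_iff_eq hℓ' hp).mp h)
  exact alphaRedAt_of_poleData hℓ' hA (hle_of_not_dvd hndvd hA)
    (hP ℓ' hℓ' hℓ'p A hA (hle_of_not_dvd hndvd hA))

end OfPoleData

/-! ### the elliptic side: `v_{ℓ'}(j W) < 0` at a multiplicative prime -/

theorem padicValRat_jRat_neg {W : WeierstrassCurve ℤ} (hΔ : W.Δ ≠ 0) {ℓ' : ℕ} (hℓ' : ℓ'.Prime)
    (hdvd : (ℓ' : ℤ) ∣ W.Δ) (hc₄ : ¬ (ℓ' : ℤ) ∣ W.c₄) : padicValRat ℓ' (jRat W) < 0 := by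
  have : Fact ℓ'.Prime := ⟨hℓ'⟩
  have hc0 : W.c₄ ≠ 0 := by
    rintro h
    exact hc₄ (h ▸ dvd_zero _)
  have hcQ : ((W.c₄ : ℤ) : ℚ) ≠ 0 := by exact_mod_cast hc0
  have hΔQ : ((W.Δ : ℤ) : ℚ) ≠ 0 := by exact_mod_cast hΔ
  unfold jRat
  rw [padicValRat.div (pow_ne_zero 3 hcQ) hΔQ, padicValRat.pow, padicValRat.of_int,
    padicValRat.of_int]
  have h1 : padicValInt ℓ' W.c₄ = 0 := padicValInt.eq_zero_of_not_dvd hc₄
  have h2 : 0 < padicValInt ℓ' W.Δ := by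
    have hd : (ℓ' : ℤ) ^ 1 ∣ W.Δ := by simpa using hdvd
    rcases (padicValInt_dvd_iff (p := ℓ') 1 W.Δ).1 hd with h0 | hle
    · exact absurd h0 hΔ
    · exact hle
  rw [h1]
  push_cast
  omega

/-! ### variant A -/

section VariantA

variable {p : ℕ} [NeZero p]

/-- **(MOD), variant A**: `Top.Moduli C W Q` from [MOD-beta], [MOD-alpha] and ONE reduction frame
at a multiplicative prime `ℓ₀ ≠ p` (used only for the uniqueness, i.e. rationality, of `x`). -/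
theorem moduli_of_alpha_beta (C : CuspPkg p) {W : WeierstrassCurve ℤ} (hΔ : W.Δ ≠ 0)
    {Q : ((W.map (Int.castRingHom ℚ))⁄(AlgebraicClosure ℚ)).Point}
    (hβ : BetaOut p W Q) (hE : AlphaEx p) (hR : AlphaRed p C.zero)
    {ℓ₀ : ℕ} (hℓ₀ : ℓ₀.Prime) (hℓ₀p : ℓ₀ ≠ p) (hℓ₀Δ : (ℓ₀ : ℤ) ∣ W.Δ) (hℓ₀c₄ : ¬ (ℓ₀ : ℤ) ∣ W.c₄)
    {A₀ : ValuationSubring Qb} (hA₀ : A₀.LiesOverPrime ℓ₀) (h₀ : ReductionInputsModL A₀ p) :
    Moduli C W Q := by
  obtain ⟨a', hrel, hval⟩ := hβ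
  obtain ⟨x, hx, hx'⟩ := hE _ _ hrel
  refine ⟨x, fun σ => ?_, ?_⟩
  · exact (hR ℓ₀ hℓ₀ hℓ₀p A₀ hA₀ h₀ x _ _ hx hx'
      (padicValRat_jRat_neg hΔ hℓ₀ hℓ₀Δ hℓ₀c₄)).2.2 _ (valueAt_galois_jF σ hx)
      (valueAt_galois_jdF σ hx')
  · intro ℓ' hℓ' hℓ'p hℓ'Δ hℓ'c₄ A hA h
    obtain ⟨hi, hz, -⟩ := hR ℓ' hℓ' hℓ'p A hA h x _ _ hx hx'
      (padicValRat_jRat_neg hΔ hℓ' hℓ'Δ hℓ'c₄)
    obtain ⟨hvi, hvz⟩ := hval ℓ' hℓ' hℓ'p hℓ'Δ hℓ'c₄ A hA
    exact ⟨fun hin => hi.mpr (hvi hin), fun hnin => hz.mpr (hvz hnin)⟩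

/-- variant A with the reduction frames taken from `RedAll p` and the multiplicative prime `2` of
the frozen statement S15. -/
theorem moduli_of_alpha_beta_two (hp2 : p ≠ 2) (C : CuspPkg p) {W : WeierstrassCurve ℤ}
    (hΔ : W.Δ ≠ 0) {Q : ((W.map (Int.castRingHom ℚ))⁄(AlgebraicClosure ℚ)).Point}
    (h2Δ : (2 : ℤ) ∣ W.Δ) (h2c₄ : ¬ (2 : ℤ) ∣ W.c₄)
    (hβ : BetaOut p W Q) (hE : AlphaEx p) (hR : AlphaRed p C.zero) (hRed : RedAll p) :
    Moduli C W Q := by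
  obtain ⟨A₂, hA₂⟩ := Fermat.Agent.Common_helper32.exists_liesOverPrime 2 Nat.prime_two
  exact moduli_of_alpha_beta C hΔ hβ hE hR Nat.prime_two (Ne.symm hp2)
    (by exact_mod_cast h2Δ) (by exact_mod_cast h2c₄) hA₂
    (hRed 2 Nat.prime_two (Ne.symm hp2) A₂ hA₂)

end VariantA

/-! ### variant B -/

section VariantB

variable {p : ℕ} [NeZero p]

/-- **(MOD), variant B**: `Top.ModuliB C W Q`; the clause at the primes `ℓ' ≥ 5` from
[MOD-beta] + [MOD-alpha] as in variant A (the reduction binder is only needed at `ℓ' ≥ 5`), the two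
clauses at `2`, `3` (levels `3p`, `2p`) as binders about the place over `(j W, a')`. -/
theorem moduliB_of_alpha_beta (C : CuspPkg p) {W : WeierstrassCurve ℤ} (hΔ : W.Δ ≠ 0)
    {Q : ((W.map (Int.castRingHom ℚ))⁄(AlgebraicClosure ℚ)).Point}
    (hβ : BetaOut p W Q) (hE : AlphaEx p)
    (hR : ∀ (ℓ' : ℕ), ℓ'.Prime → ℓ' ≠ p → 5 ≤ ℓ' → ∀ A : ValuationSubring Qb,
      A.LiesOverPrime ℓ' → AlphaRedAt p C.zero ℓ' A)
    {ℓ₀ : ℕ} (hℓ₀ : ℓ₀.Prime) (hℓ₀p : ℓ₀ ≠ p) (hℓ₀5 : 5 ≤ ℓ₀) (hℓ₀Δ : (ℓ₀ : ℤ) ∣ W.Δ)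
    (hℓ₀c₄ : ¬ (ℓ₀ : ℤ) ∣ W.c₄)
    {A₀ : ValuationSubring Qb} (hA₀ : A₀.LiesOverPrime ℓ₀) (h₀ : ReductionInputsModL A₀ p)
    (h23 : ∀ (x : Place Qb (FN p)) (a' : ℚ), ValueAt x (jF p) ((jRat W : ℚ) : Qb) →
      ValueAt x (jdF p p dvd_rfl) ((a' : ℚ) : Qb) →
      (∀ A : ValuationSubring Qb, A.LiesOverPrime 2 →
        (p : ℤ) * padicValRat 2 a' = padicValRat 2 (jRat W) → ReductionInputsModL A (3 * p) →
          reductionModL A (3 * p)
            (Fermat.Agent.GJ.S37HeckePullback.pullBar (Dvd.intro_left 3 rfl)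
              (diffCl p x C.zero)) = 0) ∧
      (∀ A : ValuationSubring Qb, A.LiesOverPrime 3 →
        (p : ℤ) * padicValRat 3 a' = padicValRat 3 (jRat W) → ReductionInputsModL A (2 * p) →
          reductionModL A (2 * p)
            (Fermat.Agent.GJ.S37HeckePullback.pullBar (Dvd.intro_left 2 rfl)
              (diffCl p x C.zero)) = 0))
    (hp2 : p ≠ 2) (hp3 : p ≠ 3)
    (h2Δ : (2 : ℤ) ∣ W.Δ) (h2c₄ : ¬ (2 : ℤ) ∣ W.c₄)
    (h3Δ : (3 : ℤ) ∣ W.Δ) (h3c₄ : ¬ (3 : ℤ) ∣ W.c₄) :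
    ModuliB C W Q := by
  obtain ⟨a', hrel, hval⟩ := hβ
  obtain ⟨x, hx, hx'⟩ := hE _ _ hrel
  refine ⟨x, fun σ => ?_, ?_, ?_, ?_⟩
  · exact (hR ℓ₀ hℓ₀ hℓ₀p hℓ₀5 A₀ hA₀ h₀ x _ _ hx hx'
      (padicValRat_jRat_neg hΔ hℓ₀ hℓ₀Δ hℓ₀c₄)).2.2 _ (valueAt_galois_jF σ hx)
      (valueAt_galois_jdF σ hx')
  · intro ℓ' hℓ' hℓ'p hℓ'5 hℓ'Δ hℓ'c₄ A hA h hin
    obtain ⟨hi, -, -⟩ := hR ℓ' hℓ' hℓ'p hℓ'5 A hA h x _ _ hx hx'
      (padicValRat_jRat_neg hΔ hℓ' hℓ'Δ hℓ'c₄)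
    exact hi.mpr ((hval ℓ' hℓ' hℓ'p hℓ'Δ hℓ'c₄ A hA).1 hin)
  · intro A hA hred hnin
    exact (h23 x a' hx hx').1 A hA
      ((hval 2 Nat.prime_two (Ne.symm hp2) (by exact_mod_cast h2Δ) (by exact_mod_cast h2c₄)
        A hA).2 hnin) hred
  · intro A hA hred hnin
    exact (h23 x a' hx hx').2 A hA
      ((hval 3 Nat.prime_three (Ne.symm hp3) (by exact_mod_cast h3Δ) (by exact_mod_cast h3c₄)
        A hA).2 hnin) hred

end VariantB

end Fermat.Agent.GZ.Mod.Integ
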