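/-
GATE-Z (Mazur key step, S15) / node (MOD), INTEGRATOR PLUG (helper24; claims row GZ-MOD).

The [MOD-alpha] binders of `GZ/Mod/Integrator.lean` discharged from main:

* `alphaEx p : AlphaEx p`                      ⟸ helper80 `GZ/Mod/Exist.exists_place_of_relQ`;
* `alphaRed hp : AlphaRed p (cuspZero hp)`     ⟸ helper16 `GZ/Mod/Inst/Level.poleData_full` (every
  prime `ℓ' ≠ p`, `2` and `3` included) + helper48 `AlphaSpec` + `ValBridge`;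
* **`moduli_of_beta`** : `Top.Moduli (cuspPkgFinal hp) W Q` from `BetaOut p W Q` + `RedAll p`
  (only [MOD-beta] is left of the node (MOD), variant A);
* **`s15_of_beta`** : the frozen statement S15 from `BetaOut`, `HRed p`, `RedAll p`, `FStmt`
  (`CuspPkg` = helper25 `cuspPkgFinal`, `Cut` = helper67 `GZ/Cut/Main.dvd_pred_or_dvd_succ`).
-/
import Fermat.Agent.GZ.Mod.Integrator
import Fermat.Agent.GZ.Mod.Exist
import Fermat.Agent.GZ.Mod.Inst.Level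
import Fermat.Agent.GZ.Unit.Hecke
import Fermat.Agent.GZ.Cut.Main

set_option autoImplicit false
set_option linter.unusedSectionVars false
set_option synthInstance.maxHeartbeats 400000
set_option maxHeartbeats 1000000

noncomputable section

open AlgebraicCurve ModularCurve WeierstrassCurve
open scoped WeierstrassCurve.Affine

namespace Fermat.Agent.GZ.Mod.Integ

open Fermat.Agent.S24 Fermat.Agent.GR.W.RatRep Fermat.Agent.GZ.Top Fermat.Agent.GZ.Unit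
  Fermat.Agent.GZ.Mod Fermat.Agent.GZ.Mod.AlphaSpec Fermat.Agent.GZ.Mod.AlphaSpecInst
open Fermat.Agent.GH (ValueAt)

local notation "Qb" => AlgebraicClosure ℚ

variable {p : ℕ} [NeZero p]

/-- **[MOD-alpha], existence — closed** (helper80). -/
theorem alphaEx (p : ℕ) [NeZero p] : AlphaEx p :=
  fun a a' h => exists_place_of_relQ a a' h

/-- **[MOD-alpha], reduction — closed** at every prime `ℓ' ≠ p` (helper16 + helper48). -/
theorem alphaRed (hp : p.Prime) : AlphaRed p (cuspZero hp) := by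
  refine alphaRed_of_poleData hp fun ℓ' hℓ' hℓ'p A hA hle h => ?_
  have : Fact ℓ'.Prime := ⟨hℓ'⟩
  have hndvd : ¬ ℓ' ∣ p := fun h => hℓ'p ((Nat.prime_dvd_prime_iff_eq hℓ' hp).mp h)
  exact ⟨_, _, Fermat.Agent.GZ.Mod.Inst.poleData_full hp hndvd A hA (specMapModL h hle)⟩

/-- **(MOD), variant A, from [MOD-beta] alone** (+ the reduction inputs `RedAll p`). -/
theorem moduli_of_beta (hp : p.Prime) (hp2 : p ≠ 2) {W : WeierstrassCurve ℤ} (hΔ : W.Δ ≠ 0)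
    {Q : ((W.map (Int.castRingHom ℚ))⁄(AlgebraicClosure ℚ)).Point}
    (h2Δ : (2 : ℤ) ∣ W.Δ) (h2c₄ : ¬ (2 : ℤ) ∣ W.c₄)
    (hβ : BetaOut p W Q) (hRed : RedAll p) :
    Moduli (Fermat.Agent.GZ.Unit.Hecke.cuspPkgFinal hp) W Q :=
  moduli_of_alpha_beta_two hp2 _ hΔ h2Δ h2c₄ hβ (alphaEx p) (alphaRed hp) hRed

/-- **(CUT) in the contract shape of `GZ/Top/S15Top`** (helper67). -/
theorem cut_of_main {p : ℕ} (hp : p.Prime) (W : WeierstrassCurve ℤ) (hΔ : W.Δ ≠ 0)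
    (Q : ((W.map (Int.castRingHom ℚ))⁄(AlgebraicClosure ℚ)).Point)
    (hQfix : ∀ σ : AlgebraicClosure ℚ ≃ₐ[ℚ] AlgebraicClosure ℚ, σ • Q = Q)
    (hQord : addOrderOf Q = p) : Cut p W Q :=
  fun _ hℓ hℓp hℓΔ hℓc₄ A hA h0 =>
    Fermat.Agent.GZ.Cut.dvd_pred_or_dvd_succ hp W hΔ Q hQfix hQord hℓ hℓp hℓΔ hℓc₄ A hA h0

/-- **Frozen S15 from [MOD-beta], (HRED), (AUX23 + levelPackage) and (F)** — variant A with the
nodes (UNIT), (MOD-alpha), (CUT) discharged. -/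
theorem s15_of_beta
    {p : ℕ} (hp : p.Prime) (hp' : p ∉ ({2, 3, 5, 7, 13} : Finset ℕ))
    (W : WeierstrassCurve ℤ) (hΔ : W.Δ ≠ 0)
    (Q : ((W.map (Int.castRingHom ℚ))⁄(AlgebraicClosure ℚ)).Point)
    (hQfix : ∀ σ : AlgebraicClosure ℚ ≃ₐ[ℚ] AlgebraicClosure ℚ, σ • Q = Q)
    (hQord : addOrderOf Q = p)
    (h2Δ : (2 : ℤ) ∣ W.Δ) (h2c₄ : ¬ (2 : ℤ) ∣ W.c₄)
    (h2 : ∀ A : ValuationSubring (AlgebraicClosure ℚ), A.LiesOverPrime 2 → ¬ W.InZeroComponentAt A Q)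
    (h3Δ : (3 : ℤ) ∣ W.Δ) (h3c₄ : ¬ (3 : ℤ) ∣ W.c₄)
    (h3 : ∀ A : ValuationSubring (AlgebraicClosure ℚ), A.LiesOverPrime 3 → ¬ W.InZeroComponentAt A Q)
    {ℓ : ℕ} (hℓ : ℓ.Prime) (hℓp : ℓ ≠ p) (hℓΔ : (ℓ : ℤ) ∣ W.Δ) (hℓc₄ : ¬ (ℓ : ℤ) ∣ W.c₄)
    (A : ValuationSubring (AlgebraicClosure ℚ)) (hA : A.LiesOverPrime ℓ)
    (hpNZ : NeZero p)
    (hβ : BetaOut p W Q) (hH : HRed p) (hR : RedAll p)
    (hF : FStmt (Fermat.Agent.GZ.Unit.Hecke.cuspPkgFinal hp) ({2, 3, ℓ} : Finset ℕ)) :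
    ¬ W.InZeroComponentAt A Q := by
  have hp2 : p ≠ 2 := by
    rintro rfl
    exact hp' (by simp)
  exact s15_of_nodes hp hp' W hΔ Q hQfix hQord h2Δ h2c₄ h2 h3Δ h3c₄ h3 hℓ hℓp hℓΔ hℓc₄ A hA hpNZ
    (Fermat.Agent.GZ.Unit.Hecke.cuspPkgFinal hp) hH hR
    (moduli_of_beta hp hp2 hΔ h2Δ h2c₄ hβ hR) (cut_of_main hp W hΔ Q hQfix hQord) hF

end Fermat.Agent.GZ.Mod.Integ
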