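/-
GATE-Z (S15) / node (MOD), variant B, the `Pic⁰` form of the pull-back clause (helper24).

`red_pullBar_diffCl_eq_zero` : if the divisor `r′_* π^* ((x) − (z))` vanishes — `π^*` the pull-back
of divisors along `F_N ⊆ F_{N'}` (`Divisor.pullbackAlong (levelIncl h)`), `r′ = placeReductionModL h'`
the place reduction map at level `N'` — then
`reductionModL A N' (pullBar h (diffCl N x z)) = 0`, which is the shape of the two clauses at the
primes `2`, `3` of `Top.ModuliB` (`GZ/Top/S15TopB.lean`).  The hypothesis is the conclusion of
helper48's `AlphaPull` (P-ABS)/(P-FAM).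
-/
import Fermat.Agent.GZ.Top.S15TopB

set_option autoImplicit false
set_option linter.unusedSectionVars false
set_option synthInstance.maxHeartbeats 400000

noncomputable section

open AlgebraicCurve ModularCurve

namespace Fermat.Agent.GZ.Mod.PullPic

open Fermat.Agent.S24 Fermat.Agent.GZ.Top Fermat.Agent.GJ.S37HeckePullback
  Fermat.Agent.GJ.S37Bounded

variable {N N' : ℕ} [NeZero N] [NeZero N'] (hdvd : N ∣ N')

/-- **the `Pic⁰` form of the pull-back clause.** -/
theorem red_pullBar_diffCl_eq_zero {A : ValuationSubring Kbar} (h' : ReductionInputsModL A N')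
    (x z : Place Kbar (FN N))
    (hdiv :
      haveI := Fermat.Agent.RR.ModularBar.hasPrincipalDivisors N'
      Finsupp.mapDomain (placeReductionModL h')
        (Divisor.pullbackAlong (levelIncl hdvd) (isIntegral_levelIncl hdvd)
          (Finsupp.single x 1 - Finsupp.single z 1 : Divisor Kbar (FN N))) = 0) :
    reductionModL A N' (pullBar hdvd (diffCl N x z)) = 0 := by
  have := Fermat.Agent.RR.ModularBar.hasPrincipalDivisors N'
  unfold diffCl
  rw [pullBar_mk, reductionModL_mk h']
  have : reductionDegZeroAlong (placeReductionModL h')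
      (isPlaceReductionModL_placeReductionModL h').1
      ⟨Divisor.pullbackAlong (levelIncl hdvd) (isIntegral_levelIncl hdvd)
        ((diffDiv N x z : Divisor.degZero (K := Kbar) (F := FN N)) : Divisor Kbar (FN N)),
        Divisor.pullbackAlong_mem_degZero _ _ (fundamentalIdentityAlong_levelIncl hdvd)
          (diffDiv N x z).2⟩ = 0 := by
    apply Subtype.ext
    rw [coe_reductionDegZeroAlong]
    exact hdiv
  rw [this, Pic0.mk_zero]

end Fermat.Agent.GZ.Mod.PullPic
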