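/-
GATE-Z (Mazur key step, S15) / node (MOD), INTEGRATOR PLUG, VARIANT B (helper24; claims row GZ-MOD).

* `PullHyp p zero d ℓ'` : the ONE open [MOD-alpha] item of variant B, in DIVISOR form (= conclusion
  of helper48's `AlphaPull` (P-FAM) at the auxiliary level `d p`): for a place `x` of `X₀(p)` over a
  rational pair `(a, a')` of `0`-type at `ℓ'` (`v(a) < 0`, `p v(a') = v(a)`), every `A ∣ ℓ'` and every
  `h' : ReductionInputsModL A (d p)`:  `r′_* π^* ((x) − (zero)) = 0`.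
* `moduliB_of_beta` : `Top.ModuliB (cuspPkgFinal hp) W Q` from `BetaOut p W Q`,
  `PullHyp p 0 3 2`, `PullHyp p 0 2 3` and ONE multiplicative prime `ℓ₀ ≥ 5` (frame = `levelPackage`).
* **`s15B_of_beta`** : the frozen statement S15 from `BetaOut`, the two `PullHyp`, `HRedGood`, `FStmt`
  (`CuspPkg` = `cuspPkgFinal`, `Cut` = helper67, relative degrees = helper45); the cases `ℓ = 2, 3`
  are the hypotheses `h2`, `h3` themselves.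
-/
import Fermat.Agent.GZ.Mod.IntegratorPlug
import Fermat.Agent.GZ.Mod.PullPic
import Fermat.Agent.GZ.Deg.RelDeg

set_option autoImplicit false
set_option linter.unusedSectionVars false
set_option synthInstance.maxHeartbeats 400000
set_option maxHeartbeats 1000000

noncomputable section

open AlgebraicCurve ModularCurve WeierstrassCurve
open scoped WeierstrassCurve.Affine

namespace Fermat.Agent.GZ.Mod.Integ

open Fermat.Agent.S24 Fermat.Agent.GR.W.RatRep Fermat.Agent.GZ.Top Fermat.Agent.GZ.Unit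
  Fermat.Agent.GZ.Mod Fermat.Agent.GJ.S37HeckePullback Fermat.Agent.GJ.S37Bounded
open Fermat.Agent.GH (ValueAt)

local notation "Qb" => AlgebraicClosure ℚ

/-- **[MOD-alpha] at the auxiliary level `d p`, divisor form.** -/
def PullHyp (p : ℕ) [NeZero p] (zero : Place Qb (FN p)) (d : ℕ) [NeZero (d * p)] (ℓ' : ℕ) : Prop :=
  ∀ (x : Place Qb (FN p)) (a a' : ℚ),
    ValueAt x (jF p) ((a : ℚ) : Qb) → ValueAt x (jdF p p dvd_rfl) ((a' : ℚ) : Qb) →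
    padicValRat ℓ' a < 0 → (p : ℤ) * padicValRat ℓ' a' = padicValRat ℓ' a →
    ∀ A : ValuationSubring Qb, A.LiesOverPrime ℓ' → ∀ h' : ReductionInputsModL A (d * p),
      haveI := Fermat.Agent.RR.ModularBar.hasPrincipalDivisors (d * p)
      Finsupp.mapDomain (placeReductionModL h')
        (Divisor.pullbackAlong (levelIncl (Dvd.intro_left d rfl))
          (isIntegral_levelIncl (Dvd.intro_left d rfl))
          (Finsupp.single x 1 - Finsupp.single zero 1 : Divisor Qb (FN p))) = 0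

variable {p : ℕ} [NeZero p]

/-- **(MOD), variant B, from [MOD-beta] and the two pull-back clauses.** -/
theorem moduliB_of_beta (hp : p.Prime) (hp2 : p ≠ 2) (hp3 : p ≠ 3) {W : WeierstrassCurve ℤ}
    (hΔ : W.Δ ≠ 0) {Q : ((W.map (Int.castRingHom ℚ))⁄(AlgebraicClosure ℚ)).Point}
    (h2Δ : (2 : ℤ) ∣ W.Δ) (h2c₄ : ¬ (2 : ℤ) ∣ W.c₄)
    (h3Δ : (3 : ℤ) ∣ W.Δ) (h3c₄ : ¬ (3 : ℤ) ∣ W.c₄)
    (hβ : BetaOut p W Q)
    (hP2 : PullHyp p (cuspZero hp) 3 2) (hP3 : PullHyp p (cuspZero hp) 2 3)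
    {ℓ₀ : ℕ} (hℓ₀ : ℓ₀.Prime) (hℓ₀p : ℓ₀ ≠ p) (hℓ₀5 : 5 ≤ ℓ₀) (hℓ₀Δ : (ℓ₀ : ℤ) ∣ W.Δ)
    (hℓ₀c₄ : ¬ (ℓ₀ : ℤ) ∣ W.c₄) :
    ModuliB (Fermat.Agent.GZ.Unit.Hecke.cuspPkgFinal hp) W Q := by
  obtain ⟨A₀, hA₀⟩ := Fermat.Agent.Common_helper32.exists_liesOverPrime ℓ₀ hℓ₀
  have hℓ₀p' : ¬ ℓ₀ ∣ p := fun h => hℓ₀p ((Nat.prime_dvd_prime_iff_eq hℓ₀ hp).mp h)
  obtain ⟨h₀, -⟩ := Fermat.Agent.GJ.S37LSpaceGate.levelPackage p hℓ₀ hℓ₀p'
    (fun h => by omega) (fun h => by omega) A₀ hA₀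
  refine moduliB_of_alpha_beta _ hΔ hβ (alphaEx p)
    (fun ℓ' hℓ' hℓ'p _ A hA => alphaRed hp ℓ' hℓ' hℓ'p A hA)
    hℓ₀ hℓ₀p hℓ₀5 hℓ₀Δ hℓ₀c₄ hA₀ h₀ ?_ hp2 hp3 h2Δ h2c₄ h3Δ h3c₄
  intro x a' hx hx'
  refine ⟨fun A hA hv hred => ?_, fun A hA hv hred => ?_⟩
  · exact Fermat.Agent.GZ.Mod.PullPic.red_pullBar_diffCl_eq_zero _ hred x _
      (hP2 x _ a' hx hx' (padicValRat_jRat_neg hΔ Nat.prime_two (by exact_mod_cast h2Δ)
        (by exact_mod_cast h2c₄)) hv A hA hred)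
  · exact Fermat.Agent.GZ.Mod.PullPic.red_pullBar_diffCl_eq_zero _ hred x _
      (hP3 x _ a' hx hx' (padicValRat_jRat_neg hΔ Nat.prime_three (by exact_mod_cast h3Δ)
        (by exact_mod_cast h3c₄)) hv A hA hred)

/-- **Frozen S15, variant B, from [MOD-beta], the two pull-back clauses, (HRED) at good levels and
(F)** — (UNIT), (MOD-alpha) at level `p`, (CUT), (DEG) discharged. -/
theorem s15B_of_beta
    {p : ℕ} (hp : p.Prime) (hp' : p ∉ ({2, 3, 5, 7, 13} : Finset ℕ))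
    (W : WeierstrassCurve ℤ) (hΔ : W.Δ ≠ 0)
    (Q : ((W.map (Int.castRingHom ℚ))⁄(AlgebraicClosure ℚ)).Point)
    (hQfix : ∀ σ : AlgebraicClosure ℚ ≃ₐ[ℚ] AlgebraicClosure ℚ, σ • Q = Q)
    (hQord : addOrderOf Q = p)
    (h2Δ : (2 : ℤ) ∣ W.Δ) (h2c₄ : ¬ (2 : ℤ) ∣ W.c₄)
    (h2 : ∀ A : ValuationSubring (AlgebraicClosure ℚ), A.LiesOverPrime 2 → ¬ W.InZeroComponentAt A Q)
    (h3Δ : (3 : ℤ) ∣ W.Δ) (h3c₄ : ¬ (3 : ℤ) ∣ W.c₄)
    (h3 : ∀ A : ValuationSubring (AlgebraicClosure ℚ), A.LiesOverPrime 3 → ¬ W.InZeroComponentAt A Q)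
    {ℓ : ℕ} (hℓ : ℓ.Prime) (hℓp : ℓ ≠ p) (hℓΔ : (ℓ : ℤ) ∣ W.Δ) (hℓc₄ : ¬ (ℓ : ℤ) ∣ W.c₄)
    (A : ValuationSubring (AlgebraicClosure ℚ)) (hA : A.LiesOverPrime ℓ)
    (hpNZ : NeZero p)
    (hβ : BetaOut p W Q)
    (hP2 : PullHyp p (cuspZero hp) 3 2) (hP3 : PullHyp p (cuspZero hp) 2 3)
    (hH : HRedGood)
    (hF : FStmt (Fermat.Agent.GZ.Unit.Hecke.cuspPkgFinal hp) ({2, 3, ℓ} : Finset ℕ)) :
    ¬ W.InZeroComponentAt A Q := by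
  have hp2 : p ≠ 2 := by
    rintro rfl
    exact hp' (by simp)
  have hp3 : p ≠ 3 := by
    rintro rfl
    exact hp' (by simp)
  by_cases hℓ2 : ℓ = 2
  · subst hℓ2
    exact h2 A hA
  by_cases hℓ3 : ℓ = 3
  · subst hℓ3
    exact h3 A hA
  have hℓ5 : 5 ≤ ℓ := by
    have h2le := hℓ.two_le
    by_contra hlt
    have h4 : ℓ = 4 := by omega
    rw [h4] at hℓ
    exact absurd hℓ (by decide)
  obtain ⟨hd3, hd2⟩ := Fermat.Agent.GZ.Deg.relfinrank_three_two hp hp2 hp3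
  exact s15_of_nodes_B hp hp' W hΔ Q hQfix hQord h2Δ h2c₄ h2 h3Δ h3c₄ h3 hℓ hℓp hℓΔ hℓc₄ A hA hpNZ
    (Fermat.Agent.GZ.Unit.Hecke.cuspPkgFinal hp) hH
    (moduliB_of_beta hp hp2 hp3 hΔ h2Δ h2c₄ h3Δ h3c₄ hβ hP2 hP3 hℓ hℓp hℓ5 hℓΔ hℓc₄)
    (cut_of_main hp W hΔ Q hQfix hQord) hF hd3 hd2

end Fermat.Agent.GZ.Mod.Integ
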