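/-
GATE-Z / node (MOD), seam to the elliptic side (helper80): **`RelQ` from ONE ring homomorphism out
of the INTEGRAL Laurent series.**

`relQ_of_ringHom_int` : if `θ : ℤ((q)) →+* K` (`K` a field of characteristic zero; on the elliptic
side `θ = ` "evaluate at the Tate parameter `q₀`", e.g. `T6.liftL (evalInt q₀)`) sends the integral
`q`-expansions `j(q)`, `j(q^p)` to the rational numbers `a`, `a'`, then `RelQ p a a'`.

No modular polynomial is involved: an arbitrary relation `G ∈ ℚ[X, Y]` is cleared of denominators,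
descends to a relation over `ℤ` between the integral expansions (coefficientwise injectivity of
`ℤ → ℚ`), and is transported by `θ`.
-/
import Mathlib
import Fermat.Agent.GZ.Mod.Pin
import Fermat.Prelude.Def_ModularCurve_X0ModL

set_option autoImplicit false

noncomputable section

open ModularCurve HahnSeries

namespace Fermat.Agent.GZ.Mod

/-- clearing denominators of a polynomial over `ℚ` -/
theorem exists_int_multiple {σ : Type*} (G : MvPolynomial σ ℚ) :
    ∃ (N : ℕ) (G' : MvPolynomial σ ℤ), N ≠ 0 ∧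
      MvPolynomial.map (Int.castRingHom ℚ) G' = MvPolynomial.C (N : ℚ) * G := by
  classical
  set N : ℕ := ∏ m ∈ G.support, (G.coeff m).den with hN
  have hN0 : N ≠ 0 := Finset.prod_ne_zero_iff.mpr fun m _ => (G.coeff m).den_ne_zero
  refine ⟨N, ∑ m ∈ G.support, MvPolynomial.monomial m
    ((G.coeff m).num * ((N / (G.coeff m).den : ℕ) : ℤ)), hN0, ?_⟩
  conv_rhs => rw [← MvPolynomial.support_sum_monomial_coeff G, Finset.mul_sum]
  rw [map_sum]
  refine Finset.sum_congr rfl fun m hm => ?_
  rw [MvPolynomial.map_monomial, MvPolynomial.C_mul_monomial]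
  congr 1
  have hdvd : (G.coeff m).den ∣ N := Finset.dvd_prod_of_mem (fun m => (G.coeff m).den) hm
  obtain ⟨k, hk⟩ := hdvd
  have hden : ((G.coeff m).den : ℚ) ≠ 0 := Nat.cast_ne_zero.mpr (G.coeff m).den_ne_zero
  rw [hk, Nat.mul_div_cancel_left _ (Nat.pos_of_ne_zero (G.coeff m).den_ne_zero)]
  simp only [eq_intCast, Int.cast_mul, Int.cast_natCast, Nat.cast_mul]
  have h1 : ((G.coeff m).num : ℚ) = G.coeff m * ((G.coeff m).den : ℚ) := by
    rw [eq_comm, ← eq_div_iff hden]
    exact (Rat.num_div_den (G.coeff m)).symm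
  rw [h1]
  ring

theorem coeffMap_intCast_injective :
    Function.Injective (coeffMap (Int.castRingHom ℚ)) := by
  intro x y hxy
  ext k
  have := congrArg (fun z : LaurentSeries ℚ => z.coeff k) hxy
  simpa using this

variable {p : ℕ} [NeZero p]

/-- **`RelQ` from a ring homomorphism on the integral Laurent series.** -/
theorem relQ_of_ringHom_int {a a' : ℚ} {K : Type*} [Field K] [CharZero K]
    (θ : LaurentSeries ℤ →+* K) (hθ : θ (jqModC ℤ) = (a : K))
    (hθp : θ (jqNModC ℤ p) = (a' : K)) : RelQ p a a' := by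
  intro G hG
  obtain ⟨N, G', hN0, hmap⟩ := exists_int_multiple G
  set g : Fin 2 → LaurentSeries ℤ := ![jqModC ℤ, jqNModC ℤ p] with hg
  -- the relation over `ℤ`
  have hcoe : (fun i => coeffMap (Int.castRingHom ℚ) (g i)) =
      ![(jq : LaurentSeries ℚ), qExpand ℚ p jq] := by
    funext i
    fin_cases i
    · show coeffMap (Int.castRingHom ℚ) (jqModC ℤ) = jq
      rw [coeffMap_jqModC, jqModC_rat]
    · show coeffMap (Int.castRingHom ℚ) (jqNModC ℤ p) = qExpand ℚ p jq
      rw [coeffMap_jqNModC, jqNModC_rat]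
      rfl
  have hZ : MvPolynomial.aeval g G' = 0 := by
    apply coeffMap_intCast_injective
    rw [map_zero, MvPolynomial.map_aeval, hcoe]
    have h1 : (coeffMap (Int.castRingHom ℚ)).comp (algebraMap ℤ (LaurentSeries ℤ)) =
        (algebraMap ℚ (LaurentSeries ℚ)).comp (Int.castRingHom ℚ) := RingHom.ext_int _ _
    rw [h1, MvPolynomial.coe_eval₂Hom, ← MvPolynomial.eval₂_map, hmap,
      ← MvPolynomial.aeval_def, map_mul, hG, mul_zero]
  -- transport by `θ`
  have h2 := congrArg θ hZ
  rw [map_zero, MvPolynomial.map_aeval] at h2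
  have h3 : θ.comp (algebraMap ℤ (LaurentSeries ℤ)) =
      (algebraMap ℚ K).comp (Int.castRingHom ℚ) := RingHom.ext_int _ _
  have h4 : (fun i => θ (g i)) = fun i => algebraMap ℚ K (![a, a'] i) := by
    funext i
    fin_cases i
    · exact hθ
    · exact hθp
  rw [h3, h4, MvPolynomial.coe_eval₂Hom, ← MvPolynomial.eval₂_map, hmap] at h2
  have h5 : MvPolynomial.eval₂ (algebraMap ℚ K) (fun i => algebraMap ℚ K (![a, a'] i))
      (MvPolynomial.C (N : ℚ) * G) = algebraMap ℚ K ((N : ℚ) * MvPolynomial.eval ![a, a'] G) := by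
    have := MvPolynomial.comp_aeval_apply (f := ![a, a']) (Algebra.ofId ℚ K)
      (MvPolynomial.C (N : ℚ) * G)
    rw [MvPolynomial.aeval_eq_eval, map_mul, MvPolynomial.eval_C] at this
    rw [MvPolynomial.aeval_def] at this
    exact this.symm
  rw [h5] at h2
  have h6 := (map_eq_zero (algebraMap ℚ K)).mp h2
  rcases mul_eq_zero.mp h6 with h | h
  · exact absurd (Nat.cast_eq_zero.mp h) hN0
  · exact h

end Fermat.Agent.GZ.Mod
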