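/-
GATE-Z / node (MOD), modular side (helper80): **the relation predicate is symmetric** (Atkin–Lehner)
and the place over a pair `(a, a')` satisfying `RelQ` in EITHER order.

On the elliptic side the relation is checked in one completion, in the form
`(a, a') = (j(q₀), j(q₀^p))` when `⟨Q⟩ = μ_p` there (`RelQ p a a'`), and in the SWAPPED form
`(a, a') = (j(t^p), j(t))` when `⟨Q⟩ ∋ t = q₀^{1/p}` (`RelQ p a' a`).  The Atkin–Lehner involution
`W_p` of `ℚ̄(X₀(p))` swaps the generators `j`, `j_p` (`GL/Eta/Fricke.wAut_jF'`, `wAut_jdF'`), hence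
`Rel p a a' ↔ Rel p a' a`.

* `rel_symm`                : `Rel p a a' → Rel p a' a`;
* `exists_place_of_relQ_or` : `RelQ p a a' ∨ RelQ p a' a → ∃ x, j(x) = a ∧ j_p(x) = a'`.
-/
import Mathlib
import Fermat.Agent.GZ.Mod.Exist
import Fermat.Agent.GL.Eta.Fricke

set_option autoImplicit false

noncomputable section

open ModularCurve AlgebraicCurve

namespace Fermat.Agent.GZ.Mod

open Fermat.Agent.S24 Fermat.Agent.GH Fermat.Agent.GK.AL

variable {p : ℕ} [NeZero p]

omit [NeZero p] in
/-- `p ∥ p` -/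
theorem exactDvd_prime (hp : p.Prime) : ExactDvd p p :=
  ⟨hp, dvd_rfl, fun h => by
    have h1 := Nat.le_of_dvd hp.pos h
    have h2 := hp.one_lt
    nlinarith⟩

/-- the swap of the two variables -/
def swapVars : MvPolynomial (Fin 2) Kbar →ₐ[Kbar] MvPolynomial (Fin 2) Kbar :=
  MvPolynomial.rename (Equiv.swap (0 : Fin 2) 1)

theorem aeval_swapVars {A : Type*} [CommRing A] [Algebra Kbar A] (u v : A)
    (G : MvPolynomial (Fin 2) Kbar) :
    MvPolynomial.aeval ![u, v] (swapVars G) = MvPolynomial.aeval ![v, u] G := by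
  unfold swapVars
  rw [MvPolynomial.aeval_rename]
  have hfun : (![u, v] ∘ ⇑(Equiv.swap (0 : Fin 2) 1)) = ![v, u] := by
    funext i
    fin_cases i <;> simp
  rw [hfun]

theorem eval_swapVars (a a' : Kbar) (G : MvPolynomial (Fin 2) Kbar) :
    MvPolynomial.eval ![a, a'] (swapVars G) = MvPolynomial.eval ![a', a] G := by
  have := aeval_swapVars (A := Kbar) a a' G
  rwa [MvPolynomial.aeval_eq_eval, MvPolynomial.aeval_eq_eval] at this

/-- **symmetry of the relation predicate** -/
theorem rel_symm (hp : p.Prime) {a a' : Kbar} (h : Rel p a a') : Rel p a' a := by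
  intro G hG
  rw [← eval_swapVars]
  apply h
  -- `G^{sw}(j, j_p) = G(j_p, j) = W (G(j, j_p)) = 0`
  have hw : (fun i => wAut (exactDvd_prime hp) (genPair p i)) = ![jdF p p dvd_rfl, jF p] := by
    funext i
    fin_cases i
    · exact Fermat.Agent.GL.Eta.wAut_jF' (exactDvd_prime hp)
    · exact Fermat.Agent.GL.Eta.wAut_jdF' (exactDvd_prime hp)
  have h1 := congrArg (wAut (exactDvd_prime hp)) hG
  rw [map_zero, ← AlgEquiv.coe_toAlgHom, MvPolynomial.comp_aeval_apply] at h1
  have h2 : genPair p = ![jF p, jdF p p dvd_rfl] := rfl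
  rw [h2, aeval_swapVars]
  rw [← hw]
  exact h1

/-- **the place over `(a, a')` from `RelQ` in either order** (`AlphaEx'` of the (MOD) integrator). -/
theorem exists_place_of_relQ_or (hp : p.Prime) (a a' : ℚ) (h : RelQ p a a' ∨ RelQ p a' a) :
    ∃ x : Place Kbar (FN p), ValueAt x (jF p) (a : Kbar) ∧
      ValueAt x (jdF p p dvd_rfl) (a' : Kbar) := by
  rcases h with h | h
  · exact exists_place_of_relQ a a' h
  · exact exists_place_of_rel (rel_symm hp (rel_of_relQ h))

end Fermat.Agent.GZ.Mod
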