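/-
GATE-Z (S15), END-TO-END PLUG (helper91): **frozen S15 ⟸ (F) ALONE** (variant B).

`s15_of_fStmt` = `Integ.s15B_of_beta` (helper24) with every other binder discharged on main:

* `hβ  : BetaOut p W Q`                          := `Tate.Out.betaOut_two`   ([MOD-beta], helper91 + T0–T6 owners);
* `hP2 : PullHyp p (cuspZero hp) 3 2`, `hP3 : PullHyp p (cuspZero hp) 2 3`
                                                  := `Inst.LevelDP.pullHyp_three / pullHyp_two` (helper16);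
* `hH  : HRedGood`                                := `HRed.hRedGood`          (helper42).

The only hypothesis left besides the binders of the frozen statement is
`hF : Top.FStmt (cuspPkgFinal hp) {2, 3, ℓ}` (node (F), helper20).
-/
import Mathlib
import Fermat.Agent.GZ.Mod.IntegratorPlugB2
import Fermat.Agent.GZ.Mod.Inst.LevelDP.AuxFam
import Fermat.Agent.GZ.HRed.TopB
import Fermat.Agent.GZ.Tate.Out.Final

set_option autoImplicit false

open AlgebraicCurve ModularCurve WeierstrassCurve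
open scoped WeierstrassCurve.Affine

namespace Fermat.Agent.GZ.Mod.S15OfF

open Fermat.Agent.GZ.Top Fermat.Agent.GZ.Unit

/-- **Frozen S15 from (F) alone.** -/
theorem s15_of_fStmt
    {p : ℕ} (hp : p.Prime) (hp' : p ∉ ({2, 3, 5, 7, 13} : Finset ℕ))
    (W : WeierstrassCurve ℤ) (hΔ : W.Δ ≠ 0)
    (Q : ((W.map (Int.castRingHom ℚ))⁄(AlgebraicClosure ℚ)).Point)
    (hQfix : ∀ σ : AlgebraicClosure ℚ ≃ₐ[ℚ] AlgebraicClosure ℚ, σ • Q = Q)
    (hQord : addOrderOf Q = p)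
    (h2Δ : (2 : ℤ) ∣ W.Δ) (h2c₄ : ¬ (2 : ℤ) ∣ W.c₄)
    (h2 : ∀ A : ValuationSubring (AlgebraicClosure ℚ), A.LiesOverPrime 2 → ¬ W.InZeroComponentAt A Q)
    (h3Δ : (3 : ℤ) ∣ W.Δ) (h3c₄ : ¬ (3 : ℤ) ∣ W.c₄)
    (h3 : ∀ A : ValuationSubring (AlgebraicClosure ℚ), A.LiesOverPrime 3 → ¬ W.InZeroComponentAt A Q)
    {ℓ : ℕ} (hℓ : ℓ.Prime) (hℓp : ℓ ≠ p) (hℓΔ : (ℓ : ℤ) ∣ W.Δ) (hℓc₄ : ¬ (ℓ : ℤ) ∣ W.c₄)
    (A : ValuationSubring (AlgebraicClosure ℚ)) (hA : A.LiesOverPrime ℓ)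
    (hpNZ : NeZero p)
    (hF : FStmt (Fermat.Agent.GZ.Unit.Hecke.cuspPkgFinal hp) ({2, 3, ℓ} : Finset ℕ)) :
    ¬ W.InZeroComponentAt A Q := by
  have hp2 : p ≠ 2 := by
    rintro rfl
    exact hp' (by simp)
  have hp5 : 5 ≤ p := by
    by_contra hlt
    have hlt' : p < 5 := by omega
    have h2le := hp.two_le
    interval_cases p
    · exact hp' (by simp)
    · exact hp' (by simp)
    · exact absurd hp (by decide)
  exact Integ.s15B_of_beta hp hp' W hΔ Q hQfix hQord h2Δ h2c₄ h2 h3Δ h3c₄ h3 hℓ hℓp hℓΔ hℓc₄ A hA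
    hpNZ (Fermat.Agent.GZ.Tate.Out.betaOut_two hp hp2 W hΔ Q hQfix hQord h2Δ h2c₄)
    (Inst.LevelDP.pullHyp_three hp hp5) (Inst.LevelDP.pullHyp_two hp hp5)
    Fermat.Agent.GZ.HRed.hRedGood hF

end Fermat.Agent.GZ.Mod.S15OfF
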